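import Fermat.Agent.ArtinL.Formulas
import Fermat.Agent.BrauerInduction.Main
import Mathlib.FieldTheory.Galois.Basic
import Mathlib.RingTheory.Polynomial.Cyclotomic.Roots
import Mathlib.NumberTheory.NumberField.DedekindZeta

/-!
# Artin L-series through abelian characters

By Brauer's theorem an Artin L-series is a product of integral powers of L-series of linear
characters of intermediate fields. The `|G|`-th power of that of a rational-valued character is a
product of integral powers of zeta functions of intermediate fields, which gives its order at `1`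
and its leading coefficient as `s` decreases to `1`.
-/

set_option autoImplicit false
set_option linter.style.haveILetI false
set_option linter.unusedSectionVars false

noncomputable section

open NumberField Module Finset Filter Topology FA.CharacterTheory FA.BrauerInduction

namespace FA.ArtinL

section group

variable {G : Type*} [Group G] [Fintype G]

/-- A rational-valued character takes equal values on generators of one cyclic subgroup. -/
theorem eq_on_generators {V : Type*} [AddCommGroup V] [Module ℂ V] [FiniteDimensional ℂ V]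
    (σ : Representation ℂ G V) (hrat : ∀ g, ∃ q : ℚ, σ.character g = q) {g h : G}
    (hgh : Subgroup.zpowers g = Subgroup.zpowers h) : σ.character g = σ.character h := by
  classical
  set Z := Subgroup.zpowers g
  have hh : h ∈ Z := hgh ▸ Subgroup.mem_zpowers h
  obtain ⟨a, rfl⟩ := (isOfFinOrder_of_finite g).mem_powers_iff_mem_zpowers.2 hh
  have ho : 0 < orderOf g := orderOf_pos g
  have hcop : a.Coprime (orderOf g) := by
    have h1 : orderOf (g ^ a) = orderOf g := by
      rw [← Nat.card_zpowers, ← Nat.card_zpowers g, ← hgh]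
    rw [orderOf_pow, Nat.div_eq_self] at h1
    rcases h1 with h1 | h1
    · omega
    · rw [Nat.coprime_comm]; exact h1
  obtain ⟨ζ, hζ⟩ : ∃ ζ : ℂ, IsPrimitiveRoot ζ (orderOf g) :=
    ⟨_, Complex.isPrimitiveRoot_exp _ ho.ne'⟩
  set g' : Z := ⟨g, Subgroup.mem_zpowers g⟩
  obtain ⟨P, hP⟩ : ∃ P : Polynomial ℚ, ∀ b : ℕ,
      σ.character (g ^ b) = Polynomial.aeval (ζ ^ b) P := by
    suffices hf : ∀ f ∈ AddSubgroup.closure (irr Z : Set (Z → ℂ)),
        ∃ P : Polynomial ℚ, ∀ b : ℕ, f (g' ^ b) = Polynomial.aeval (ζ ^ b) P by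
      obtain ⟨P, hP⟩ := hf _ (character_mem_closure (G := Z) (σ.comp Z.subtype))
      refine ⟨P, fun b => ?_⟩
      rw [← hP b]
      rfl
    intro f hf
    induction hf using AddSubgroup.closure_induction with
    | zero => exact ⟨0, fun b => by simp⟩
    | add x y _ _ hx hy =>
      obtain ⟨P, hP⟩ := hx
      obtain ⟨Q, hQ⟩ := hy
      exact ⟨P + Q, fun b => by simp [hP b, hQ b]⟩
    | neg x _ hx =>
      obtain ⟨P, hP⟩ := hx
      exact ⟨-P, fun b => by simp [hP b]⟩
    | mem x hx =>
      obtain ⟨ψ, rfl⟩ := exists_hom_of_comm (fun a b => mul_comm' a b) hx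
      have hg' : (ψ g' : ℂ) ^ orderOf g = 1 := by
        rw [← Units.val_pow_eq_pow_val, ← map_pow, show g' ^ orderOf g = 1 from
          Subtype.ext (pow_orderOf_eq_one g), map_one, Units.val_one]
      haveI : NeZero (orderOf g) := ⟨ho.ne'⟩
      obtain ⟨i, -, hi⟩ := hζ.eq_pow_of_pow_eq_one hg'
      refine ⟨Polynomial.X ^ i, fun b => ?_⟩
      rw [map_pow (Polynomial.aeval (ζ ^ b)), Polynomial.aeval_X, ← pow_mul, mul_comm, pow_mul,
        hi, ← Units.val_pow_eq_pow_val, ← map_pow]
  obtain ⟨q, hq⟩ := hrat g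
  have h0 : Polynomial.aeval ζ (P - Polynomial.C q) = 0 := by
    have h1 := hP 1
    rw [pow_one, pow_one, hq] at h1
    rw [map_sub, Polynomial.aeval_C, ← h1, eq_ratCast, sub_self]
  have hd : Polynomial.cyclotomic (orderOf g) ℚ ∣ P - Polynomial.C q := by
    rw [Polynomial.cyclotomic_eq_minpoly_rat hζ ho]
    exact minpoly.dvd ℚ ζ h0
  obtain ⟨R, hR⟩ := hd
  have h2 := congrArg (Polynomial.aeval (ζ ^ a)) hR
  have h3 : Polynomial.aeval (ζ ^ a) (Polynomial.cyclotomic (orderOf g) ℚ) = 0 := by
    rw [Polynomial.aeval_def, Polynomial.eval₂_eq_eval_map, Polynomial.map_cyclotomic]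
    exact (hζ.pow_of_coprime a hcop).isRoot_cyclotomic ho
  rw [map_sub, Polynomial.aeval_C, map_mul, h3, zero_mul, sub_eq_zero, eq_ratCast] at h2
  rw [hq, hP a, h2]

open scoped Classical in
/-- The number of conjugations carrying `x` to a generator of `D`. -/
def genCount (D : Subgroup G) (x : G) : ℂ :=
  #(univ.filter fun g : G => Subgroup.zpowers (g * x * g⁻¹) = D)

open scoped Classical in
/-- It is an integral combination of the functions `|H| Ind_H 1`. -/
theorem genCount_mem (D : Subgroup G) :
    genCount D ∈ AddSubgroup.closure (Set.range fun H : Subgroup G =>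
      Nat.card H • induced H fun _ => (1 : ℂ)) := by
  haveI := Fintype.ofFinite (Subgroup G)
  induction hn : Nat.card D using Nat.strong_induction_on generalizing D with
  | _ n ih =>
    subst hn
    have h : genCount D = Nat.card D • induced D (fun _ => (1 : ℂ)) -
        ∑ D' ∈ univ.filter (fun D' => D' < D), genCount D' := by
      funext x
      rw [Pi.sub_apply, Pi.smul_apply, Finset.sum_apply, eq_sub_iff_add_eq, nsmul_eq_mul, induced,
        mul_inv_cancel_left₀ (Nat.cast_ne_zero.2 Nat.card_pos.ne')]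
      simp only [genCount, dite_eq_ite, sum_boole]
      rw [← Nat.cast_sum, ← Nat.cast_add, Nat.cast_inj]
      rw [← card_biUnion fun A _ B _ hne => disjoint_left.2 fun g hg hg' =>
        hne ((mem_filter.1 hg).2.symm.trans (mem_filter.1 hg').2), ← card_union_of_disjoint]
      · congr 1
        ext g
        simp only [mem_union, mem_filter, mem_univ, true_and, mem_biUnion]
        constructor
        · rintro (h | ⟨D', h, h'⟩)
          · exact h ▸ Subgroup.mem_zpowers _
          · exact h.le (h' ▸ Subgroup.mem_zpowers _)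
        · intro h
          rcases eq_or_lt_of_le (Subgroup.zpowers_le.2 h) with he | hlt
          · exact Or.inl he
          · exact Or.inr ⟨_, hlt, rfl⟩
      · refine disjoint_left.2 fun g hg hg' => ?_
        obtain ⟨D', hD', hg'⟩ := mem_biUnion.1 hg'
        exact (mem_filter.1 hD').2.ne ((mem_filter.1 hg').2.symm.trans (mem_filter.1 hg).2)
    rw [h]
    refine sub_mem (AddSubgroup.subset_closure ⟨D, rfl⟩) (AddSubgroup.sum_mem _ fun D' hD' => ?_)
    have hlt := (mem_filter.1 hD').2
    exact ih _ ((Subgroup.card_le_of_le hlt.le).lt_of_ne fun e =>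
      hlt.ne (Subgroup.eq_of_le_of_card_ge hlt.le e.ge)) D' rfl

open scoped Classical in
/-- **Artin's theorem for rational-valued characters.** -/
theorem exists_perm_combination {V : Type*} [AddCommGroup V] [Module ℂ V] [FiniteDimensional ℂ V]
    (σ : Representation ℂ G V) (hrat : ∀ g, ∃ q : ℚ, σ.character g = q) :
    ∃ m : Subgroup G →₀ ℤ,
      ((Nat.card G : ℤ) • σ.character) =
        fun x => ∑ H ∈ m.support, (m H : ℂ) * induced H (fun _ => (1 : ℂ)) x := by
  haveI := Fintype.ofFinite (Subgroup G)
  have hint : ∀ g, ∃ k : ℤ, σ.character g = k := fun g => by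
    obtain ⟨q, hq⟩ := hrat g
    have h := FA.Solvable.isIntegral_character σ g
    rw [hq, show (q : ℂ) = algebraMap ℚ ℂ q from (eq_ratCast _ q).symm,
      isIntegral_algebraMap_iff (algebraMap ℚ ℂ).injective] at h
    obtain ⟨k, hk⟩ := IsIntegrallyClosed.isIntegral_iff.1 h
    exact ⟨k, by rw [hq, ← hk]; simp⟩
  choose v hv using hint
  set c : Subgroup G → ℤ := fun D =>
    if h : ∃ g, Subgroup.zpowers g = D then v h.choose else 0
  have hexp : (Nat.card G : ℤ) • σ.character = ∑ D : Subgroup G, c D • genCount D := by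
    funext x
    have hterm : ∀ D : Subgroup G, c D • genCount D x =
        ∑ g : G, if Subgroup.zpowers (g * x * g⁻¹) = D then σ.character x else 0 := fun D => by
      rw [zsmul_eq_mul, genCount, ← sum_boole, mul_sum]
      refine sum_congr rfl fun g _ => ?_
      split_ifs with hz
      · simp only [c]
        rw [dif_pos ⟨_, hz⟩, mul_one, ← hv, ← σ.char_conj x g]
        exact eq_on_generators σ hrat
          ((Exists.choose_spec (⟨_, hz⟩ : ∃ g', Subgroup.zpowers g' = D)).trans hz.symm)
      · rw [mul_zero]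
    rw [Finset.sum_apply, Pi.smul_apply, zsmul_eq_mul]
    simp only [Pi.smul_apply, hterm]
    rw [sum_comm]
    simp [Nat.card_eq_fintype_card]
  have hmem : (Nat.card G : ℤ) • σ.character ∈
      Submodule.span ℤ (Set.range fun H : Subgroup G => induced H fun _ => (1 : ℂ)) := by
    rw [hexp]
    refine Submodule.sum_mem _ fun D _ => Submodule.smul_mem _ _ ?_
    rw [← Submodule.mem_toAddSubgroup, Submodule.span_int_eq_addSubgroupClosure]
    refine (AddSubgroup.closure_le _).2 ?_ (genCount_mem D)
    rintro _ ⟨H, rfl⟩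
    exact AddSubgroup.nsmul_mem _ (AddSubgroup.subset_closure (Set.mem_range_self H)) _
  rw [Finsupp.mem_span_range_iff_exists_finsupp] at hmem
  obtain ⟨m, hm⟩ := hmem
  refine ⟨m, ?_⟩
  rw [← hm]
  funext x
  simp [Finsupp.sum, Finset.sum_apply]

end group

variable {K L : Type*} [Field K] [NumberField K] [Field L] [NumberField L] [Algebra K L]
  [IsGalois K L]

/-- The group over the fixed field of `H` is `H`. -/
def fixedEquiv (H : Subgroup (L ≃ₐ[K] L)) : (L ≃ₐ[IntermediateField.fixedField H] L) ≃* H :=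
  (IntermediateField.fixingSubgroupEquiv (IntermediateField.fixedField H)).symm.trans
    (MulEquiv.subgroupCongr (IntermediateField.fixingSubgroup_fixedField H))

open scoped Classical in
/-- Induction from `H` is induction from its fixed field. -/
theorem inducedFn_fixedField (H : Subgroup (L ≃ₐ[K] L)) (φ : H → ℂ) :
    inducedFn K (fun h => φ (fixedEquiv H h)) = induced H φ := by
  funext g
  rw [inducedFn, induced, Nat.card_congr (fixedEquiv H).toEquiv]
  congr 1
  refine sum_congr rfl fun x _ => ?_
  have hval : ∀ h, galIncl K (IntermediateField.fixedField H) L h =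
      ((fixedEquiv H h : H) : L ≃ₐ[K] L) := fun h => rfl
  split_ifs with hx
  · rw [sum_eq_single ((fixedEquiv H).symm ⟨_, hx⟩) (fun h _ hne => if_neg fun e => hne ?_)
      (by simp), if_pos (by rw [hval, MulEquiv.apply_symm_apply]), MulEquiv.apply_symm_apply]
    apply (fixedEquiv H).injective
    rw [MulEquiv.apply_symm_apply]
    exact Subtype.ext ((hval h).symm.trans e)
  · exact sum_eq_zero fun h _ => if_neg fun e => hx (by
      rw [← e, hval h]; exact (fixedEquiv H h).2)

open scoped Classical in
/-- **The Brauer decomposition of an Artin L-series.** -/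
theorem exists_brauer_product {V : Type*} [AddCommGroup V] [Module ℂ V] [FiniteDimensional ℂ V]
    (ρ : Representation ℂ (L ≃ₐ[K] L) V) :
    ∃ (n : ℕ) (k : Fin n → ℤ) (M : Fin n → IntermediateField K L)
      (ψ : (i : Fin n) → (L ≃ₐ[M i] L) →* ℂˣ),
      (∀ i, IsElementary (M i).fixingSubgroup) ∧
      ∀ s : ℂ, 1 < s.re →
        artinL ρ.character s = ∏ i, artinL (fun h => (ψ i h : ℂ)) s ^ k i := by
  have h := character_mem_brauerSpan ρ
  rw [brauerSpan, ← Submodule.span_int_eq_addSubgroupClosure, Submodule.mem_toAddSubgroup,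
    Submodule.mem_span_set'] at h
  obtain ⟨n, k, g, hg⟩ := h
  choose H hH φ hφ using fun i => (g i).2
  refine ⟨n, k, fun i => IntermediateField.fixedField (H i),
    fun i => (φ i).comp (fixedEquiv (H i)).toMonoidHom, fun i => ?_, fun s hs => ?_⟩
  · rw [IntermediateField.fixingSubgroup_fixedField]
    exact hH i
  rw [← hg, artinL_sum hs]
  refine prod_congr rfl fun i _ => ?_
  rw [hφ i, artinL_zsmul, ← inducedFn_fixedField]
  congr 1
  refine artinL_induced hs fun a b => ?_
  simp [map_mul, map_inv]

open scoped Classical in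
/-- **Rational-valued characters.** -/
theorem exists_zeta_product {V : Type*} [AddCommGroup V] [Module ℂ V] [FiniteDimensional ℂ V]
    (ρ : Representation ℂ (L ≃ₐ[K] L) V) (hrat : ∀ g, ∃ q : ℚ, ρ.character g = q) :
    ∃ m : Subgroup (L ≃ₐ[K] L) →₀ ℤ,
      (((∑ H ∈ m.support, m H : ℤ)) : ℂ) = ∑ g, ρ.character g ∧
      ∀ s : ℂ, 1 < s.re → artinL ρ.character s ^ Nat.card (L ≃ₐ[K] L) =
        ∏ H ∈ m.support, dedekindZeta (IntermediateField.fixedField H) s ^ m H := by
  obtain ⟨m, hm⟩ := exists_perm_combination ρ hrat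
  refine ⟨m, ?_, fun s hs => ?_⟩
  · have hone : ∀ H : Subgroup (L ≃ₐ[K] L),
        ∑ x, induced H (fun _ => (1 : ℂ)) x = (Nat.card (L ≃ₐ[K] L) : ℂ) := fun H => by
      simp only [induced, ← mul_sum, dite_eq_ite]
      rw [sum_comm, sum_congr rfl fun g _ => ?_, sum_const, card_univ,
        ← Nat.card_eq_fintype_card, nsmul_eq_mul, mul_comm, mul_assoc,
        mul_inv_cancel₀ (Nat.cast_ne_zero.2 Nat.card_pos.ne'), mul_one]
      rw [Fintype.sum_equiv (MulAut.conj g).toEquiv
        (fun x => if g * x * g⁻¹ ∈ H then (1 : ℂ) else 0)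
        (fun y => if y ∈ H then (1 : ℂ) else 0) fun x => rfl, sum_boole, Nat.card_eq_fintype_card,
        Fintype.card_subtype]
    have h := congrArg (fun F : (L ≃ₐ[K] L) → ℂ => ∑ x, F x) hm
    simp only [Pi.smul_apply, zsmul_eq_mul, Int.cast_natCast, ← mul_sum] at h
    rw [sum_comm] at h
    simp only [← mul_sum, hone, ← sum_mul] at h
    refine mul_right_cancel₀ (Nat.cast_ne_zero.2 Nat.card_pos.ne' :
      (Nat.card (L ≃ₐ[K] L) : ℂ) ≠ 0) ?_
    rw [Int.cast_sum, ← h, mul_comm]
  rw [← zpow_natCast, ← artinL_zsmul, hm, show (fun x => ∑ H ∈ m.support,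
    (m H : ℂ) * induced H (fun _ => (1 : ℂ)) x) =
      ∑ H ∈ m.support, m H • induced H fun _ => (1 : ℂ) from funext fun x => by
        simp [Finset.sum_apply], artinL_sum hs]
  refine prod_congr rfl fun H _ => ?_
  rw [artinL_zsmul, ← inducedFn_fixedField H fun _ => (1 : ℂ), artinL_induced hs fun _ _ => rfl,
    artinL_one hs]

open scoped Classical in
/-- **The order at `1` and the leading coefficient.** -/
theorem exists_tendsto_at_one {V : Type*} [AddCommGroup V] [Module ℂ V] [FiniteDimensional ℂ V]
    (ρ : Representation ℂ (L ≃ₐ[K] L) V) (hrat : ∀ g, ∃ q : ℚ, ρ.character g = q) :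
    ∃ m : Subgroup (L ≃ₐ[K] L) →₀ ℤ, ∃ e : ℤ, (e : ℂ) = ∑ g, ρ.character g ∧
      e = ∑ H ∈ m.support, m H ∧
      Tendsto (fun s : ℝ => ((s : ℂ) - 1) ^ e * artinL ρ.character s ^ Nat.card (L ≃ₐ[K] L))
        (𝓝[>] 1) (𝓝 (∏ H ∈ m.support,
          (dedekindZeta_residue (IntermediateField.fixedField H) : ℂ) ^ m H)) := by
  obtain ⟨m, hm, hprod⟩ := exists_zeta_product ρ hrat
  refine ⟨m, _, hm, rfl, ?_⟩
  have h : Tendsto (fun s : ℝ => ∏ H ∈ m.support,
      (((s : ℂ) - 1) * dedekindZeta (IntermediateField.fixedField H) s) ^ m H) (𝓝[>] 1)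
      (𝓝 (∏ H ∈ m.support,
        (dedekindZeta_residue (IntermediateField.fixedField H) : ℂ) ^ m H)) :=
    tendsto_finsetProd _ fun H _ => (tendsto_sub_one_mul_dedekindZeta_nhdsGT _).zpow₀ (m H)
      (Or.inl (Complex.ofReal_ne_zero.2 (dedekindZeta_residue_ne_zero _)))
  refine h.congr' ?_
  filter_upwards [self_mem_nhdsWithin] with s hs
  have hs1 : (s : ℂ) - 1 ≠ 0 := sub_ne_zero.2 (by exact_mod_cast (Set.mem_Ioi.1 hs).ne')
  rw [hprod s (by rw [Complex.ofReal_re]; exact hs)]
  simp only [mul_zpow]
  rw [prod_mul_distrib]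
  congr 1
  induction m.support using Finset.induction_on with
  | empty => simp
  | insert a t ha ih => rw [prod_insert ha, sum_insert ha, zpow_add₀ hs1, ih]

end FA.ArtinL

end
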