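import Fermat.Agent.ArtinL.Defs
import Mathlib.FieldTheory.Normal.Basic
import Mathlib.FieldTheory.Finite.Extension

/-!
# Invariance of Artin L-series under inflation

For `K ⊆ M ⊆ L` with `L/K` and `M/K` Galois the inertia group at a prime of `L` maps onto the one
at the prime of `M` below, so the powers of Frobenius map onto those below with equal fibres, and a
class function of `Gal(M/K)` has the same L-series as its inflation to `Gal(L/K)`.
-/

set_option autoImplicit false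
set_option linter.style.haveILetI false
set_option linter.unusedSectionVars false

noncomputable section

open NumberField IsDedekindDomain Module Finset
open scoped Pointwise Classical

namespace FA.ArtinL

variable {K M L : Type*} [Field K] [NumberField K] [Field M] [NumberField M] [Field L]
  [NumberField L] [Algebra K L] [Algebra K M] [Algebra M L] [IsScalarTower K M L] [IsGalois K L]
  [IsGalois K M]

/-- An element of the decomposition group is a power of Frobenius. -/
theorem exists_isFrobPow_of_smul_eq {Q : Ideal (𝓞 L)} [Q.IsMaximal] {σ : L ≃ₐ[K] L}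
    (hσ : σ • Q = Q) : ∃ i, IsFrobPow K Q i σ := by
  haveI := isMaximal_under K Q
  letI := Ideal.Quotient.field (Q.under (𝓞 K))
  letI := Ideal.Quotient.field Q
  haveI := ringChar.charP (𝓞 K ⧸ Q.under (𝓞 K))
  haveI : Fact (ringChar (𝓞 K ⧸ Q.under (𝓞 K))).Prime :=
    ⟨CharP.char_is_prime (𝓞 K ⧸ Q.under (𝓞 K)) _⟩
  obtain ⟨i, hi⟩ := FiniteField.exists_forall_apply_eq_pow (𝓞 K ⧸ Q.under (𝓞 K))
    (ringChar (𝓞 K ⧸ Q.under (𝓞 K))) (𝓞 L ⧸ Q)
    (Ideal.Quotient.stabilizerHom Q (Q.under (𝓞 K)) (L ≃ₐ[K] L) ⟨σ, hσ⟩)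
  refine ⟨i, fun x => ?_⟩
  rw [← Ideal.Quotient.eq, map_pow]
  exact (Ideal.Quotient.stabilizerHom_apply _ _ _ _ x).symm.trans (hi _)

theorem algebraMap_restrictNormal_smul (σ : L ≃ₐ[K] L) (x : 𝓞 M) :
    algebraMap (𝓞 M) (𝓞 L) (AlgEquiv.restrictNormalHom M σ • x) =
      σ • algebraMap (𝓞 M) (𝓞 L) x :=
  RingOfIntegers.ext (σ.restrictNormal_commutes M (x : M))

theorem restrictNormal_restrictScalars (h : L ≃ₐ[M] L) :
    AlgEquiv.restrictNormalHom M (h.restrictScalars K) = 1 :=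
  AlgEquiv.ext fun x => (algebraMap M L).injective
    (((h.restrictScalars K).restrictNormal_commutes M x).trans (h.commutes x))

variable (Q : Ideal (𝓞 L)) [Q.IsMaximal]

theorem resCard_under : resCard K (Q.under (𝓞 M)) = resCard K Q := by
  rw [resCard, resCard, Ideal.under_under]

theorem isFrobPow_restrict {j : ℕ} {σ : L ≃ₐ[K] L} (h : IsFrobPow K Q j σ) :
    IsFrobPow K (Q.under (𝓞 M)) j (AlgEquiv.restrictNormalHom M σ) := fun x => by
  rw [resCard_under Q, Ideal.mem_comap, map_sub, map_pow, algebraMap_restrictNormal_smul]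
  exact h _

/-- **The inertia group maps onto the one below.** -/
theorem exists_inertia_lift {τ : M ≃ₐ[K] M}
    (hτ : τ ∈ (Q.under (𝓞 M)).inertia (M ≃ₐ[K] M)) :
    ∃ σ ∈ Q.inertia (L ≃ₐ[K] L), AlgEquiv.restrictNormalHom M σ = τ := by
  haveI : IsGalois M L := IsGalois.tower_top_of_isGalois K M L
  set P := Q.under (𝓞 M)
  haveI : P.IsMaximal := isMaximal_under M Q
  obtain ⟨σ₀, hσ₀⟩ := AlgEquiv.restrictNormalHom_surjective (F := K) (K₁ := M) L τ
  haveI : (σ₀ • Q).IsPrime := Ideal.IsPrime.smul σ₀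
  have hunder : (σ₀ • Q).under (𝓞 M) = P := by
    ext y
    have h1 : τ⁻¹ • y - y ∈ P := (P.inertia (M ≃ₐ[K] M)).inv_mem hτ y
    rw [Ideal.mem_comap, Ideal.mem_pointwise_smul_iff_inv_smul_mem,
      ← algebraMap_restrictNormal_smul, map_inv, hσ₀]
    change τ⁻¹ • y ∈ P ↔ y ∈ P
    exact ⟨fun h => by simpa using P.sub_mem h h1, fun h => by simpa using P.add_mem h1 h⟩
  obtain ⟨h, hh⟩ := Algebra.IsInvariant.exists_smul_of_under_eq (𝓞 M) (𝓞 L) (L ≃ₐ[M] L)
    (σ₀ • Q) Q hunder
  set σ : L ≃ₐ[K] L := h.restrictScalars K * σ₀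
  have hσQ : σ • Q = Q := by
    conv_rhs => rw [hh]
    rw [mul_smul]
    rfl
  have hres : AlgEquiv.restrictNormalHom M σ = τ := by
    rw [map_mul, show AlgEquiv.restrictNormalHom M (h.restrictScalars K) = 1 from
      restrictNormal_restrictScalars h, one_mul, hσ₀]
  obtain ⟨i, hi⟩ := exists_isFrobPow_of_smul_eq hσQ
  obtain ⟨f, hf0, hf⟩ := exists_card_eq_pow K P
  have hfQ : resCard M Q = resCard K Q ^ f := by
    rw [← resCard_under (K := K) (M := M) Q]
    exact hf
  have h1 : IsFrobPow K P i ((1 : M ≃ₐ[M] M).restrictScalars K) := fun x => by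
    have ha := isFrobPow_restrict (M := M) Q hi x
    rw [hres] at ha
    have := P.sub_mem ha (hτ x)
    rw [sub_sub_sub_cancel_left] at this
    rw [show ((1 : M ≃ₐ[M] M).restrictScalars K : M ≃ₐ[K] M) = 1 from rfl, one_smul]
    exact this
  have hfP : resCard M P = resCard K P ^ f := by
    exact (Nat.card_congr
      (Ideal.quotEquivOfEq (Ideal.ext fun y => by
        rw [Ideal.mem_comap]
        exact Iff.of_eq (congrArg (· ∈ P) (RingOfIntegers.ext rfl)))).toEquiv).trans hf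
  obtain ⟨c, rfl⟩ : f ∣ i := dvd_of_isFrobPow K P hf0 hfP h1
  obtain ⟨h', hh'⟩ := exists_isFrobPow M Q c
  have h2 := (isFrobPow_restrictScalars K Q hfQ c h').1 hh'
  refine ⟨σ * (h'.restrictScalars K)⁻¹, (mul_inv_mem_inertia_iff K h2).2 hi, ?_⟩
  rw [map_mul, map_inv, show AlgEquiv.restrictNormalHom M (h'.restrictScalars K) = 1 from
    restrictNormal_restrictScalars h', inv_one, mul_one, hres]

/-- **The mean over powers of Frobenius is unchanged.** -/
theorem localMean_inflation (f : (M ≃ₐ[K] M) → ℂ) (j : ℕ) :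
    localMean (fun σ : L ≃ₐ[K] L => f (AlgEquiv.restrictNormalHom M σ)) Q j =
      localMean f (Q.under (𝓞 M)) j := by
  set P := Q.under (𝓞 M)
  haveI : P.IsMaximal := isMaximal_under M Q
  set A := univ.filter fun σ : L ≃ₐ[K] L => IsFrobPow K Q j σ
  set B := univ.filter fun τ : M ≃ₐ[K] M => IsFrobPow K P j τ
  set res := (AlgEquiv.restrictNormalHom M : (L ≃ₐ[K] L) →* (M ≃ₐ[K] M))
  have hmaps : ∀ σ ∈ A, res σ ∈ B := fun σ hσ =>
    mem_filter.2 ⟨mem_univ _, isFrobPow_restrict Q (mem_filter.1 hσ).2⟩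
  obtain ⟨σ₀, h₀⟩ := exists_isFrobPow K Q j
  have hτ₀ : res σ₀ ∈ B := hmaps σ₀ (mem_filter.2 ⟨mem_univ _, h₀⟩)
  have hfib : ∀ τ ∈ B, #(A.filter fun σ => res σ = τ) = #(A.filter fun σ => res σ = res σ₀) :=
    fun τ hτ => by
    obtain ⟨ι, hι, hres⟩ := exists_inertia_lift Q
      ((mul_inv_mem_inertia_iff K (mem_filter.1 hτ₀).2).2 (mem_filter.1 hτ).2)
    symm
    refine card_equiv (Equiv.mulLeft ι) fun σ => ?_
    simp only [A, mem_filter, mem_univ, true_and, Equiv.coe_mulLeft, map_mul]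
    rw [show res ι = τ * (res σ₀)⁻¹ from hres, mul_assoc, mul_eq_left, inv_mul_eq_one,
      eq_comm (a := res σ₀)]
    refine and_congr ⟨fun h => ?_, fun h => ?_⟩ Iff.rfl
    · rw [← mul_inv_mem_inertia_iff K h, mul_inv_cancel_right]
      exact hι
    · rw [← mul_inv_mem_inertia_iff K h, _root_.mul_inv_rev, mul_inv_cancel_left]
      exact inv_mem hι
  set c := #(A.filter fun σ => res σ = res σ₀)
  have hA : #A = #B * c := by
    rw [card_eq_sum_card_fiberwise hmaps, sum_congr rfl hfib, sum_const, smul_eq_mul]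
  have hsum : ∑ σ ∈ A, f (res σ) = (c : ℂ) * ∑ τ ∈ B, f τ := by
    rw [← sum_fiberwise_of_maps_to hmaps, mul_sum]
    refine sum_congr rfl fun τ hτ => ?_
    rw [sum_congr rfl fun σ hσ => congrArg f (mem_filter.1 hσ).2, sum_const, nsmul_eq_mul,
      hfib τ hτ]
  have hApos : 0 < #A := card_pos.2 ⟨σ₀, mem_filter.2 ⟨mem_univ _, h₀⟩⟩
  have hc : (c : ℂ) ≠ 0 := Nat.cast_ne_zero.2 fun h => by
    rw [hA, h, mul_zero] at hApos
    exact lt_irrefl _ hApos
  rw [localMean, localMean, ← card_isFrobPow K Q j, ← card_isFrobPow K P j]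
  show (#A : ℂ)⁻¹ * ∑ σ ∈ A, f (res σ) = (#B : ℂ)⁻¹ * ∑ τ ∈ B, f τ
  rw [hsum, hA, Nat.cast_mul, mul_inv, mul_assoc, inv_mul_cancel_left₀ hc]

/-- **Inflation does not change the L-series.** -/
theorem artinL_inflation {f : (M ≃ₐ[K] M) → ℂ} (hf : ∀ g x, f (g * x * g⁻¹) = f x) (s : ℂ) :
    artinL (fun σ : L ≃ₐ[K] L => f (AlgEquiv.restrictNormalHom M σ)) s = artinL f s := by
  rw [artinL, artinL, artinLog, artinLog]
  congr 1
  refine tsum_congr fun p => ?_
  haveI := isMaximal_under M (primeOver K L p.1)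
  rw [term, term, coef, localMean_inflation, ← coef_eq hf]
  rw [Ideal.under_under, under_primeOver]

end FA.ArtinL

end
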