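import Fermat.Agent.ArtinL.Induction
import Fermat.Agent.CharacterTheory.Degree

/-!
# Factorisation of zeta functions

The zeta function of `L` is the product of the L-series of the irreducible characters of `Gal(L/K)`
to the powers of their degrees, and two intermediate fields whose groups meet every conjugacy class
equally often have equal zeta functions (Gassmann).
-/

set_option autoImplicit false
set_option linter.style.haveILetI false
set_option linter.unusedSectionVars false

noncomputable section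

open NumberField IsDedekindDomain Module Finset FA.CharacterTheory

namespace FA.ArtinL

variable {K L : Type*} [Field K] [NumberField K] [Field L] [NumberField L] [Algebra K L]
  [IsGalois K L] {s : ℂ} (hs : 1 < s.re)

variable (M : Type*) [Field M] [NumberField M] [Algebra K M] [Algebra M L] [IsScalarTower K M L]

include hs in
/-- The zeta function of an intermediate field is an Artin L-series over `K`. -/
theorem dedekindZeta_eq_artinL :
    dedekindZeta M s = artinL (inducedFn K (fun _ : L ≃ₐ[M] L => (1 : ℂ))) s := by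
  haveI : IsGalois M L := IsGalois.tower_top_of_isGalois K M L
  rw [artinL_induced hs fun _ _ => rfl, artinL_one hs]

open scoped Classical in
include hs in
/-- **The zeta function of `L`.** -/
theorem dedekindZeta_eq_prod :
    dedekindZeta L s = ∏ χ ∈ irr (L ≃ₐ[K] L), artinL χ s ^ (χ 1) := by
  rw [dedekindZeta_eq_artinL (K := K) (L := L) hs L]
  haveI : Subsingleton (L ≃ₐ[L] L) := ⟨fun a b => AlgEquiv.ext fun x => by
    rw [show a x = x from a.commutes x, show b x = x from b.commutes x]⟩
  have hfun : inducedFn K (fun _ : L ≃ₐ[L] L => (1 : ℂ)) =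
      ∑ χ ∈ irr (L ≃ₐ[K] L), χ 1 • χ := by
    funext g
    rw [Finset.sum_apply]
    have h := column_orthogonality (1 : L ≃ₐ[K] L) g
    rw [inv_one] at h
    have h2 : ∑ χ ∈ irr (L ≃ₐ[K] L), (χ 1 • χ) g = ∑ χ ∈ irr (L ≃ₐ[K] L), χ g * χ 1 :=
      sum_congr rfl fun χ _ => by rw [Pi.smul_apply, smul_eq_mul, mul_comm]
    rw [h2, h, inducedFn, Nat.card_eq_one_iff_unique.2 ⟨inferInstance, ⟨1⟩⟩, Nat.cast_one, inv_one,
      one_mul]
    haveI : Unique (L ≃ₐ[L] L) := uniqueOfSubsingleton 1
    have hd : ∀ a : L ≃ₐ[L] L, galIncl K L L a = 1 := fun a => by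
      rw [Subsingleton.elim a 1, map_one]
    simp only [Fintype.sum_unique, hd]
    by_cases hg : g = 1
    · subst hg
      rw [if_pos (IsConj.refl 1), show Subgroup.centralizer ({1} : Set (L ≃ₐ[K] L)) = ⊤ from
        eq_top_iff.2 fun x _ => Subgroup.mem_centralizer_singleton_iff.2 (by simp),
        Subgroup.card_top]
      simp [Nat.card_eq_fintype_card]
    · rw [if_neg fun hc => hg (isConj_one_right.1 hc)]
      refine sum_eq_zero fun x _ => if_neg fun hx => hg ?_
      calc g = x⁻¹ * (x * g * x⁻¹) * x := by group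
        _ = 1 := by rw [← hx]; group
  rw [hfun, artinL_sum hs]
  refine prod_congr rfl fun χ hχ => ?_
  obtain ⟨d, -, hd⟩ := irr_one hχ
  rw [hd, Complex.cpow_natCast, Nat.cast_smul_eq_nsmul, ← natCast_zsmul, artinL_zsmul,
    zpow_natCast]

open scoped Classical in
/-- **Gassmann**: two groups meeting every class equally often induce `1` to the same function. -/
theorem inducedFn_one_eq_of_gassmann {M' : Type*} [Field M'] [NumberField M'] [Algebra K M']
    [Algebra M' L] [IsScalarTower K M' L]
    (hG : ∀ g : L ≃ₐ[K] L, Nat.card {h : L ≃ₐ[M] L // IsConj g (galIncl K M L h)} =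
      Nat.card {h : L ≃ₐ[M'] L // IsConj g (galIncl K M' L h)}) :
    inducedFn K (fun _ : L ≃ₐ[M] L => (1 : ℂ)) = inducedFn K fun _ : L ≃ₐ[M'] L => (1 : ℂ) := by
  set F : (L ≃ₐ[K] L) → (L ≃ₐ[K] L) → ℕ := fun g y => #(univ.filter fun x => y = x * g * x⁻¹)
  have hF : ∀ g y, F g y = if IsConj g y then F g g else 0 := fun g y => by
    split_ifs with hc
    · obtain ⟨c, rfl⟩ := isConj_iff.1 hc
      refine card_equiv (Equiv.mulLeft c⁻¹) fun x => ?_
      simp only [mem_filter, mem_univ, true_and, Equiv.coe_mulLeft]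
      constructor <;> intro h
      · calc g = c⁻¹ * (c * g * c⁻¹) * c := by group
          _ = c⁻¹ * x * g * (c⁻¹ * x)⁻¹ := by rw [h]; group
      · calc c * g * c⁻¹ = c * (c⁻¹ * x * g * (c⁻¹ * x)⁻¹) * c⁻¹ := by rw [← h]
          _ = x * g * x⁻¹ := by group
    · exact card_eq_zero.2 (filter_eq_empty_iff.2 fun x _ hx => hc (isConj_iff.2 ⟨x, hx.symm⟩))
  have hsum : ∀ (N : Type _) [Fintype N] (ι : N → (L ≃ₐ[K] L)) g,
      ∑ x : L ≃ₐ[K] L, ∑ h : N, (if ι h = x * g * x⁻¹ then (1 : ℕ) else 0) =
        F g g * Nat.card {h : N // IsConj g (ι h)} := fun N _ ι g => by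
    rw [sum_comm]
    simp only [sum_boole, Nat.cast_id]
    show ∑ h : N, F g (ι h) = _
    rw [sum_congr rfl fun h _ => hF g (ι h), ← sum_filter, sum_const, smul_eq_mul, mul_comm,
      Nat.card_eq_fintype_card, Fintype.card_subtype]
  have hcard : ∀ (N : Type _) [Fintype N] (ι : N → (L ≃ₐ[K] L)),
      ∑ g : L ≃ₐ[K] L, F g g * Nat.card {h : N // IsConj g (ι h)} =
        Nat.card (L ≃ₐ[K] L) * Nat.card N := fun N _ ι => by
    rw [← sum_congr rfl fun g _ => hsum N ι g, sum_comm]
    refine Eq.trans (sum_congr rfl fun x _ => ?_) (by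
      rw [sum_const, card_univ, smul_eq_mul, Nat.card_eq_fintype_card,
        Nat.card_eq_fintype_card])
    rw [sum_comm]
    refine Eq.trans (sum_congr rfl fun h _ => ?_) (by
      rw [sum_const, card_univ, smul_eq_mul, mul_one])
    rw [sum_eq_single (x⁻¹ * ι h * x) (fun g _ hne => if_neg fun e => hne (by rw [e]; group))
      (by simp), if_pos (by group)]
  have hN : Nat.card (L ≃ₐ[M] L) = Nat.card (L ≃ₐ[M'] L) := by
    have h1 := hcard (L ≃ₐ[M] L) (galIncl K M L)
    rw [sum_congr rfl fun g _ => by rw [hG g], hcard (L ≃ₐ[M'] L) (galIncl K M' L)] at h1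
    exact (Nat.eq_of_mul_eq_mul_left Nat.card_pos h1).symm
  funext g
  have hc : ∀ (N : Type _) [Fintype N] (ι : N → (L ≃ₐ[K] L)),
      ∑ x : L ≃ₐ[K] L, ∑ h : N, (if ι h = x * g * x⁻¹ then (1 : ℂ) else 0) =
        ((F g g * Nat.card {h : N // IsConj g (ι h)} : ℕ) : ℂ) := fun N _ ι => by
    rw [← hsum N ι g]; push_cast; rfl
  rw [inducedFn, inducedFn, hc, hc, hG g, hN]

include hs in
/-- **Gassmann's theorem**: the zeta functions agree. -/
theorem dedekindZeta_eq_of_gassmann {M' : Type*} [Field M'] [NumberField M'] [Algebra K M']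
    [Algebra M' L] [IsScalarTower K M' L]
    (hG : ∀ g : L ≃ₐ[K] L, Nat.card {h : L ≃ₐ[M] L // IsConj g (galIncl K M L h)} =
      Nat.card {h : L ≃ₐ[M'] L // IsConj g (galIncl K M' L h)}) :
    dedekindZeta M s = dedekindZeta M' s := by
  rw [dedekindZeta_eq_artinL hs M (K := K) (L := L), dedekindZeta_eq_artinL hs M' (K := K) (L := L),
    inducedFn_one_eq_of_gassmann M hG]

end FA.ArtinL

end
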