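import Fermat.Agent.ArtinL.Defs

/-!
# Invariance of Artin L-series under induction

For `K ⊆ M ⊆ L` the coefficient at `v` of an induced class function is the sum of
`f coef(w, k / f)` over the primes `w` of `M` over `v` whose degree `f` divides `k`, ramified or
not, so the L-series of a class function of `Gal(L/M)` is that of the induced one.
-/

set_option autoImplicit false
set_option linter.style.haveILetI false
set_option linter.unusedSectionVars false

noncomputable section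

open NumberField IsDedekindDomain Module Finset
open scoped Pointwise

namespace FA.ArtinL

variable {K M L : Type*} [Field K] [NumberField K] [Field M] [NumberField M] [Field L]
  [NumberField L] [Algebra K L] [Algebra K M] [Algebra M L] [IsScalarTower K M L] [IsGalois K L]

variable (K) in
/-- The prime of `K` below a prime of `M`. -/
def primeBelow (w : HeightOneSpectrum (𝓞 M)) : HeightOneSpectrum (𝓞 K) :=
  haveI := w.isMaximal
  ⟨w.asIdeal.under (𝓞 K), (Ideal.IsMaximal.under (𝓞 K) w.asIdeal).isPrime,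
    Ring.ne_bot_of_isMaximal_of_not_isField (Ideal.IsMaximal.under (𝓞 K) w.asIdeal)
      (RingOfIntegers.not_isField K)⟩

variable (K) in
theorem exists_relDeg (w : HeightOneSpectrum (𝓞 M)) :
    ∃ f : ℕ, f ≠ 0 ∧
      Ideal.absNorm w.asIdeal = Ideal.absNorm (primeBelow K w).asIdeal ^ f := by
  haveI := w.isMaximal
  obtain ⟨f, hf, h⟩ := exists_card_eq_pow K w.asIdeal
  exact ⟨f, hf, by
    rw [Ideal.absNorm_apply, Ideal.absNorm_apply, Submodule.cardQuot_apply,
      Submodule.cardQuot_apply]; exact h⟩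

variable (K) in
/-- The degree of a prime of `M` over `K`. -/
def relDeg (w : HeightOneSpectrum (𝓞 M)) : ℕ := (exists_relDeg K w).choose

variable (K) in
theorem relDeg_ne_zero (w : HeightOneSpectrum (𝓞 M)) : relDeg K w ≠ 0 :=
  (exists_relDeg K w).choose_spec.1

variable (K) in
theorem absNorm_eq (w : HeightOneSpectrum (𝓞 M)) :
    Ideal.absNorm w.asIdeal = Ideal.absNorm (primeBelow K w).asIdeal ^ relDeg K w :=
  (exists_relDeg K w).choose_spec.2

theorem finite_over (v : HeightOneSpectrum (𝓞 K)) :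
    {w : HeightOneSpectrum (𝓞 M) | primeBelow K w = v}.Finite := by
  haveI := v.isMaximal
  refine Set.Finite.of_finite_image (f := fun w => w.asIdeal)
    ((IsDedekindDomain.primesOver_finite v.asIdeal (𝓞 M)).subset ?_)
    (fun a _ b _ h => HeightOneSpectrum.ext h)
  rintro _ ⟨w, rfl, rfl⟩
  exact ⟨w.isPrime, ⟨rfl⟩⟩

/-- The primes of `M` over `v`. -/
def primesAbove (M : Type*) [Field M] [NumberField M] [Algebra K M]
    (v : HeightOneSpectrum (𝓞 K)) : Finset (HeightOneSpectrum (𝓞 M)) :=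
  (finite_over (M := M) v).toFinset

theorem mem_primesAbove {v : HeightOneSpectrum (𝓞 K)} {w : HeightOneSpectrum (𝓞 M)} :
    w ∈ primesAbove M v ↔ primeBelow K w = v := (finite_over v).mem_toFinset

variable (K M L) in
/-- The inclusion of `Gal(L/M)` in `Gal(L/K)`. -/
def galIncl : (L ≃ₐ[M] L) →* (L ≃ₐ[K] L) where
  toFun σ := σ.restrictScalars K
  map_one' := rfl
  map_mul' _ _ := rfl

open scoped Classical in
variable (K) in
/-- The class function of `Gal(L/K)` induced from one of `Gal(L/M)`. -/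
def inducedFn (ψ : (L ≃ₐ[M] L) → ℂ) (g : L ≃ₐ[K] L) : ℂ :=
  (Nat.card (L ≃ₐ[M] L) : ℂ)⁻¹ *
    ∑ x : L ≃ₐ[K] L, ∑ h : L ≃ₐ[M] L, if galIncl K M L h = x * g * x⁻¹ then ψ h else 0

theorem inducedFn_conj (ψ : (L ≃ₐ[M] L) → ℂ) (g x : L ≃ₐ[K] L) :
    inducedFn K ψ (g * x * g⁻¹) = inducedFn K ψ x := by
  classical
  rw [inducedFn, inducedFn]
  congr 1
  refine Fintype.sum_equiv (Equiv.mulRight g) _ _ fun y => ?_
  simp only [Equiv.coe_mulRight, _root_.mul_inv_rev, mul_assoc]

open scoped Classical in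
/-- Orbit and stabiliser. -/
theorem card_orbit_mul_card_stabilizer {G X : Type*} [Group G] [Fintype G] [MulAction G X] (a : X) :
    #(univ.image fun g : G => g • a) * Nat.card (MulAction.stabilizer G a) = Nat.card G := by
  rw [← Subgroup.index_mul_card (MulAction.stabilizer G a), MulAction.index_stabilizer]
  congr 1
  rw [show MulAction.orbit G a = Set.range fun g : G => g • a from rfl,
    Set.ncard_eq_toFinset_card', Set.toFinset_range]

open scoped Classical in
/-- **The coefficients of an induced class function.** -/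
theorem coef_induced [IsGalois M L] {ψ : (L ≃ₐ[M] L) → ℂ}
    (hψ : ∀ g x, ψ (g * x * g⁻¹) = ψ x) (v : HeightOneSpectrum (𝓞 K)) (k : ℕ) :
    coef (inducedFn K ψ) v k = ∑ w ∈ primesAbove M v,
      if relDeg K w ∣ k then (relDeg K w : ℂ) * coef ψ w (k / relDeg K w) else 0 := by
  set Q₀ := primeOver K L v
  set O := univ.image fun x : L ≃ₐ[K] L => x • Q₀
  set H : ℂ := (Nat.card (L ≃ₐ[M] L) : ℂ)
  set N : ℂ := (Nat.card (Q₀.inertia (L ≃ₐ[K] L)) : ℂ)
  set T : Ideal (𝓞 L) → ℂ := fun Q =>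
    ∑ h : L ≃ₐ[M] L, if IsFrobPow K Q k (galIncl K M L h) then ψ h else 0
  have h1 : coef (inducedFn K ψ) v k = N⁻¹ * H⁻¹ * ∑ x : L ≃ₐ[K] L, T (x • Q₀) := by
    rw [coef, localMean, mul_assoc]
    congr 1
    simp only [inducedFn]
    rw [← mul_sum, sum_comm]
    congr 1
    refine sum_congr rfl fun x _ => ?_
    rw [sum_comm]
    refine sum_congr rfl fun h _ => ?_
    rw [sum_filter, sum_eq_single (x⁻¹ * galIncl K M L h * x) (fun σ _ hne => ?_) (by simp)]
    · rw [if_pos (show galIncl K M L h = x * (x⁻¹ * galIncl K M L h * x) * x⁻¹ by group)]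
      refine if_congr ?_ rfl rfl
      rw [← isFrobPow_conj K x (x⁻¹ * galIncl K M L h * x)]
      group
      rfl
    · rw [if_neg (c := galIncl K M L h = x * σ * x⁻¹) (fun e => hne (by rw [e]; group)), ite_self]
  have hmax : ∀ Q ∈ O, Q.IsMaximal ∧ Q.under (𝓞 K) = v.asIdeal := fun Q hQ => by
    obtain ⟨x, -, rfl⟩ := mem_image.1 hQ
    haveI : (x • Q₀).IsPrime := Ideal.IsPrime.smul x
    have hu : (x • Q₀).under (𝓞 K) = v.asIdeal := (under_smul K x Q₀).trans (under_primeOver K L v)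
    exact ⟨Ideal.isMaximal_of_isIntegral_of_isMaximal_comap (R := 𝓞 K) _
      (by rw [← Ideal.under_def, hu]; exact v.isMaximal), hu⟩
  set D : ℂ := (Nat.card (MulAction.stabilizer (L ≃ₐ[K] L) Q₀) : ℂ)
  have h2 : ∑ x : L ≃ₐ[K] L, T (x • Q₀) = D * ∑ Q ∈ O, T Q := by
    rw [mul_sum, ← sum_fiberwise_of_maps_to (g := fun x : L ≃ₐ[K] L => x • Q₀) (t := O)
      fun x _ => mem_image_of_mem _ (mem_univ x)]
    refine sum_congr rfl fun Q hQ => ?_
    obtain ⟨x₀, -, rfl⟩ := mem_image.1 hQ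
    rw [sum_congr rfl fun x hx => by rw [(mem_filter.1 hx).2], sum_const, nsmul_eq_mul]
    congr 1
    simp only [D, Nat.cast_inj]
    rw [← Nat.card_eq_finsetCard]
    exact Nat.card_congr
      { toFun := fun x => ⟨x₀⁻¹ * x.1, MulAction.mem_stabilizer_iff.2 (by
          rw [mul_smul, (mem_filter.1 x.2).2, inv_smul_smul])⟩
        invFun := fun t => ⟨x₀ * t.1, mem_filter.2 ⟨mem_univ _, by
          rw [mul_smul, MulAction.mem_stabilizer_iff.1 t.2]⟩⟩
        left_inv := fun x => Subtype.ext (mul_inv_cancel_left _ _)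
        right_inv := fun t => Subtype.ext (inv_mul_cancel_left _ _) }
  obtain ⟨F, hF0, hF⟩ := exists_card_eq_pow K Q₀
  have hD : D = N * F := by simp only [D, N, card_stabilizer_eq K Q₀ hF, Nat.cast_mul]
  have hN : N ≠ 0 := Nat.cast_ne_zero.2 Nat.card_pos.ne'
  rw [h1, h2, hD, show N⁻¹ * H⁻¹ * (N * F * ∑ Q ∈ O, T Q) = ∑ Q ∈ O, H⁻¹ * F * T Q by
    rw [← mul_sum]; field_simp]
  haveI : Nonempty (HeightOneSpectrum (𝓞 M)) := by
    obtain ⟨I, hI⟩ := Ideal.exists_maximal (𝓞 M)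
    exact ⟨⟨I, hI.isPrime,
      Ring.ne_bot_of_isMaximal_of_not_isField hI (RingOfIntegers.not_isField _)⟩⟩
  choose! π hπ using fun Q (hQ : Q ∈ O) => show ∃ w : HeightOneSpectrum (𝓞 M),
      w.asIdeal = Q.under (𝓞 M) by
    haveI := (hmax Q hQ).1
    exact ⟨⟨Q.under (𝓞 M), (Ideal.IsMaximal.under (𝓞 M) Q).isPrime,
      Ring.ne_bot_of_isMaximal_of_not_isField (Ideal.IsMaximal.under (𝓞 M) Q)
        (RingOfIntegers.not_isField _)⟩, rfl⟩
  have hbelow : ∀ Q ∈ O, primeBelow K (π Q) = v := fun Q hQ => HeightOneSpectrum.ext (by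
    show (π Q).asIdeal.under (𝓞 K) = _
    rw [hπ Q hQ, Ideal.under_under, (hmax Q hQ).2])
  rw [← sum_fiberwise_of_maps_to (s := O) (t := primesAbove M v)
    fun Q hQ => mem_primesAbove.2 (hbelow Q hQ)]
  refine sum_congr rfl fun w hw => ?_
  obtain ⟨hwv, Q₁, hQ₁max, hQ₁⟩ := And.intro (mem_primesAbove.1 hw) (exists_over M L w)
  have hQ₁K : Q₁.under (𝓞 K) = v.asIdeal := by
    rw [← Ideal.under_under (B := 𝓞 M), hQ₁, ← hwv]; rfl
  set c := if relDeg K w ∣ k then (relDeg K w : ℂ) * coef ψ w (k / relDeg K w) else 0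
  set O₁ := univ.image fun h : L ≃ₐ[M] L => h • Q₁
  have hfib : O.filter (fun Q => π Q = w) = O₁ := by
    ext Q
    rw [mem_filter, show Q ∈ O₁ ↔ _ from mem_image]
    constructor
    · rintro ⟨hQ, rfl⟩
      haveI := (hmax Q hQ).1
      obtain ⟨h, hh⟩ := Algebra.IsInvariant.exists_smul_of_under_eq (𝓞 M) (𝓞 L) (L ≃ₐ[M] L) Q₁ Q
        (hQ₁.trans (hπ Q hQ))
      exact ⟨h, mem_univ _, hh.symm⟩
    · rintro ⟨h, -, rfl⟩
      obtain ⟨x, hx⟩ := Algebra.IsInvariant.exists_smul_of_under_eq (𝓞 K) (𝓞 L) (L ≃ₐ[K] L) Q₀ Q₁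
        ((under_primeOver K L v).trans hQ₁K.symm)
      have hsm : h • Q₁ = galIncl K M L h • Q₁ := rfl
      have hmem : h • Q₁ ∈ O := mem_image.2 ⟨galIncl K M L h * x, mem_univ _, by
        rw [mul_smul, ← hx, hsm]⟩
      exact ⟨hmem, HeightOneSpectrum.ext ((hπ _ hmem).trans ((under_smul M h Q₁).trans hQ₁))⟩
  rw [hfib]
  have hterm : ∀ Q ∈ O₁, H⁻¹ * F * T Q = (#O₁ : ℂ)⁻¹ * c := fun Q hQ => by
    obtain ⟨h₀, -, rfl⟩ := mem_image.1 hQ
    set Q := h₀ • Q₁
    have hmem' : Q ∈ O.filter fun R => π R = w := by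
      rw [hfib]; exact mem_image_of_mem _ (mem_univ h₀)
    have hmem : Q ∈ O := (mem_filter.1 hmem').1
    haveI := (hmax Q hmem).1
    have hQK := (hmax Q hmem).2
    have hQM : Q.under (𝓞 M) = w.asIdeal := (under_smul M h₀ Q₁).trans hQ₁
    have hres : resCard M Q = resCard K Q ^ relDeg K w := by
      rw [resCard_eq_absNorm hQM, resCard_eq_absNorm hQK, absNorm_eq K w, hwv]
    obtain ⟨x, hx⟩ := Algebra.IsInvariant.exists_smul_of_under_eq (𝓞 K) (𝓞 L) (L ≃ₐ[K] L) Q₀ Q
      ((under_primeOver K L v).trans hQK.symm)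
    obtain ⟨F', hF'0, hF'⟩ := exists_card_eq_pow M Q
    have hFF : F = relDeg K w * F' := by
      refine Nat.pow_right_injective (one_lt_resCard K Q₀) ?_
      show resCard K Q₀ ^ F = resCard K Q₀ ^ (relDeg K w * F')
      have hq : resCard K Q₀ = resCard K Q := by rw [hx, resCard_smul]
      rw [show resCard K Q₀ ^ F = Nat.card (𝓞 L ⧸ Q₀) from hF.symm, hq, pow_mul, ← hres,
        show resCard M Q ^ F' = Nat.card (𝓞 L ⧸ Q) from hF'.symm]
      exact Nat.card_congr (Ideal.quotientEquiv Q₀ Q (MulSemiringAction.toRingEquiv _ (𝓞 L) x)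
        (by rw [hx]; rfl)).toEquiv
    have hT : T Q = if relDeg K w ∣ k then
        (Nat.card (Q.inertia (L ≃ₐ[M] L)) : ℂ) * coef ψ w (k / relDeg K w) else 0 := by
      split_ifs with hdvd
      · rw [coef_eq hψ hQM, localMean, mul_inv_cancel_left₀ (Nat.cast_ne_zero.2 Nat.card_pos.ne'),
          sum_filter]
        refine sum_congr rfl fun σ _ => if_congr ?_ rfl rfl
        rw [isFrobPow_restrictScalars K Q hres, Nat.mul_div_cancel' hdvd]
        rfl
      · exact sum_eq_zero fun σ _ => if_neg fun hf => hdvd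
          (dvd_of_isFrobPow K Q (relDeg_ne_zero K w) hres hf)
    have hO : (#O₁ : ℂ) * Nat.card (MulAction.stabilizer (L ≃ₐ[M] L) Q) = H := by
      have h := card_orbit_mul_card_stabilizer (G := L ≃ₐ[M] L) Q
      have heq : (univ.image fun g : L ≃ₐ[M] L => g • Q) = O₁ := by
        ext R
        simp only [O₁, Q, mem_image, mem_univ, true_and, ← mul_smul]
        exact ⟨fun ⟨g, hg⟩ => ⟨g * h₀, hg⟩, fun ⟨g, hg⟩ => ⟨g * h₀⁻¹, by
          rwa [inv_mul_cancel_right]⟩⟩
      have h' : #O₁ * Nat.card (MulAction.stabilizer (L ≃ₐ[M] L) Q) = Nat.card (L ≃ₐ[M] L) := by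
        rw [← heq]; convert h
      simp only [H, ← h', Nat.cast_mul]
    have hH : H ≠ 0 := Nat.cast_ne_zero.2 Nat.card_pos.ne'
    have hO0 : (#O₁ : ℂ) ≠ 0 := fun h => hH (by rw [← hO, h, zero_mul])
    rw [hT]
    simp only [c]
    split_ifs with hdvd
    · have hD' := card_stabilizer_eq M Q hF'
      rw [hD', Nat.cast_mul] at hO
      rw [← hO, hFF, Nat.cast_mul]
      have hI : (Nat.card (Q.inertia (L ≃ₐ[M] L)) : ℂ) ≠ 0 := Nat.cast_ne_zero.2 Nat.card_pos.ne'
      have hF'' : (F' : ℂ) ≠ 0 := Nat.cast_ne_zero.2 hF'0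
      field_simp
    · simp
  rw [sum_congr rfl hterm, sum_const, nsmul_eq_mul, mul_inv_cancel_left₀]
  exact Nat.cast_ne_zero.2 (card_pos.2 (univ_nonempty.image _)).ne'

variable {s : ℂ} (hs : 1 < s.re)

include hs in
open scoped Classical in
/-- **Invariance under induction.** -/
theorem artinL_induced [IsGalois M L] {ψ : (L ≃ₐ[M] L) → ℂ}
    (hψ : ∀ g x, ψ (g * x * g⁻¹) = ψ x) : artinL (inducedFn K ψ) s = artinL ψ s := by
  refine congrArg Complex.exp ?_
  show ∑' p, term (inducedFn K ψ) s p = ∑' q, term ψ s q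
  set Φ : HeightOneSpectrum (𝓞 M) × ℕ → HeightOneSpectrum (𝓞 K) × ℕ :=
    fun q => (primeBelow K q.1, relDeg K q.1 * (q.2 + 1) - 1)
  have hsum := (Equiv.sigmaFiberEquiv Φ).summable_iff.2 (summable_term hs ψ)
  refine Eq.trans ?_ ((Equiv.sigmaFiberEquiv Φ).tsum_eq (term ψ s))
  refine Eq.trans ?_ hsum.tsum_sigma.symm
  refine tsum_congr fun p => ?_
  obtain ⟨v, i⟩ := p
  set S := ((primesAbove M v).filter fun w => relDeg K w ∣ i + 1).image
    fun w => (w, (i + 1) / relDeg K w - 1)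
  have hS : ∀ q, Φ q = (v, i) ↔ q ∈ S := fun q => by
    obtain ⟨w, j⟩ := q
    have h0 := Nat.pos_of_ne_zero (relDeg_ne_zero K w)
    simp only [Φ, S, Prod.mk.injEq, mem_image, mem_filter, mem_primesAbove]
    constructor
    · rintro ⟨h1, h2⟩
      have h3 : i + 1 = relDeg K w * (j + 1) := by
        have := Nat.mul_pos h0 (show 0 < j + 1 by omega); omega
      exact ⟨w, ⟨h1, ⟨j + 1, h3⟩⟩, rfl, by rw [h3, Nat.mul_div_cancel_left _ h0]; omega⟩
    · rintro ⟨w', ⟨h1, h2⟩, rfl, rfl⟩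
      obtain ⟨c, hc⟩ := h2
      refine ⟨h1, ?_⟩
      rw [hc, Nat.mul_div_cancel_left _ h0]
      rcases Nat.eq_zero_or_pos c with rfl | hc0
      · omega
      · rw [Nat.sub_add_cancel hc0, ← hc]; omega
  show term (inducedFn K ψ) s (v, i) = ∑' q : {q // Φ q = (v, i)}, term ψ s q.1
  rw [(Equiv.subtypeEquivRight hS).tsum_eq (fun q : {q // q ∈ S} => term ψ s q.1) |>
    fun h => (show (∑' q : {q // Φ q = (v, i)}, term ψ s q.1) = _ from h), Finset.tsum_subtype,
    sum_image (fun a _ b _ h => congrArg Prod.fst h), sum_filter, term, coef_induced hψ v (i + 1),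
    sum_mul, sum_div]
  refine sum_congr rfl fun w hw => ?_
  split_ifs with hdvd
  · obtain ⟨c, hc⟩ := hdvd
    have h0 := Nat.pos_of_ne_zero (relDeg_ne_zero K w)
    have hc0 : c ≠ 0 := fun h => by simp [h] at hc
    have hcC : ((c - 1 : ℕ) : ℂ) + 1 = (c : ℂ) := by
      rw [Nat.cast_sub (Nat.pos_of_ne_zero hc0), Nat.cast_one, sub_add_cancel]
    have hiC : (i : ℂ) + 1 = (relDeg K w : ℂ) * c := by exact_mod_cast hc
    have hcne : (c : ℂ) ≠ 0 := Nat.cast_ne_zero.2 hc0
    have hfne : (relDeg K w : ℂ) ≠ 0 := Nat.cast_ne_zero.2 h0.ne'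
    rw [term]
    simp only [hc, Nat.mul_div_cancel_left _ h0, Nat.sub_add_cancel (Nat.pos_of_ne_zero hc0),
      hcC, hiC]
    rw [absNorm_eq K w, mem_primesAbove.1 hw, Nat.cast_pow,
      ← Complex.natCast_cpow_natCast_mul, Complex.cpow_nat_mul, ← pow_mul]
    field_simp
  · simp

end FA.ArtinL

end
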