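import Fermat.Agent.ArtinL.Local
import Fermat.Agent.AbelianZeta.Euler
import Mathlib.Analysis.SpecialFunctions.Complex.LogBounds
import Mathlib.Analysis.Normed.Ring.InfiniteSum

/-!
# Artin L-series

For a finite Galois extension `L/K` of number fields and a class function `χ` on the group the
coefficient at a prime `v` and an exponent `j` is the mean of `χ` over the `j`-th powers of
Frobenius at a prime over `v`, and the L-series for `1 < re s` is the exponential of
`∑ coef(v, j + 1) N(v) ^ (-(j + 1) s) / (j + 1)`. Primes ramified in `L` are included.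
Nothing is claimed for `re s ≤ 1`.
-/

set_option autoImplicit false
set_option linter.style.haveILetI false
set_option linter.unusedSectionVars false

noncomputable section

open NumberField IsDedekindDomain Module Filter Topology
open scoped Pointwise nonZeroDivisors

namespace FA.ArtinL

variable (K L : Type*) [Field K] [NumberField K] [Field L] [NumberField L] [Algebra K L]

theorem exists_over (v : HeightOneSpectrum (𝓞 K)) :
    ∃ Q : Ideal (𝓞 L), Q.IsMaximal ∧ Q.under (𝓞 K) = v.asIdeal := by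
  haveI := v.isMaximal
  obtain ⟨Q, hQ, hQv⟩ :=
    Ideal.exists_maximal_ideal_liesOver_of_isIntegral (S := 𝓞 L) v.asIdeal
  exact ⟨Q, hQ, hQv.over.symm⟩

/-- A prime of `L` over a prime of `K`. -/
def primeOver (v : HeightOneSpectrum (𝓞 K)) : Ideal (𝓞 L) := (exists_over K L v).choose

instance (v : HeightOneSpectrum (𝓞 K)) : (primeOver K L v).IsMaximal :=
  (exists_over K L v).choose_spec.1

theorem under_primeOver (v : HeightOneSpectrum (𝓞 K)) :
    (primeOver K L v).under (𝓞 K) = v.asIdeal :=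
  (exists_over K L v).choose_spec.2

variable {K L}

theorem resCard_eq_absNorm {Q : Ideal (𝓞 L)} {v : HeightOneSpectrum (𝓞 K)}
    (hQ : Q.under (𝓞 K) = v.asIdeal) : resCard K Q = Ideal.absNorm v.asIdeal := by
  rw [resCard, hQ, Ideal.absNorm_apply, Submodule.cardQuot_apply]

variable [IsGalois K L]

open scoped Classical in
/-- The mean of `χ` over the `j`-th powers of Frobenius at `Q`. -/
def localMean (χ : (L ≃ₐ[K] L) → ℂ) (Q : Ideal (𝓞 L)) (j : ℕ) : ℂ :=
  (Nat.card (Q.inertia (L ≃ₐ[K] L)) : ℂ)⁻¹ *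
    ∑ σ ∈ Finset.univ.filter fun σ => IsFrobPow K Q j σ, χ σ

/-- The coefficient at `v`. -/
def coef (χ : (L ≃ₐ[K] L) → ℂ) (v : HeightOneSpectrum (𝓞 K)) (j : ℕ) : ℂ :=
  localMean χ (primeOver K L v) j

/-- **The coefficient does not depend on the prime over `v`.** -/
theorem coef_eq {χ : (L ≃ₐ[K] L) → ℂ} (hχ : ∀ g x, χ (g * x * g⁻¹) = χ x)
    {v : HeightOneSpectrum (𝓞 K)} {Q : Ideal (𝓞 L)} [Q.IsMaximal]
    (hQ : Q.under (𝓞 K) = v.asIdeal) (j : ℕ) : coef χ v j = localMean χ Q j := by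
  classical
  obtain ⟨g, rfl⟩ := Algebra.IsInvariant.exists_smul_of_under_eq (𝓞 K) (𝓞 L) (L ≃ₐ[K] L)
    (primeOver K L v) Q ((under_primeOver K L v).trans hQ.symm)
  rw [coef, localMean, localMean, ← card_isFrobPow K (primeOver K L v) j,
    ← card_isFrobPow K (g • primeOver K L v) j]
  have hmem : ∀ σ : L ≃ₐ[K] L, σ ∈ Finset.univ.filter (fun σ => IsFrobPow K (primeOver K L v) j σ) ↔
      (MulAut.conj g).toEquiv σ ∈
        Finset.univ.filter (fun σ => IsFrobPow K (g • primeOver K L v) j σ) := fun σ => by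
    simp [isFrobPow_conj]
  rw [Finset.card_equiv (MulAut.conj g).toEquiv hmem,
    Finset.sum_equiv (MulAut.conj g).toEquiv hmem fun σ _ => (hχ g σ).symm]

/-- A bound for the coefficients. -/
theorem norm_coef_le (χ : (L ≃ₐ[K] L) → ℂ) (v : HeightOneSpectrum (𝓞 K)) (j : ℕ) :
    ‖coef χ v j‖ ≤ ∑ σ, ‖χ σ‖ := by
  classical
  rw [coef, localMean, norm_mul, norm_inv, Complex.norm_natCast]
  refine le_trans (mul_le_of_le_one_left (norm_nonneg _) (inv_le_one_of_one_le₀ ?_)) ?_
  · exact_mod_cast Nat.card_pos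
  · exact (norm_sum_le _ _).trans (Finset.sum_le_sum_of_subset_of_nonneg (Finset.filter_subset _ _)
      fun _ _ _ => norm_nonneg _)

theorem coef_add (χ ψ : (L ≃ₐ[K] L) → ℂ) (v : HeightOneSpectrum (𝓞 K)) (j : ℕ) :
    coef (χ + ψ) v j = coef χ v j + coef ψ v j := by
  classical
  simp [coef, localMean, Finset.sum_add_distrib, mul_add]

theorem coef_smul (c : ℂ) (χ : (L ≃ₐ[K] L) → ℂ) (v : HeightOneSpectrum (𝓞 K)) (j : ℕ) :
    coef (c • χ) v j = c * coef χ v j := by
  classical
  simp [coef, localMean, ← Finset.mul_sum, mul_left_comm]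

theorem coef_one (v : HeightOneSpectrum (𝓞 K)) (j : ℕ) :
    coef (fun _ : L ≃ₐ[K] L => (1 : ℂ)) v j = 1 := by
  classical
  rw [coef, localMean, Finset.sum_const, card_isFrobPow, nsmul_one,
    inv_mul_cancel₀ (Nat.cast_ne_zero.2 Nat.card_pos.ne')]

/-- A term of the logarithm. -/
def term (χ : (L ≃ₐ[K] L) → ℂ) (s : ℂ) (p : HeightOneSpectrum (𝓞 K) × ℕ) : ℂ :=
  coef χ p.1 (p.2 + 1) * (((Ideal.absNorm p.1.asIdeal : ℕ) : ℂ) ^ (-s)) ^ (p.2 + 1) / (p.2 + 1)

/-- The logarithm of the Artin L-series. -/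
def artinLog (χ : (L ≃ₐ[K] L) → ℂ) (s : ℂ) : ℂ := ∑' p, term χ s p

/-- **The Artin L-series**, for `1 < re s`. -/
def artinL (χ : (L ≃ₐ[K] L) → ℂ) (s : ℂ) : ℂ := Complex.exp (artinLog χ s)

variable {s : ℂ} (hs : 1 < s.re)

omit [IsGalois K L] [Algebra K L] [Field L] [NumberField L] in
include hs in
theorem norm_norm_cpow (v : HeightOneSpectrum (𝓞 K)) :
    ‖((Ideal.absNorm v.asIdeal : ℕ) : ℂ) ^ (-s)‖ = FA.Ext.zN s.re (FA.Ext.primeIdeal v) ∧
      FA.Ext.zN s.re (FA.Ext.primeIdeal v) ≤ 1 / 2 :=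
  ⟨FA.AbelianZeta.norm_normPow s (FA.Ext.primeIdeal v), FA.Ext.zN_primeIdeal_le_half hs.le v⟩

include hs in
/-- **Absolute convergence.** -/
theorem summable_term (χ : (L ≃ₐ[K] L) → ℂ) : Summable (term χ s) := by
  set B := ∑ σ, ‖χ σ‖
  have h1 : Summable fun v : HeightOneSpectrum (𝓞 K) =>
      B * FA.Ext.zN s.re (FA.Ext.primeIdeal v) := by
    refine Summable.mul_left _ ?_
    exact (FA.Ext.summable_zN hs).comp_injective fun v w h =>
      HeightOneSpectrum.ext (congrArg (fun I : (Ideal (𝓞 K))⁰ => I.1) h)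
  refine Summable.of_norm_bounded
    (h1.mul_of_nonneg summable_geometric_two (fun v => mul_nonneg
      (Finset.sum_nonneg fun _ _ => norm_nonneg _) (FA.Ext.zN_nonneg _ _))
      fun j => pow_nonneg (by norm_num) j) fun p => ?_
  obtain ⟨hz, hz2⟩ := norm_norm_cpow hs p.1
  rw [term, norm_div, norm_mul, norm_pow, hz]
  refine (div_le_self (mul_nonneg (norm_nonneg _) (pow_nonneg (FA.Ext.zN_nonneg _ _) _))
    ?_).trans ?_
  · exact_mod_cast (Complex.norm_natCast (p.2 + 1)).symm ▸ (by exact_mod_cast Nat.succ_pos p.2 :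
      (1 : ℝ) ≤ ((p.2 + 1 : ℕ) : ℝ))
  · rw [pow_succ', ← mul_assoc]
    exact mul_le_mul (mul_le_mul_of_nonneg_right (norm_coef_le χ _ _) (FA.Ext.zN_nonneg _ _))
      (pow_le_pow_left₀ (FA.Ext.zN_nonneg _ _) hz2 _) (pow_nonneg (FA.Ext.zN_nonneg _ _) _)
      (mul_nonneg (Finset.sum_nonneg fun _ _ => norm_nonneg _) (FA.Ext.zN_nonneg _ _))

theorem artinL_ne_zero (χ : (L ≃ₐ[K] L) → ℂ) (s : ℂ) : artinL χ s ≠ 0 := Complex.exp_ne_zero _

theorem artinL_zero (s : ℂ) : artinL (0 : (L ≃ₐ[K] L) → ℂ) s = 1 := by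
  classical
  simp [artinL, artinLog, term, coef, localMean]

include hs in
theorem artinLog_add (χ ψ : (L ≃ₐ[K] L) → ℂ) :
    artinLog (χ + ψ) s = artinLog χ s + artinLog ψ s := by
  rw [artinLog, artinLog, artinLog, ← (summable_term hs χ).tsum_add (summable_term hs ψ)]
  exact tsum_congr fun p => by simp only [term, coef_add, add_mul, add_div]

theorem artinLog_smul (c : ℂ) (χ : (L ≃ₐ[K] L) → ℂ) :
    artinLog (c • χ) s = c * artinLog χ s := by
  rw [artinLog, artinLog, ← tsum_mul_left]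
  exact tsum_congr fun p => by simp only [term, coef_smul, mul_assoc, mul_div_assoc]

include hs in
theorem artinL_add (χ ψ : (L ≃ₐ[K] L) → ℂ) :
    artinL (χ + ψ) s = artinL χ s * artinL ψ s := by
  rw [artinL, artinLog_add hs, Complex.exp_add, artinL, artinL]

theorem artinL_zsmul (n : ℤ) (χ : (L ≃ₐ[K] L) → ℂ) : artinL (n • χ) s = artinL χ s ^ n := by
  rw [← Int.cast_smul_eq_zsmul ℂ, artinL, artinLog_smul, artinL, Complex.exp_int_mul]

include hs in
theorem artinL_sum {ι : Type*} (t : Finset ι) (χ : ι → (L ≃ₐ[K] L) → ℂ) :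
    artinL (∑ i ∈ t, χ i) s = ∏ i ∈ t, artinL (χ i) s := by
  classical
  induction t using Finset.induction_on with
  | empty => simp [artinL_zero]
  | insert a t ha ih => rw [Finset.sum_insert ha, Finset.prod_insert ha, artinL_add hs, ih]

include hs in
/-- **The Euler product.** -/
theorem hasProd_artinL (χ : (L ≃ₐ[K] L) → ℂ) :
    HasProd (fun v => Complex.exp (∑' j, term χ s (v, j))) (artinL χ s) := by
  have h := summable_term hs χ
  exact (h.hasSum.prod_fiberwise fun v => (h.prod_factor v).hasSum).cexp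

include hs in
/-- **The trivial character gives the zeta function.** -/
theorem artinL_one :
    artinL (fun _ : L ≃ₐ[K] L => (1 : ℂ)) s = dedekindZeta K s := by
  refine (hasProd_artinL hs _).unique ?_
  convert FA.AbelianZeta.hasProd_primes (F := K) hs using 1
  funext v
  set z := ((Ideal.absNorm v.asIdeal : ℕ) : ℂ) ^ (-s)
  have hz : ‖z‖ < 1 := by
    obtain ⟨h1, h2⟩ := norm_norm_cpow hs v
    rw [h1]; linarith
  have h : HasSum (fun j => term (fun _ : L ≃ₐ[K] L => (1 : ℂ)) s (v, j))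
      (-Complex.log (1 - z)) := by
    simpa only [term, coef_one, one_mul] using Complex.hasSum_taylorSeries_neg_log' hz
  rw [h.tsum_eq, Complex.exp_neg, Complex.exp_log]
  intro h0
  rw [sub_eq_zero] at h0
  rw [← h0, norm_one] at hz
  exact lt_irrefl _ hz

end FA.ArtinL

end
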