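import Fermat.Agent.ArtinL.BrauerRelations
import Fermat.Agent.Root.SummaryConductorDiscriminant
import Mathlib.GroupTheory.SpecificGroups.KleinFour

/-!
# The relation of a biquadratic extension

In the Klein four-group `{1, a, b, ab}` the regular character plus twice the trivial one is the sum
of the three characters induced from the subgroups of order two. Over `ℚ` the conductor-discriminant
formula makes the discriminant the product of those of the quadratic subfields.
-/

set_option autoImplicit false
set_option linter.style.haveILetI false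
set_option linter.unusedSectionVars false

noncomputable section

open NumberField Module Finset FA.CharacterTheory
open scoped Classical

namespace FA.ArtinL

section group

variable {G : Type*} [Group G] [Fintype G] [IsKleinFour G]

theorem mem_zpowers_klein {a x : G} : x ∈ Subgroup.zpowers a ↔ x = 1 ∨ x = a := by
  constructor
  · rintro ⟨k, rfl⟩
    have h2 : a ^ (2 : ℤ) = 1 := by rw [zpow_two, IsKleinFour.mul_self]
    rcases Int.even_or_odd' k with ⟨j, rfl | rfl⟩
    · exact Or.inl (by simp [zpow_mul, h2])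
    · exact Or.inr (by simp [zpow_add, zpow_mul, h2])
  · rintro (rfl | rfl)
    · exact one_mem _
    · exact Subgroup.mem_zpowers _

/-- The values in a commutative group. -/
theorem induced_one_klein (H : Subgroup G) (x : G) :
    induced H (fun _ => (1 : ℂ)) x = if x ∈ H then (Nat.card H : ℂ)⁻¹ * 4 else 0 := by
  have hc : ∀ g : G, g * x * g⁻¹ = x := fun g => by
    haveI : IsMulCommutative G := IsKleinFour.isMulCommutative
    rw [mul_comm' g x, mul_inv_cancel_right]
  simp only [induced, hc, dite_eq_ite]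
  split_ifs <;> simp

/-- The five subgroups. -/
def kleinFamily (a b : G) : Fin 5 → Subgroup G :=
  ![⊥, ⊤, Subgroup.zpowers a, Subgroup.zpowers b, Subgroup.zpowers (a * b)]

/-- Their multiplicities. -/
def kleinCoeff : Fin 5 → ℤ := ![1, 2, -1, -1, -1]

theorem card_zpowers_klein {a : G} (ha : a ≠ 1) : Nat.card (Subgroup.zpowers a) = 2 := by
  rw [Nat.card_zpowers]
  exact orderOf_eq_prime (by rw [pow_two, IsKleinFour.mul_self]) ha

theorem mul_ne_one_klein {a b : G} (hab : a ≠ b) : a * b ≠ 1 := fun h =>
  hab ((eq_inv_of_mul_eq_one_left h).trans (IsKleinFour.inv_eq_self b))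

theorem klein_relation {a b : G} (ha : a ≠ 1) (hb : b ≠ 1) (hab : a ≠ b) (g : G) :
    ∑ i, (kleinCoeff i : ℂ) * induced (kleinFamily a b i) (fun _ => (1 : ℂ)) g = 0 := by
  have hc := mul_ne_one_klein hab
  have h1 : a * b ≠ a := fun h => hb (by simpa using h)
  have h2 : a * b ≠ b := fun h => ha (by simpa using h)
  have hmem := Finset.eq_univ_iff_forall.1 (IsKleinFour.eq_finset_univ ha hb hab) g
  simp only [mem_insert, mem_singleton] at hmem
  simp only [Fin.sum_univ_five, kleinFamily, kleinCoeff, Matrix.cons_val_zero, Matrix.cons_val_one,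
    Matrix.cons_val, induced_one_klein]
  rw [card_zpowers_klein ha, card_zpowers_klein hb, card_zpowers_klein hc, Subgroup.card_bot,
    Subgroup.card_top, IsKleinFour.card_four]
  simp only [mem_zpowers_klein, Subgroup.mem_bot, Subgroup.mem_top, if_true]
  rcases hmem with rfl | rfl | rfl | rfl <;>
    simp [ha, hb, hc, hab, hab.symm, h1, h2, h1.symm, h2.symm, Ne.symm ha, Ne.symm hb,
      Ne.symm hc] <;>
    norm_num

end group

variable {K L : Type*} [Field K] [NumberField K] [Field L] [NumberField L] [Algebra K L]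
  [IsGalois K L]

theorem dedekindZeta_fixedField_bot (s : ℂ) :
    dedekindZeta (IntermediateField.fixedField (⊥ : Subgroup (L ≃ₐ[K] L))) s = dedekindZeta L s :=
  FA.AbelianZeta.dedekindZeta_congr
    ((IntermediateField.equivOfEq IntermediateField.fixedField_bot).trans
      IntermediateField.topEquiv).toRingEquiv s

theorem dedekindZeta_fixedField_top (s : ℂ) :
    dedekindZeta (IntermediateField.fixedField (⊤ : Subgroup (L ≃ₐ[K] L))) s = dedekindZeta K s :=
  FA.AbelianZeta.dedekindZeta_congr
    ((IntermediateField.equivOfEq IsGalois.fixedField_top).trans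
      (IntermediateField.botEquiv K L)).toRingEquiv s

theorem finrank_fixedField_klein [IsKleinFour (L ≃ₐ[K] L)] {a : L ≃ₐ[K] L} (ha : a ≠ 1) :
    finrank K (IntermediateField.fixedField (Subgroup.zpowers a)) = 2 := by
  have h1 := IntermediateField.finrank_fixedField_eq_card (Subgroup.zpowers a)
  have h2 := Module.finrank_mul_finrank K (IntermediateField.fixedField (Subgroup.zpowers a)) L
  rw [h1, card_zpowers_klein ha, ← IsGalois.card_aut_eq_finrank K L, IsKleinFour.card_four] at h2
  omega

section discriminant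

/-- A group of order four as the union of three subgroups of order two. -/
theorem prod_group_four {α : Type*} [Group α] {X A B C : Subgroup α} [Finite X]
    (hX : Nat.card X = 4) (hA : Nat.card A = 2) (hB : Nat.card B = 2) (hC : Nat.card C = 2)
    (hAX : A ≤ X) (hBX : B ≤ X) (hCX : C ≤ X) (hAB : A ≠ B) (hAC : A ≠ C) (hBC : B ≠ C)
    (c : α → ℕ) (hc : c 1 = 1) :
    ∃ a b d, (∀ x, x ∈ A ↔ x = 1 ∨ x = a) ∧ (∀ x, x ∈ B ↔ x = 1 ∨ x = b) ∧
      (∀ x, x ∈ C ↔ x = 1 ∨ x = d) ∧
      ∏ x ∈ (X : Set α).toFinite.toFinset, c x = c a * c b * c d := by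
  have htwo : ∀ S : Subgroup α, Nat.card S = 2 → ∃ a, a ≠ 1 ∧ ∀ x, x ∈ S ↔ x = 1 ∨ x = a :=
    fun S hS => by
    obtain ⟨a, ha, hu⟩ := (Nat.card_eq_two_iff' (1 : S)).1 hS
    refine ⟨a, fun h => ha (Subtype.ext h), fun x => ⟨fun hx => ?_, ?_⟩⟩
    · by_cases h : (⟨x, hx⟩ : S) = 1
      · exact Or.inl (congrArg Subtype.val h)
      · exact Or.inr (congrArg Subtype.val (hu _ h))
    · rintro (rfl | rfl)
      · exact one_mem _
      · exact a.2
  obtain ⟨a, ha, hA'⟩ := htwo A hA
  obtain ⟨b, hb, hB'⟩ := htwo B hB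
  obtain ⟨d, hd, hC'⟩ := htwo C hC
  have hne : ∀ {S T : Subgroup α} {u v : α}, (∀ x, x ∈ S ↔ x = 1 ∨ x = u) →
      (∀ x, x ∈ T ↔ x = 1 ∨ x = v) → S ≠ T → u ≠ v := fun hS hT hST huv =>
    hST (SetLike.ext fun x => by rw [hS, hT, huv])
  have hab := hne hA' hB' hAB
  have had := hne hA' hC' hAC
  have hbd := hne hB' hC' hBC
  refine ⟨a, b, d, hA', hB', hC', ?_⟩
  have hset : (X : Set α).toFinite.toFinset = {1, a, b, d} := by
    refine (Finset.eq_of_subset_of_card_le ?_ ?_).symm
    · simp only [insert_subset_iff, singleton_subset_iff, Set.Finite.mem_toFinset, SetLike.mem_coe]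
      exact ⟨one_mem _, hAX ((hA' a).2 (Or.inr rfl)), hBX ((hB' b).2 (Or.inr rfl)),
        hCX ((hC' d).2 (Or.inr rfl))⟩
    · rw [← Set.ncard_eq_toFinset_card (X : Set α) (X : Set α).toFinite, ← Nat.card_coe_set_eq,
        show Nat.card (X : Set α) = 4 from hX]
      simp [hab, had, hbd, ha.symm, hb.symm, hd.symm]
  rw [hset]
  simp [hab, had, hbd, ha.symm, hb.symm, hd.symm, hc, mul_assoc]

variable [IsGalois ℚ L] [IsKleinFour (L ≃ₐ[ℚ] L)]

/-- **The discriminant of a biquadratic field.** -/
theorem natAbs_discr_biquadratic {a b : L ≃ₐ[ℚ] L} (ha : a ≠ 1) (hb : b ≠ 1) (hab : a ≠ b) :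
    (discr L).natAbs = (discr (IntermediateField.fixedField (Subgroup.zpowers a))).natAbs *
      (discr (IntermediateField.fixedField (Subgroup.zpowers b))).natAbs *
      (discr (IntermediateField.fixedField (Subgroup.zpowers (a * b)))).natAbs := by
  haveI : IsMulCommutative (L ≃ₐ[ℚ] L) := IsKleinFour.isMulCommutative
  haveI : IsAbelianGalois ℚ L := ⟨⟩
  obtain ⟨n, hn, ⟨f⟩⟩ := FA.Summary.kroneckerWeber_cyclotomicField L
  haveI : NeZero n := ⟨hn.ne'⟩
  haveI : NeZero (n : ℚ) := ⟨Nat.cast_ne_zero.mpr hn.ne'⟩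
  haveI : IsCyclotomicExtension {n} ℚ (CyclotomicField n ℚ) :=
    CyclotomicField.isCyclotomicExtension n ℚ
  haveI : IsAbelianGalois ℚ (CyclotomicField n ℚ) :=
    IsCyclotomicExtension.isAbelianGalois {n} ℚ (CyclotomicField n ℚ)
  set F : Subgroup (L ≃ₐ[ℚ] L) → IntermediateField ℚ (CyclotomicField n ℚ) := fun H =>
    (IntermediateField.fixedField H).map f
  set X := fun E : IntermediateField ℚ (CyclotomicField n ℚ) =>
    FA.AbelianZeta.fieldChars n (CyclotomicField n ℚ) E
  have hdiscr : ∀ H, (discr (IntermediateField.fixedField H)).natAbs =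
      ∏ χ ∈ (X (F H) : Set (DirichletCharacter ℂ n)).toFinite.toFinset, χ.conductor := fun H => by
    rw [← FA.Summary.conductor_discriminant n (CyclotomicField n ℚ) (F H)]
    exact congrArg Int.natAbs
      (discr_eq_discr_of_algEquiv _ ((IntermediateField.fixedField H).equivMap f))
  have hdL : (discr L).natAbs =
      ∏ χ ∈ (X f.fieldRange : Set (DirichletCharacter ℂ n)).toFinite.toFinset, χ.conductor := by
    rw [← FA.Summary.conductor_discriminant n (CyclotomicField n ℚ) f.fieldRange]
    exact congrArg Int.natAbs (discr_eq_discr_of_algEquiv _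
      (show L ≃ₐ[ℚ] f.fieldRange from AlgEquiv.ofInjectiveField f))
  have hcard : ∀ E, Nat.card (X E) = finrank ℚ E := fun E => by
    simp only [X, FA.AbelianZeta.fieldChars]
    rw [IsCyclotomicExtension.Rat.card_intermediateFieldEquivSubgroupChar]
  have hc2 : ∀ {u : L ≃ₐ[ℚ] L}, u ≠ 1 → Nat.card (X (F (Subgroup.zpowers u))) = 2 := fun hu => by
    rw [hcard]
    exact ((IntermediateField.fixedField _).equivMap f).toLinearEquiv.finrank_eq.symm.trans
      (finrank_fixedField_klein hu)
  have hc4 : Nat.card (X f.fieldRange) = 4 := by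
    rw [hcard, ← (show L ≃ₐ[ℚ] f.fieldRange from
      AlgEquiv.ofInjectiveField f).toLinearEquiv.finrank_eq,
      ← IsGalois.card_aut_eq_finrank, IsKleinFour.card_four]
  have hle : ∀ H, X (F H) ≤ X f.fieldRange := fun H => by
    simp only [X, FA.AbelianZeta.fieldChars]
    exact (IsCyclotomicExtension.Rat.intermediateFieldEquivSubgroupChar n _ ℂ).monotone
      (IntermediateField.map_le_iff_le_comap.2 fun x _ => ⟨x, rfl⟩)
  have hne : ∀ {u v : L ≃ₐ[ℚ] L}, u ≠ 1 → u ≠ v →
      X (F (Subgroup.zpowers u)) ≠ X (F (Subgroup.zpowers v)) := fun {u v} hu huv he => by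
    have h1 := IntermediateField.map_injective f
      ((IsCyclotomicExtension.Rat.intermediateFieldEquivSubgroupChar n _ ℂ).injective he)
    have h2 : Subgroup.zpowers u = Subgroup.zpowers v := by
      rw [← IntermediateField.fixingSubgroup_fixedField (Subgroup.zpowers u), h1,
        IntermediateField.fixingSubgroup_fixedField]
    rcases mem_zpowers_klein.1 (h2 ▸ Subgroup.mem_zpowers u) with h3 | h3
    · exact hu h3
    · exact huv h3
  obtain ⟨x, y, z, hx, hy, hz, hprod⟩ := prod_group_four hc4 (hc2 ha) (hc2 hb)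
    (hc2 (mul_ne_one_klein hab)) (hle _) (hle _) (hle _) (hne ha hab)
    (hne ha fun h => hb (by simpa using h.symm)) (hne hb fun h => ha (by simpa using h.symm))
    DirichletCharacter.conductor DirichletCharacter.conductor_one
  have hpair : ∀ {S : Subgroup (DirichletCharacter ℂ n)} {w : DirichletCharacter ℂ n},
      (∀ t, t ∈ S ↔ t = 1 ∨ t = w) → Nat.card S = 2 →
      ∏ χ ∈ (S : Set (DirichletCharacter ℂ n)).toFinite.toFinset, χ.conductor = w.conductor :=
    fun {S w} hS hS2 => by
    have hw : w ≠ 1 := fun h => by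
      haveI : Subsingleton S := ⟨fun p q => Subtype.ext (by
        rw [((hS p.1).1 p.2).elim id (fun e => e.trans h),
          ((hS q.1).1 q.2).elim id (fun e => e.trans h)])⟩
      rw [Nat.card_of_subsingleton (1 : S)] at hS2
      omega
    rw [show (S : Set (DirichletCharacter ℂ n)).toFinite.toFinset = {1, w} by
        refine Finset.ext fun t => ?_
        rw [Set.Finite.mem_toFinset, SetLike.mem_coe, hS]; simp,
      prod_insert (by simp [hw.symm]), prod_singleton,
      DirichletCharacter.conductor_one, one_mul]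
  rw [hdL, hprod, hdiscr, hdiscr, hdiscr, hpair hx (hc2 ha), hpair hy (hc2 hb),
    hpair hz (hc2 (mul_ne_one_klein hab))]

end discriminant

end FA.ArtinL

end
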