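import Fermat.Agent.Root.SummaryBrauerKuroda
import Mathlib.NumberTheory.NumberField.CMField

/-!
# The units of a biquadratic field

In a totally real biquadratic field the units of the three quadratic subfields generate a subgroup
whose regulator is `4 R₁ R₂ R₃`. In a totally complex one two of the quadratic subfields are
imaginary with regulator one and the third is the maximal real subfield.
-/

set_option autoImplicit false
set_option linter.style.haveILetI false
set_option linter.unusedSectionVars false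

noncomputable section

open NumberField Module InfinitePlace
open scoped Classical

namespace FA.ArtinL.BiquadraticUnits

section totallyReal

variable {F : Type*} [Field F] [NumberField F] [IsTotallyReal F]

theorem eq_one_or_of_mem_torsion {x : (𝓞 F)ˣ} (hx : x ∈ Units.torsion F) : x = 1 ∨ x = -1 := by
  obtain ⟨w⟩ := (inferInstance : Nonempty (InfinitePlace F))
  set ψ := (embedding_of_isReal (IsTotallyReal.isReal w) : F →+* ℝ)
  obtain ⟨n, hn, hxn⟩ := isOfFinOrder_iff_pow_eq_one.1 ((CommGroup.mem_torsion _).1 hx)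
  have h1 : |ψ ((x : 𝓞 F) : F)| ^ n = 1 := by
    have hx1 : ((x : 𝓞 F) : F) ^ n = 1 := by
      simpa using congrArg (fun u : (𝓞 F)ˣ => ((u : 𝓞 F) : F)) hxn
    rw [← abs_pow, ← map_pow, hx1, map_one, abs_one]
  rcases (abs_eq zero_le_one).1 ((pow_eq_one_iff_of_nonneg (abs_nonneg _) hn.ne').1 h1) with h | h
  · exact Or.inl (_root_.Units.ext (RingOfIntegers.ext (ψ.injective (by simpa using h))))
  · exact Or.inr (_root_.Units.ext (RingOfIntegers.ext (ψ.injective (by simpa using h))))

theorem torsionOrder_eq_two : Units.torsionOrder F = 2 := by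
  rw [Units.torsionOrder]
  refine Nat.card_eq_two_iff.2 ⟨⟨1, one_mem _⟩, ⟨-1, neg_one_mem_torsion⟩, fun h => ?_,
    Set.eq_univ_iff_forall.2 fun x => ?_⟩
  · have := congrArg (fun u : Units.torsion F => (((u.1 : (𝓞 F)ˣ) : 𝓞 F) : F)) h
    norm_num at this
  · rcases eq_one_or_of_mem_torsion x.2 with h | h
    · exact Or.inl (Subtype.ext h)
    · exact Or.inr (Subtype.ext h)

theorem card_places : Fintype.card (InfinitePlace F) = finrank ℚ F := by
  rw [card_eq_nrRealPlaces_add_nrComplexPlaces, IsTotallyReal.nrComplexPlaces_eq_zero,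
    IsTotallyReal.finrank, add_zero]

/-- A fundamental unit of a real quadratic field. -/
theorem exists_quadratic_unit (hF : finrank ℚ F = 2) :
    ∃ ε : (𝓞 F)ˣ, (∀ v : InfinitePlace F, |Real.log (v ((ε : 𝓞 F) : F))| = Units.regulator F) ∧
      Subgroup.closure {ε} ⊔ Units.torsion F = ⊤ := by
  have hrank : Units.rank F = 1 := by rw [Units.rank, card_places, hF]
  haveI : Subsingleton (Fin (Units.rank F)) := by rw [hrank]; infer_instance
  set i₀ : Fin (Units.rank F) := ⟨0, by omega⟩
  refine ⟨Units.fundSystem F i₀, fun v => ?_, ?_⟩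
  · haveI : Nontrivial (InfinitePlace F) :=
      Fintype.one_lt_card_iff_nontrivial.1 (by rw [card_places, hF]; norm_num)
    obtain ⟨w', hw'⟩ := exists_ne v
    have hc : Fintype.card {w : InfinitePlace F // w ≠ w'} = Units.rank F := by
      rw [Fintype.card_subtype_compl, Fintype.card_subtype_eq, Units.rank]
    haveI : Subsingleton {w : InfinitePlace F // w ≠ w'} :=
      Fintype.card_le_one_iff_subsingleton.1 (by omega)
    rw [Units.regulator_eq_det F w' (Fintype.equivFinOfCardEq hc),
      Matrix.det_eq_elem_of_subsingleton _ ⟨v, hw'.symm⟩, Matrix.of_apply,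
      Subsingleton.elim (Fintype.equivFinOfCardEq hc _) i₀, IsTotallyReal.mult_eq, Nat.cast_one,
      one_mul]
  · rw [← top_le_iff, ← Units.closure_fundSystem_sup_torsion_eq_top F]
    refine sup_le_sup_right (Subgroup.closure_mono ?_) _
    rintro _ ⟨i, rfl⟩
    rw [Subsingleton.elim i i₀]
    exact Set.mem_singleton _

end totallyReal

variable {L : Type*} [Field L] [NumberField L] [IsGalois ℚ L]

/-- The units of `L` from an intermediate field. -/
def subUnits (M : IntermediateField ℚ L) : Subgroup (𝓞 L)ˣ :=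
  (_root_.Units.map (algebraMap (𝓞 M) (𝓞 L)).toMonoidHom).range

/-- The group generated by the units of the three quadratic subfields. -/
def quadraticUnits (a b : L ≃ₐ[ℚ] L) : Subgroup (𝓞 L)ˣ :=
  subUnits (IntermediateField.fixedField (Subgroup.zpowers a)) ⊔
    subUnits (IntermediateField.fixedField (Subgroup.zpowers b)) ⊔
    subUnits (IntermediateField.fixedField (Subgroup.zpowers (a * b)))

variable [IsKleinFour (L ≃ₐ[ℚ] L)]

theorem finrank_eq_four : finrank ℚ L = 4 := by
  rw [← IsGalois.card_aut_eq_finrank, IsKleinFour.card_four]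

section real

variable [IsTotallyReal L]

/-- A place of `L` for each automorphism. -/
theorem place_bijective (w₀ : InfinitePlace L) :
    Function.Bijective fun g : L ≃ₐ[ℚ] L => g • w₀ := by
  rw [Fintype.bijective_iff_surjective_and_card]
  refine ⟨fun w => exists_smul_eq_of_comap_eq (k := ℚ) (Subsingleton.elim _ _), ?_⟩
  rw [card_places, finrank_eq_four, ← Nat.card_eq_fintype_card, IsKleinFour.card_four]

/-- The fundamental unit of a quadratic subfield at the four places. -/
theorem exists_subfield_unit (w₀ : InfinitePlace L) {u : L ≃ₐ[ℚ] L} (hu : u ≠ 1) :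
    ∃ (η : (𝓞 L)ˣ) (x : ℝ), η ∈ subUnits (IntermediateField.fixedField (Subgroup.zpowers u)) ∧
      subUnits (IntermediateField.fixedField (Subgroup.zpowers u)) ≤
        Subgroup.closure {η} ⊔ Units.torsion L ∧
      |x| = Units.regulator (IntermediateField.fixedField (Subgroup.zpowers u)) ∧
      ∀ g : L ≃ₐ[ℚ] L,
        Real.log ((g • w₀) ((η : 𝓞 L) : L)) = if g ∈ Subgroup.zpowers u then x else -x := by
  set M := IntermediateField.fixedField (Subgroup.zpowers u)
  obtain ⟨ε, hε, hgen⟩ := exists_quadratic_unit (F := M) (finrank_fixedField_klein hu)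
  set f := _root_.Units.map (algebraMap (𝓞 M) (𝓞 L)).toMonoidHom
  have hcoe : ((f ε : 𝓞 L) : L) = algebraMap M L ((ε : 𝓞 M) : M) := rfl
  set x := Real.log (w₀ ((f ε : 𝓞 L) : L))
  have hfix : ∀ g ∈ Subgroup.zpowers u, g ((f ε : 𝓞 L) : L) = ((f ε : 𝓞 L) : L) := fun g hg =>
    ((ε : 𝓞 M) : M).2 ⟨g, hg⟩
  refine ⟨f ε, x, ⟨ε, rfl⟩, ?_, ?_, ?_⟩
  · rintro _ ⟨z, rfl⟩
    have hz : z ∈ Subgroup.closure {ε} ⊔ Units.torsion M := by rw [hgen]; exact Subgroup.mem_top z
    have := Subgroup.mem_map_of_mem f hz
    rw [Subgroup.map_sup, MonoidHom.map_closure, Set.image_singleton] at this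
    have hle : Subgroup.map f (Units.torsion M) ≤ Units.torsion L := fun y hy => by
      obtain ⟨t, ht, rfl⟩ := hy
      exact (CommGroup.mem_torsion _).2 (f.isOfFinOrder ((CommGroup.mem_torsion _).1 ht))
    exact (sup_le (le_sup_left) (hle.trans le_sup_right) :
      Subgroup.closure {f ε} ⊔ Subgroup.map f (Units.torsion M) ≤
        Subgroup.closure {f ε} ⊔ Units.torsion L) this
  · exact hε (w₀.comap (algebraMap M L))
  have hsum := Units.sum_mult_mul_log (K := L) (f ε)
  simp only [IsTotallyReal.mult_eq, Nat.cast_one, one_mul] at hsum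
  rw [← (Equiv.ofBijective _ (place_bijective w₀)).sum_comp] at hsum
  obtain ⟨v, hv1, hvu⟩ : ∃ v : L ≃ₐ[ℚ] L, v ≠ 1 ∧ v ≠ u := by
    by_contra hcon
    push Not at hcon
    have hle : (Finset.univ : Finset (L ≃ₐ[ℚ] L)) ⊆ {1, u} := fun v _ => by
      by_cases h : v = 1
      · simp [h]
      · simp [hcon v h]
    have := (Finset.card_le_card hle).trans Finset.card_le_two
    rw [Finset.card_univ, ← Nat.card_eq_fintype_card, IsKleinFour.card_four] at this
    omega
  have hval : ∀ g : L ≃ₐ[ℚ] L, Real.log ((g • w₀) ((f ε : 𝓞 L) : L)) =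
      Real.log (w₀ (g.symm ((f ε : 𝓞 L) : L))) := fun g => by rw [InfinitePlace.smul_apply]
  have hcoset : ∀ g h : L ≃ₐ[ℚ] L, g⁻¹ * h ∈ Subgroup.zpowers u →
      Real.log ((g • w₀) ((f ε : 𝓞 L) : L)) = Real.log ((h • w₀) ((f ε : 𝓞 L) : L)) :=
    fun g h hgh => by
    rw [hval, hval]
    haveI : IsMulCommutative (L ≃ₐ[ℚ] L) := IsKleinFour.isMulCommutative
    have h1 : g.symm = h.symm * (g⁻¹ * h) := by
      rw [mul_comm' g⁻¹ h, ← mul_assoc]
      exact (by group : g⁻¹ = h⁻¹ * h * g⁻¹)
    conv_lhs => rw [h1, AlgEquiv.mul_apply, hfix _ hgh]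
  have hone : ∀ g ∈ Subgroup.zpowers u, Real.log ((g • w₀) ((f ε : 𝓞 L) : L)) = x := fun g hg => by
    rw [hcoset g 1 (by rw [mul_one]; exact inv_mem hg), one_smul]
  have hother : ∀ g, g ∉ Subgroup.zpowers u →
      Real.log ((g • w₀) ((f ε : 𝓞 L) : L)) = Real.log ((v • w₀) ((f ε : 𝓞 L) : L)) := fun g hg =>
    hcoset g v (by
      rw [IsKleinFour.inv_eq_self]
      have hg1 : g ≠ 1 := fun h => hg (h ▸ one_mem _)
      have hgu : g ≠ u := fun h => hg (h ▸ Subgroup.mem_zpowers _)
      by_cases hgv : g = v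
      · rw [hgv, IsKleinFour.mul_self]; exact one_mem _
      · rw [mem_zpowers_klein]
        exact Or.inr (IsKleinFour.eq_mul_of_ne_all hg1 hv1 hgv hu hgu.symm hvu.symm).symm)
  intro g
  have hsum' : ∑ g : L ≃ₐ[ℚ] L, Real.log ((g • w₀) ((f ε : 𝓞 L) : L)) = 0 := hsum
  set y := Real.log ((v • w₀) ((f ε : 𝓞 L) : L))
  rw [Finset.sum_congr rfl fun g _ => show Real.log ((g • w₀) ((f ε : 𝓞 L) : L)) =
    if g ∈ Subgroup.zpowers u then x else y by
      split_ifs with h
      exacts [hone g h, hother g h],
    Finset.sum_ite, Finset.sum_const, Finset.sum_const] at hsum'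
  have hc1 : (Finset.univ.filter fun g : L ≃ₐ[ℚ] L => g ∈ Subgroup.zpowers u).card = 2 := by
    rw [← Fintype.card_subtype, ← Nat.card_eq_fintype_card]
    exact card_zpowers_klein hu
  have hc2 : (Finset.univ.filter fun g : L ≃ₐ[ℚ] L => g ∉ Subgroup.zpowers u).card = 2 := by
    have h := Finset.card_filter_add_card_filter_not (s := (Finset.univ : Finset (L ≃ₐ[ℚ] L)))
      (fun g : L ≃ₐ[ℚ] L => g ∈ Subgroup.zpowers u)
    rw [hc1, Finset.card_univ, ← Nat.card_eq_fintype_card, IsKleinFour.card_four] at h
    omega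
  rw [hc1, hc2, nsmul_eq_mul, nsmul_eq_mul] at hsum'
  split_ifs with h
  · exact hone g h
  · rw [hother g h]
    push_cast at hsum'
    linarith

/-- **The regulator of the units of the quadratic subfields.** -/
theorem four_mul_regulators {a b : L ≃ₐ[ℚ] L} (ha : a ≠ 1) (hb : b ≠ 1) (hab : a ≠ b) :
    (quadraticUnits a b).index ≠ 0 ∧
      (quadraticUnits a b).index * Units.regulator L =
        4 * (Units.regulator (IntermediateField.fixedField (Subgroup.zpowers a)) *
          Units.regulator (IntermediateField.fixedField (Subgroup.zpowers b)) *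
          Units.regulator (IntermediateField.fixedField (Subgroup.zpowers (a * b)))) := by
  have hc := mul_ne_one_klein hab
  have h1 : a * b ≠ a := fun h => hb (by simpa using h)
  have h2 : a * b ≠ b := fun h => ha (by simpa using h)
  obtain ⟨w₀⟩ := (inferInstance : Nonempty (InfinitePlace L))
  obtain ⟨η₁, x, hη₁, hle₁, hx, hlog₁⟩ := exists_subfield_unit w₀ ha
  obtain ⟨η₂, y, hη₂, hle₂, hy, hlog₂⟩ := exists_subfield_unit w₀ hb
  obtain ⟨η₃, z, hη₃, hle₃, hz, hlog₃⟩ := exists_subfield_unit w₀ hc
  have hrank : Units.rank L = 3 := by rw [Units.rank, card_places, finrank_eq_four]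
  set u : Fin (Units.rank L) → (𝓞 L)ˣ := fun i => ![η₁, η₂, η₃] (finCongr hrank i)
  have hP := (place_bijective w₀).injective
  let q₀ : Fin 3 → {w : InfinitePlace L // w ≠ w₀} :=
    ![⟨a • w₀, fun h => ha (hP (h.trans (one_smul _ w₀).symm))⟩,
      ⟨b • w₀, fun h => hb (hP (h.trans (one_smul _ w₀).symm))⟩,
      ⟨(a * b) • w₀, fun h => hc (hP (h.trans (one_smul _ w₀).symm))⟩]
  have hq : Function.Bijective q₀ := by
    rw [Fintype.bijective_iff_injective_and_card, Fintype.card_subtype_compl,
      Fintype.card_subtype_eq, card_places, finrank_eq_four, Fintype.card_fin]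
    refine ⟨fun i j h => ?_, rfl⟩
    have h' := congrArg Subtype.val h
    fin_cases i <;> fin_cases j <;> first
      | rfl
      | exact absurd (hP h') (by simp [hab, hab.symm, h1, h1.symm, h2, h2.symm])
  set q := Equiv.ofBijective q₀ hq
  have hreg : Units.regOfFamily u = |4 * (x * y * z)| := by
    rw [Units.regOfFamily_eq_det u w₀ (q.symm.trans (finCongr hrank).symm),
      ← Matrix.det_submatrix_equiv_self q, Matrix.det_fin_three]
    simp only [Matrix.submatrix_apply, Matrix.of_apply, IsTotallyReal.mult_eq, Nat.cast_one,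
      one_mul, Equiv.trans_apply, Equiv.symm_apply_apply, u, Equiv.apply_symm_apply]
    simp only [q, Equiv.ofBijective_apply, q₀, Matrix.cons_val_zero, Matrix.cons_val_one,
      Matrix.cons_val, hlog₁, hlog₂, hlog₃, mem_zpowers_klein]
    simp [ha, hb, hc, hab, hab.symm, h1, h1.symm, h2, h2.symm]
    ring_nf
    simp [abs_mul]
  have hpos : x * y * z ≠ 0 := mul_ne_zero (mul_ne_zero
    (abs_pos.1 (hx ▸ Units.regulator_pos _)) (abs_pos.1 (hy ▸ Units.regulator_pos _)))
    (abs_pos.1 (hz ▸ Units.regulator_pos _))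
  have hU : Subgroup.closure (Set.range u) ⊔ Units.torsion L = quadraticUnits a b := by
    have hmem : ∀ i, u i ∈ quadraticUnits a b := fun i => by
      obtain ⟨j, rfl⟩ := (finCongr hrank).symm.surjective i
      simp only [u, Equiv.apply_symm_apply]
      fin_cases j
      · exact Subgroup.mem_sup_left (Subgroup.mem_sup_left hη₁)
      · exact Subgroup.mem_sup_left (Subgroup.mem_sup_right hη₂)
      · exact Subgroup.mem_sup_right hη₃
    have htor : Units.torsion L ≤ quadraticUnits a b := fun t ht => by
      rcases eq_one_or_of_mem_torsion ht with rfl | rfl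
      · exact one_mem _
      · exact Subgroup.mem_sup_right ⟨-1, _root_.Units.ext (by simp)⟩
    have hin : ∀ (j : Fin 3), ![η₁, η₂, η₃] j ∈ Set.range u := fun j =>
      ⟨(finCongr hrank).symm j, by simp [u]⟩
    refine le_antisymm (sup_le ((Subgroup.closure_le _).2 ?_) htor) ?_
    · rintro _ ⟨i, rfl⟩
      exact hmem i
    · have hmono : ∀ j : Fin 3, Subgroup.closure {![η₁, η₂, η₃] j} ⊔ Units.torsion L ≤
          Subgroup.closure (Set.range u) ⊔ Units.torsion L := fun j =>
        sup_le_sup_right (Subgroup.closure_mono (Set.singleton_subset_iff.2 (hin j))) _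
      exact sup_le (sup_le (hle₁.trans (hmono 0)) (hle₂.trans (hmono 1))) (hle₃.trans (hmono 2))
  have h := Units.regOfFamily_div_regulator u
  rw [hU, hreg] at h
  have hR := Units.regulator_pos L
  refine ⟨fun h0 => ?_, ?_⟩
  · rw [h0, Nat.cast_zero, div_eq_zero_iff] at h
    rcases h with h | h
    · exact hpos (by simpa using h)
    · exact hR.ne' h
  · rw [div_eq_iff hR.ne'] at h
    rw [← hx, ← hy, ← hz, ← h, abs_mul, abs_mul, abs_mul, abs_of_pos (by norm_num : (0 : ℝ) < 4)]

end real

section complex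

variable [IsTotallyComplex L]

/-- A quadratic subfield not fixed by complex conjugation is imaginary. -/
theorem imaginary_fixedField {u c : L ≃ₐ[ℚ] L} (hu : u ≠ 1) (hcu : c ≠ u)
    (φ : L →+* ℂ) (hc : ∀ x, φ (c x) = (starRingEnd ℂ) (φ x)) :
    Units.regulator (IntermediateField.fixedField (Subgroup.zpowers u)) = 1 := by
  set M := IntermediateField.fixedField (Subgroup.zpowers u)
  haveI : IsMulCommutative (L ≃ₐ[ℚ] L) := IsKleinFour.isMulCommutative
  have hc1 : c ≠ 1 := fun h => IsTotallyComplex.complexEmbedding_not_isReal φ (by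
    rw [ComplexEmbedding.isReal_iff]
    refine RingHom.ext fun x => ?_
    rw [ComplexEmbedding.conjugate_coe_eq, ← hc, h]
    rfl)
  have hnot : ∀ v : InfinitePlace M, ¬ IsReal v := fun v hv => by
    obtain ⟨W, rfl⟩ := v.comap_surjective (K := L)
    obtain ⟨τ, hτ⟩ := FA.ArtinL.exists_aut ℚ L φ W.embedding (RingHom.ext fun q => by simp)
    have hfix : c ∈ M.fixingSubgroup := by
      rw [IntermediateField.mem_fixingSubgroup_iff]
      intro x hx
      have hr : (starRingEnd ℂ) (W.embedding (algebraMap M L ⟨x, hx⟩)) =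
          W.embedding (algebraMap M L ⟨x, hx⟩) := by
        simp only at hv
        rw [← mk_embedding W, comap_mk, isReal_mk_iff, ComplexEmbedding.isReal_iff] at hv
        exact RingHom.congr_fun hv ⟨x, hx⟩
      change (starRingEnd ℂ) (W.embedding x) = W.embedding x at hr
      rw [hτ, ← hc] at hr
      have h := φ.injective hr
      rw [← AlgEquiv.mul_apply, mul_comm' c τ, AlgEquiv.mul_apply] at h
      exact τ.injective h
    rw [IntermediateField.fixingSubgroup_fixedField, mem_zpowers_klein] at hfix
    exact hfix.elim hc1 hcu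
  haveI : IsTotallyComplex M := ⟨fun v => not_isReal_iff_isComplex.1 (hnot v)⟩
  have h2 : finrank ℚ M = 2 := finrank_fixedField_klein hu
  have hcard : Fintype.card (InfinitePlace M) = 1 := by
    have := InfinitePlace.card_add_two_mul_card_eq_rank M
    rw [IsTotallyComplex.nrRealPlaces_eq_zero, h2] at this
    rw [card_eq_nrRealPlaces_add_nrComplexPlaces, IsTotallyComplex.nrRealPlaces_eq_zero]
    omega
  haveI : Subsingleton (InfinitePlace M) := Fintype.card_le_one_iff_subsingleton.1 hcard.le
  have hempty : IsEmpty {w : InfinitePlace M // w ≠ Units.dirichletUnitTheorem.w₀} :=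
    ⟨fun w => w.2 (Subsingleton.elim _ _)⟩
  have hdet : ∀ {α : Type _} {_ : DecidableEq α} {_ : Fintype α}, IsEmpty α →
      ∀ A : Matrix α α ℝ, |A.det| = 1 := fun {α _ _} h A => by
    rw [Matrix.det_isEmpty, abs_one]
  rw [Units.regulator_eq_det']
  exact hdet hempty _

/-- The fixed field of complex conjugation is the maximal real subfield. -/
theorem hRwd_real_subfield [IsCMField L] {c : L ≃ₐ[ℚ] L} (φ : L →+* ℂ)
    (hc : ∀ x, φ (c x) = (starRingEnd ℂ) (φ x)) :
    (classNumber (IntermediateField.fixedField (Subgroup.zpowers c)) : ℝ) *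
        Units.regulator (IntermediateField.fixedField (Subgroup.zpowers c)) /
        Units.torsionOrder (IntermediateField.fixedField (Subgroup.zpowers c)) =
      classNumber (maximalRealSubfield L) * Units.regulator (maximalRealSubfield L) / 2 := by
  set M := IntermediateField.fixedField (Subgroup.zpowers c)
  have hsub : M.toSubfield = maximalRealSubfield L := Subfield.ext fun x => by
    have hiff : c x = x ↔ x ∈ maximalRealSubfield L := by
      have hcc : IsCMField.complexConj L x = c x := φ.injective (by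
        rw [IsCMField.complexEmbedding_complexConj, hc])
      rw [← hcc]
      exact IsCMField.complexConj_eq_self_iff L x
    rw [← hiff]
    refine ⟨fun h => h ⟨c, Subgroup.mem_zpowers c⟩, fun h g => ?_⟩
    obtain ⟨g, hg⟩ := g
    rcases mem_zpowers_klein.1 hg with rfl | rfl
    · rfl
    · exact h
  have e : M ≃+* maximalRealSubfield L := RingEquiv.subfieldCongr hsub
  have hq := FA.Summary.hRwd_congr M (maximalRealSubfield L)
    fun s _ => FA.AbelianZeta.dedekindZeta_congr e s
  have hd : discr M = discr (maximalRealSubfield L) :=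
    discr_eq_discr_of_algEquiv _ (AlgEquiv.ofRingEquiv (f := e) fun q => by simp)
  obtain ⟨-, -, -, hw⟩ := FA.Summary.perlis_invariants M (maximalRealSubfield L)
    fun s _ => FA.AbelianZeta.dedekindZeta_congr e s
  rw [hw, torsionOrder_eq_two]
  simp only [hRwd, hd, hw, torsionOrder_eq_two] at hq
  have hs : Real.sqrt |(discr (maximalRealSubfield L) : ℝ)| ≠ 0 :=
    Real.sqrt_ne_zero'.2 (abs_pos.2 (Int.cast_ne_zero.2 (discr_ne_zero _)))
  field_simp at hq ⊢
  push_cast
  linarith [hq]

theorem rank_eq_one : Units.rank L = 1 := by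
  have h := InfinitePlace.card_add_two_mul_card_eq_rank L
  rw [IsTotallyComplex.nrRealPlaces_eq_zero, finrank_eq_four] at h
  rw [Units.rank, card_eq_nrRealPlaces_add_nrComplexPlaces, IsTotallyComplex.nrRealPlaces_eq_zero]
  omega

end complex

end FA.ArtinL.BiquadraticUnits

end
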