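import Fermat.Agent.ArtinL.Invariants
import Fermat.Agent.ArtinL.Brauer

/-!
# Brauer relations

An integral relation `∑ mᵢ Ind_{Hᵢ} 1 = 0` between permutation characters of `Gal(L/K)` gives a
multiplicative relation between the zeta functions of the fixed fields, and between their numbers of
places and their class numbers and regulators.
-/

set_option autoImplicit false
set_option linter.style.haveILetI false
set_option linter.unusedSectionVars false

noncomputable section

open NumberField Module Finset Filter Topology FA.CharacterTheory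
open scoped Classical

namespace FA.ArtinL

section group

variable {G : Type*} [Group G] [Fintype G]

/-- The total of a permutation character. -/
theorem sum_induced_one (H : Subgroup G) :
    ∑ x, induced H (fun _ => (1 : ℂ)) x = (Nat.card G : ℂ) := by
  simp only [induced, ← mul_sum, dite_eq_ite]
  rw [sum_comm, sum_congr rfl fun g _ => ?_, sum_const, card_univ,
    ← Nat.card_eq_fintype_card, nsmul_eq_mul, mul_comm, mul_assoc,
    mul_inv_cancel₀ (Nat.cast_ne_zero.2 Nat.card_pos.ne'), mul_one]
  rw [Fintype.sum_equiv (MulAut.conj g).toEquiv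
    (fun x => if g * x * g⁻¹ ∈ H then (1 : ℂ) else 0)
    (fun y => if y ∈ H then (1 : ℂ) else 0) fun x => rfl, sum_boole, Nat.card_eq_fintype_card,
    Fintype.card_subtype]

/-- Pairing a class function with a permutation character. -/
theorem sum_mul_induced_one {N : G → ℂ} (hN : ∀ g x, N (g * x * g⁻¹) = N x) (H : Subgroup G) :
    ∑ x, N x * induced H (fun _ => (1 : ℂ)) x =
      (Nat.card H : ℂ)⁻¹ * (Nat.card G * ∑ h : H, N h) := by
  simp only [induced, dite_eq_ite, mul_sum, mul_ite, mul_one, mul_zero]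
  rw [sum_comm]
  have hg : ∀ g : G, ∑ x, (if g * x * g⁻¹ ∈ H then N x * (Nat.card H : ℂ)⁻¹ else 0) =
      ∑ h : H, (Nat.card H : ℂ)⁻¹ * N h := fun g => by
    calc ∑ x, (if g * x * g⁻¹ ∈ H then N x * (Nat.card H : ℂ)⁻¹ else 0)
        = ∑ y, if y ∈ H then N y * (Nat.card H : ℂ)⁻¹ else 0 :=
          Fintype.sum_equiv (MulAut.conj g).toEquiv _ _ fun x => by simp [hN]
      _ = ∑ h : H, N h * (Nat.card H : ℂ)⁻¹ := by
          rw [← sum_filter]
          exact sum_subtype _ (fun y => by simp) _
      _ = ∑ h : H, (Nat.card H : ℂ)⁻¹ * N h := sum_congr rfl fun h _ => mul_comm _ _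
  rw [sum_congr rfl fun g _ => hg g, sum_const, card_univ, ← Nat.card_eq_fintype_card,
    nsmul_eq_mul, mul_sum]
  exact sum_congr rfl fun h _ => by ring

/-- A product of powers of one number. -/
theorem prod_zpow_eq {α ι : Type*} [CommGroupWithZero α] (s : Finset ι) {a : α} (ha : a ≠ 0)
    (e : ι → ℤ) : ∏ i ∈ s, a ^ e i = a ^ ∑ i ∈ s, e i := by
  induction s using Finset.induction_on with
  | empty => simp
  | insert i t hi ih => rw [prod_insert hi, sum_insert hi, zpow_add₀ ha, ih]

end group

section embeddings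

variable (F L : Type*) [Field F] [NumberField F] [Field L] [NumberField L] [Algebra F L]

/-- The embeddings over one embedding of the subfield. -/
theorem card_fibre (φ : F →+* ℂ) :
    Nat.card {j : L →+* ℂ // j.comp (algebraMap F L) = φ} = finrank F L := by
  letI : Algebra F ℂ := φ.toAlgebra
  rw [← AlgHom.card F L ℂ, ← Nat.card_eq_fintype_card]
  exact Nat.card_congr
    { toFun := fun j => { j.1 with commutes' := fun r => RingHom.congr_fun j.2 r }
      invFun := fun a => ⟨a.toRingHom, RingHom.ext a.commutes⟩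
      left_inv := fun j => rfl
      right_inv := fun a => rfl }

theorem card_filter_restrict (P : (F →+* ℂ) → Prop) :
    Nat.card {j : L →+* ℂ // P (j.comp (algebraMap F L))} =
      Nat.card {φ : F →+* ℂ // P φ} * finrank F L := by
  rw [Nat.card_congr
    { toFun := fun j : {j : L →+* ℂ // P (j.comp (algebraMap F L))} =>
        (⟨⟨j.1.comp (algebraMap F L), j.2⟩, ⟨j.1, rfl⟩⟩ :
          Σ φ : {φ : F →+* ℂ // P φ}, {j : L →+* ℂ // j.comp (algebraMap F L) = φ.1})
      invFun := fun p => ⟨p.2.1, p.2.2.symm ▸ p.1.2⟩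
      left_inv := fun j => rfl
      right_inv := by
        rintro ⟨⟨φ, hφ⟩, j, hj⟩
        obtain rfl : j.comp (algebraMap F L) = φ := hj
        rfl }, Nat.card_sigma, Finset.sum_congr rfl fun φ _ => card_fibre F L φ.1, sum_const,
    card_univ, smul_eq_mul, Nat.card_eq_fintype_card]

/-- Two embeddings of a Galois extension that agree below differ by an automorphism. -/
theorem exists_aut [IsGalois F L] (j j' : L →+* ℂ)
    (h : j'.comp (algebraMap F L) = j.comp (algebraMap F L)) :
    ∃ c : L ≃ₐ[F] L, ∀ y, j' y = j (c y) := by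
  letI : Algebra F ℂ := (j.comp (algebraMap F L)).toAlgebra
  let J : L →ₐ[F] ℂ := { j with commutes' := fun r => rfl }
  let J' : L →ₐ[F] ℂ := { j' with commutes' := fun r => RingHom.congr_fun h r }
  have hbij : Function.Bijective fun c : L ≃ₐ[F] L => J.comp (c : L →ₐ[F] L) := by
    rw [Fintype.bijective_iff_injective_and_card, AlgHom.card, ← Nat.card_eq_fintype_card,
      IsGalois.card_aut_eq_finrank]
    exact ⟨fun a b hab => AlgEquiv.ext fun y => j.injective (DFunLike.congr_fun hab y), rfl⟩
  obtain ⟨c, hc⟩ := hbij.surjective J'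
  exact ⟨c, fun y => (DFunLike.congr_fun hc y).symm⟩

end embeddings

variable {K L : Type*} [Field K] [NumberField K] [Field L] [NumberField L] [Algebra K L]
  [IsGalois K L]

/-- The embeddings of `L` on which complex conjugation is `c`. -/
def conjCount (c : L ≃ₐ[K] L) : ℕ :=
  Nat.card {j : L →+* ℂ // ∀ y, (starRingEnd ℂ) (j y) = j (c y)}

theorem conjCount_conj (g x : L ≃ₐ[K] L) : conjCount (g * x * g⁻¹) = conjCount x := by
  refine Nat.card_congr ((Equiv.mk (fun j : L →+* ℂ => j.comp (g : L →+* L))
    (fun j => j.comp (g.symm : L →+* L)) (fun j => RingHom.ext fun y => by simp)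
    fun j => RingHom.ext fun y => by simp).subtypeEquiv fun j => ?_)
  constructor
  · intro h y
    simpa [AlgEquiv.mul_apply, AlgEquiv.aut_inv] using h (g y)
  · intro h y
    simpa [AlgEquiv.mul_apply, AlgEquiv.aut_inv] using h (g.symm y)

theorem finrank_fixedField (H : Subgroup (L ≃ₐ[K] L)) :
    (finrank ℚ (IntermediateField.fixedField H) : ℂ) =
      finrank ℚ K * induced H (fun _ => (1 : ℂ)) 1 := by
  have h1 := IntermediateField.finrank_fixedField_eq_card H
  have h2 := Module.finrank_mul_finrank ℚ (IntermediateField.fixedField H) L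
  have h3 := Module.finrank_mul_finrank ℚ K L
  rw [h1, ← h3, ← IsGalois.card_aut_eq_finrank K L] at h2
  rw [induced_one_one]
  have hne : (Nat.card H : ℂ) ≠ 0 := Nat.cast_ne_zero.2 Nat.card_pos.ne'
  field_simp
  exact_mod_cast h2

/-- **The real places of a fixed field.** -/
theorem nrRealPlaces_fixedField (H : Subgroup (L ≃ₐ[K] L)) :
    (Nat.card (L ≃ₐ[K] L) : ℂ) * InfinitePlace.nrRealPlaces (IntermediateField.fixedField H) =
      ∑ c, (conjCount c : ℂ) * induced H (fun _ => (1 : ℂ)) c := by
  set F := IntermediateField.fixedField H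
  rw [sum_mul_induced_one (fun g x => by rw [conjCount_conj]), mul_left_comm]
  congr 1
  have h := card_filter_restrict F L ComplexEmbedding.IsReal
  rw [Nat.card_eq_fintype_card (α := {φ : F →+* ℂ // ComplexEmbedding.IsReal φ}),
    InfinitePlace.card_real_embeddings, IntermediateField.finrank_fixedField_eq_card] at h
  have h2 : Nat.card {j : L →+* ℂ // ComplexEmbedding.IsReal (j.comp (algebraMap F L))} =
      ∑ c : H, conjCount (c : L ≃ₐ[K] L) := by
    simp only [conjCount]
    rw [← Nat.card_sigma]
    have hmem : ∀ p : (c : H) × {j : L →+* ℂ // ∀ y, (starRingEnd ℂ) (j y) =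
        j ((c : L ≃ₐ[K] L) y)}, ComplexEmbedding.IsReal (p.2.1.comp (algebraMap F L)) :=
      fun p => by
      rw [ComplexEmbedding.isReal_iff]
      exact RingHom.ext fun x => (p.2.2 _).trans (congrArg p.2.1 (x.2 p.1))
    refine (Nat.card_eq_of_bijective (fun p => ⟨p.2.1, hmem p⟩) ⟨?_, ?_⟩).symm
    · rintro ⟨c, j, hc⟩ ⟨c', j', hc'⟩ he
      obtain rfl : j = j' := congrArg Subtype.val he
      obtain rfl : c = c' := Subtype.ext (AlgEquiv.ext fun y =>
        j.injective ((hc y).symm.trans (hc' y)))
      rfl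
    · rintro ⟨j, hj⟩
      rw [ComplexEmbedding.isReal_iff] at hj
      obtain ⟨c, hc⟩ := exists_aut F L j ((starRingEnd ℂ).comp j)
        (RingHom.ext fun x => RingHom.congr_fun hj x)
      exact ⟨⟨fixedEquiv H c, ⟨j, hc⟩⟩, rfl⟩
  rw [h2] at h
  have hne : (Nat.card H : ℂ) ≠ 0 := Nat.cast_ne_zero.2 Nat.card_pos.ne'
  rw [eq_inv_mul_iff_mul_eq₀ hne, ← Nat.cast_sum, h, Nat.cast_mul, mul_comm]

variable {ι : Type*} [Fintype ι] (H : ι → Subgroup (L ≃ₐ[K] L)) (m : ι → ℤ)

/-- The L-series of a combination of permutation characters. -/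
theorem artinL_combination {s : ℂ} (hs : 1 < s.re) :
    artinL (∑ i, m i • induced (H i) fun _ => (1 : ℂ)) s =
      ∏ i, dedekindZeta (IntermediateField.fixedField (H i)) s ^ m i := by
  rw [artinL_sum hs]
  refine prod_congr rfl fun i _ => ?_
  rw [artinL_zsmul, ← inducedFn_fixedField (H i) fun _ => (1 : ℂ),
    artinL_induced hs fun _ _ => rfl, artinL_one hs]

/-- A relation between permutation characters. -/
def IsBrauerRelation : Prop :=
  ∀ g, ∑ i, (m i : ℂ) * induced (H i) (fun _ => (1 : ℂ)) g = 0

theorem combination_eq_zero_iff :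
    (∑ i, m i • induced (H i) fun _ => (1 : ℂ)) = 0 ↔ IsBrauerRelation H m := by
  simp [funext_iff, IsBrauerRelation, Finset.sum_apply, zsmul_eq_mul]

variable {H m} (h : IsBrauerRelation H m)

include h in
/-- **The zeta functions satisfy the relation.** -/
theorem prod_dedekindZeta_eq_one {s : ℂ} (hs : 1 < s.re) :
    ∏ i, dedekindZeta (IntermediateField.fixedField (H i)) s ^ m i = 1 := by
  rw [← artinL_combination H m hs, (combination_eq_zero_iff H m).2 h, artinL_zero]

include h in
theorem sum_eq_zero_of_relation : ∑ i, m i = 0 := by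
  have h1 : ∑ g, ∑ i, (m i : ℂ) * induced (H i) (fun _ => (1 : ℂ)) g = 0 :=
    Finset.sum_eq_zero fun g _ => h g
  rw [sum_comm] at h1
  simp only [← mul_sum, sum_induced_one, ← sum_mul] at h1
  rcases mul_eq_zero.1 h1 with h2 | h2
  · exact_mod_cast h2
  · exact absurd (Nat.cast_eq_zero.1 h2) Nat.card_pos.ne'

include h in
theorem sum_finrank_eq_zero :
    ∑ i, m i * (finrank ℚ (IntermediateField.fixedField (H i)) : ℤ) = 0 := by
  have h1 : ((∑ i, m i * (finrank ℚ (IntermediateField.fixedField (H i)) : ℤ) : ℤ) : ℂ) = 0 := by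
    push_cast
    simp only [finrank_fixedField]
    rw [Finset.sum_congr rfl fun i _ => mul_left_comm _ _ _, ← mul_sum, h 1, mul_zero]
  exact_mod_cast h1

include h in
/-- **The real places satisfy the relation.** -/
theorem sum_nrRealPlaces_eq_zero :
    ∑ i, m i * (InfinitePlace.nrRealPlaces (IntermediateField.fixedField (H i)) : ℤ) = 0 := by
  have h1 : ((∑ i, m i * (InfinitePlace.nrRealPlaces (IntermediateField.fixedField (H i)) : ℤ) :
      ℤ) : ℂ) = 0 := by
    push_cast
    refine (mul_right_inj' (Nat.cast_ne_zero.2 (Nat.card_pos (α := L ≃ₐ[K] L)).ne')).1 ?_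
    rw [mul_zero, mul_sum, Finset.sum_congr rfl fun i _ => mul_left_comm _ _ _]
    simp only [nrRealPlaces_fixedField, mul_sum]
    rw [sum_comm]
    refine Finset.sum_eq_zero fun c _ => ?_
    rw [Finset.sum_congr rfl fun i _ => mul_left_comm _ _ _, ← mul_sum, h c, mul_zero]
  exact_mod_cast h1

include h in
theorem sum_nrComplexPlaces_eq_zero :
    ∑ i, m i * (InfinitePlace.nrComplexPlaces (IntermediateField.fixedField (H i)) : ℤ) = 0 := by
  have h1 := sum_finrank_eq_zero h
  simp only [← InfinitePlace.card_add_two_mul_card_eq_rank, Nat.cast_add, Nat.cast_mul,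
    Nat.cast_ofNat, mul_add, sum_add_distrib] at h1
  rw [sum_nrRealPlaces_eq_zero h, zero_add,
    Finset.sum_congr rfl fun i _ => mul_left_comm _ _ _, ← mul_sum] at h1
  omega

/-- `h R / (w √|d|)`. -/
def hRwd (F : Type*) [Field F] [NumberField F] : ℝ :=
  classNumber F * Units.regulator F / (Units.torsionOrder F * Real.sqrt |(discr F : ℝ)|)

include h in
/-- **Brauer's class number relation.** -/
theorem prod_hRwd_eq_one :
    ∏ i, hRwd (IntermediateField.fixedField (H i)) ^ m i = 1 := by
  have hlim : Tendsto (fun s : ℝ => ∏ i,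
      (((s : ℂ) - 1) * dedekindZeta (IntermediateField.fixedField (H i)) s) ^ m i) (𝓝[>] 1)
      (𝓝 (∏ i, (dedekindZeta_residue (IntermediateField.fixedField (H i)) : ℂ) ^ m i)) :=
    tendsto_finsetProd _ fun i _ => (tendsto_sub_one_mul_dedekindZeta_nhdsGT _).zpow₀ (m i)
      (Or.inl (Complex.ofReal_ne_zero.2 (dedekindZeta_residue_ne_zero _)))
  have hone : ∏ i, (dedekindZeta_residue (IntermediateField.fixedField (H i)) : ℂ) ^ m i = 1 := by
    refine tendsto_nhds_unique hlim (tendsto_const_nhds.congr' ?_)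
    filter_upwards [self_mem_nhdsWithin] with s hs
    have hne : (s : ℂ) - 1 ≠ 0 := sub_ne_zero.2 (by exact_mod_cast (Set.mem_Ioi.1 hs).ne')
    simp only [mul_zpow, prod_mul_distrib]
    rw [prod_dedekindZeta_eq_one h (by simpa using hs), mul_one, prod_zpow_eq _ hne,
      sum_eq_zero_of_relation h, zpow_zero]
  have hreal : ∏ i, dedekindZeta_residue (IntermediateField.fixedField (H i)) ^ m i = 1 :=
    Complex.ofReal_injective (by push_cast; exact hone)
  rw [← hreal]
  have hpi : (2 * Real.pi) ≠ 0 := by positivity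
  have hsplit : ∀ i, dedekindZeta_residue (IntermediateField.fixedField (H i)) ^ m i =
      (2 : ℝ) ^ (m i * (InfinitePlace.nrRealPlaces (IntermediateField.fixedField (H i)) : ℤ)) *
        (2 * Real.pi) ^
          (m i * (InfinitePlace.nrComplexPlaces (IntermediateField.fixedField (H i)) : ℤ)) *
        hRwd (IntermediateField.fixedField (H i)) ^ m i := fun i => by
    rw [mul_comm (m i), zpow_mul, zpow_natCast, mul_comm (m i), zpow_mul, zpow_natCast,
      ← mul_zpow, ← mul_zpow, dedekindZeta_residue_def, hRwd]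
    ring
  simp only [hsplit, prod_mul_distrib]
  rw [prod_zpow_eq _ (two_ne_zero : (2 : ℝ) ≠ 0), prod_zpow_eq _ hpi, sum_nrRealPlaces_eq_zero h,
    sum_nrComplexPlaces_eq_zero h]
  simp

end FA.ArtinL

end
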