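import Fermat.Agent.ArtinL.Brauer
import Fermat.Agent.Root.SummaryChebotarevNumberField
import Mathlib.NumberTheory.LSeries.Injectivity

/-!
# Artin L-series over `ℚ` determine the class function

Over `ℚ` the pairs of a prime and an exponent are told apart by the prime powers, so the logarithm
is a Dirichlet series whose coefficients the L-series determines, and by Chebotarev every element is
a Frobenius at a prime with trivial inertia. Hence equal zeta functions are Gassmann equivalence
(Perlis).
-/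

set_option autoImplicit false
set_option linter.style.haveILetI false
set_option linter.unusedSectionVars false

noncomputable section

open NumberField IsDedekindDomain Module Finset Filter Topology FA.CharacterTheory

namespace FA.ArtinL

section gen

variable {K L : Type*} [Field K] [NumberField K] [Field L] [NumberField L] [Algebra K L]
  [IsGalois K L]

/-- The coefficient at a prime with trivial inertia is the value at Frobenius. -/
theorem coef_one_eq {f : (L ≃ₐ[K] L) → ℂ} (hf : ∀ g x, f (g * x * g⁻¹) = f x)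
    {v : HeightOneSpectrum (𝓞 K)} {Q : Ideal (𝓞 L)} [Q.IsMaximal]
    (hQ : Q.under (𝓞 K) = v.asIdeal) (hI : Q.inertia (L ≃ₐ[K] L) = ⊥) {σ : L ≃ₐ[K] L}
    (hσ : IsArithFrobAt (𝓞 K) σ Q) : coef f v 1 = f σ := by
  classical
  have h1 : IsFrobPow K Q 1 σ := fun x => by
    rw [pow_one]
    exact hσ x
  have hfil : univ.filter (fun τ => IsFrobPow K Q 1 τ) = {σ} := by
    ext τ
    rw [mem_filter, mem_singleton, ← mul_inv_mem_inertia_iff K h1, hI, Subgroup.mem_bot,
      mul_inv_eq_one]
    simp
  rw [coef_eq hf hQ, localMean, hfil, sum_singleton, hI, Subgroup.card_bot, Nat.cast_one, inv_one,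
    one_mul]

/-- **Every value is a coefficient.** -/
theorem exists_coef_eq {f : (L ≃ₐ[K] L) → ℂ} (hf : ∀ g x, f (g * x * g⁻¹) = f x)
    (σ : L ≃ₐ[K] L) : ∃ v : HeightOneSpectrum (𝓞 K), coef f v 1 = f σ := by
  obtain ⟨v, Q, hQ, hQv, hI, hσ⟩ := (FA.Chebotarev.infinite_frobenius (K := K) σ).nonempty
  haveI := hQ
  exact ⟨v, coef_one_eq hf hQv hI hσ⟩

end gen

variable {L : Type*} [Field L] [NumberField L] [IsGalois ℚ L]

/-- The prime power of a pair. -/
def primePower (p : HeightOneSpectrum (𝓞 ℚ) × ℕ) : ℕ := Ideal.absNorm p.1.asIdeal ^ (p.2 + 1)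

theorem primePower_injective : Function.Injective primePower := by
  rintro ⟨v, i⟩ ⟨w, j⟩ h
  obtain ⟨he, hij⟩ := Nat.Prime.pow_inj'
    (FA.Chebotarev.absNorm_prime v) (FA.Chebotarev.absNorm_prime w) (Nat.succ_ne_zero i)
    (Nat.succ_ne_zero j) (h : Ideal.absNorm v.asIdeal ^ (i + 1) = Ideal.absNorm w.asIdeal ^ (j + 1))
  obtain rfl : i = j := by omega
  have h1 : (Ideal.absNorm (Ideal.span {((Ideal.absNorm v.asIdeal : ℕ) : 𝓞 ℚ)})) =
      Ideal.absNorm v.asIdeal := by
    rw [Ideal.absNorm_span_singleton, show ((Ideal.absNorm v.asIdeal : ℕ) : 𝓞 ℚ) =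
      algebraMap ℤ (𝓞 ℚ) (Ideal.absNorm v.asIdeal : ℕ) by simp, Algebra.norm_algebraMap]
    simp [RingOfIntegers.rank]
  have hmax : (Ideal.span {((Ideal.absNorm v.asIdeal : ℕ) : 𝓞 ℚ)}).IsMaximal :=
    (Ideal.isPrime_of_irreducible_absNorm (by
      rw [h1]; exact FA.Chebotarev.absNorm_prime v)).isMaximal fun hbot => by
      rw [hbot, Ideal.absNorm_bot] at h1
      exact (FA.Chebotarev.absNorm_prime v).ne_zero h1.symm
  have hv := hmax.eq_of_le v.isPrime.ne_top
    ((Ideal.span_singleton_le_iff_mem _).2 (Ideal.absNorm_mem v.asIdeal))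
  have hw := hmax.eq_of_le w.isPrime.ne_top
    ((Ideal.span_singleton_le_iff_mem _).2 (by rw [he]; exact Ideal.absNorm_mem w.asIdeal))
  exact Prod.ext (HeightOneSpectrum.ext (hv.symm.trans hw)) rfl

/-- The coefficients of the logarithm as a Dirichlet series. -/
def logCoeff (f : (L ≃ₐ[ℚ] L) → ℂ) : ℕ → ℂ :=
  Function.extend primePower (fun p => coef f p.1 (p.2 + 1) / (p.2 + 1)) 0

theorem term_logCoeff (f : (L ≃ₐ[ℚ] L) → ℂ) (s : ℂ) (p : HeightOneSpectrum (𝓞 ℚ) × ℕ) :
    LSeries.term (logCoeff f) s (primePower p) = term f s p := by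
  have hne : primePower p ≠ 0 :=
    pow_ne_zero _ (FA.Chebotarev.absNorm_prime p.1).ne_zero
  rw [LSeries.term_of_ne_zero hne, logCoeff, primePower_injective.extend_apply, term, primePower,
    Nat.cast_pow, ← Complex.cpow_nat_mul, Complex.natCast_cpow_natCast_mul, Complex.cpow_neg,
    div_eq_mul_inv, div_eq_mul_inv, div_eq_mul_inv]
  ring

theorem term_logCoeff_of_notMem (f : (L ≃ₐ[ℚ] L) → ℂ) (s : ℂ) {n : ℕ}
    (hn : n ∉ Set.range primePower) : LSeries.term (logCoeff f) s n = 0 := by
  rcases eq_or_ne n 0 with rfl | h0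
  · exact LSeries.term_zero _ _
  rw [LSeries.term_of_ne_zero h0, logCoeff, Function.extend_apply' _ _ _ hn, Pi.zero_apply,
    zero_div]

theorem LSeries_logCoeff (f : (L ≃ₐ[ℚ] L) → ℂ) (s : ℂ) :
    LSeries (logCoeff f) s = artinLog f s := by
  rw [LSeries, ← primePower_injective.tsum_eq (f := fun n => LSeries.term (logCoeff f) s n)
    (Function.support_subset_iff'.2 fun n hn => term_logCoeff_of_notMem f s hn), artinLog]
  exact tsum_congr fun p => term_logCoeff f s p

theorem summable_logCoeff (f : (L ≃ₐ[ℚ] L) → ℂ) {s : ℂ} (hs : 1 < s.re) :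
    LSeriesSummable (logCoeff f) s := by
  rw [LSeriesSummable, ← primePower_injective.summable_iff
    fun n hn => term_logCoeff_of_notMem f s hn]
  exact (summable_term hs f).congr fun p => (term_logCoeff f s p).symm

/-- **Only the zero class function has L-series `1`.** -/
theorem eq_zero_of_artinL_eq_one {f : (L ≃ₐ[ℚ] L) → ℂ} (hf : ∀ g x, f (g * x * g⁻¹) = f x)
    (h : ∀ x : ℝ, 1 < x → artinL f x = 1) : f = 0 := by
  have hab : LSeries.abscissaOfAbsConv (logCoeff f) < ⊤ :=
    lt_of_le_of_lt (summable_logCoeff f (s := 2) (by norm_num)).abscissaOfAbsConv_le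
      (EReal.coe_lt_top _)
  have h1 : logCoeff f 1 = 0 := by
    refine Function.extend_apply' _ _ _ ?_
    rintro ⟨⟨v, i⟩, hp⟩
    exact (Nat.one_lt_pow (Nat.succ_ne_zero i) (FA.Chebotarev.absNorm_prime v).one_lt).ne'
      hp
  have hlim : Tendsto (fun x : ℝ => LSeries (logCoeff f) x) atTop (𝓝 0) :=
    h1 ▸ LSeries.tendsto_atTop hab
  have hev : (fun x : ℝ => LSeries (logCoeff f) x) =ᶠ[atTop] 0 := by
    filter_upwards [eventually_gt_atTop (1 : ℝ),
      (Metric.tendsto_nhds.1 hlim) 1 one_pos] with x hx hd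
    rw [dist_zero_right, LSeries_logCoeff] at hd
    rw [Pi.zero_apply, LSeries_logCoeff]
    obtain ⟨k, hk⟩ := Complex.exp_eq_one_iff.1 (h x hx)
    rw [hk, norm_mul, norm_mul, norm_mul, Complex.norm_intCast, Complex.norm_I, mul_one,
      Complex.norm_real, Real.norm_eq_abs, abs_of_pos Real.pi_pos,
      show ‖(2 : ℂ)‖ = 2 by simp] at hd
    have hk0 : k = 0 := by
      by_contra hne
      have h3 : (1 : ℝ) ≤ |(k : ℝ)| := by exact_mod_cast Int.one_le_abs hne
      have h4 : (1 : ℝ) ≤ 2 * Real.pi := by linarith [Real.pi_gt_three]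
      exact absurd hd (not_lt.2 (one_le_mul_of_one_le_of_one_le h3 h4))
    rw [hk, hk0]
    simp
  have hzero : ∀ n, n ≠ 0 → logCoeff f n = 0 := by
    rcases LSeries_eventually_eq_zero_iff'.1 hev with h2 | h2
    · exact h2
    · exact absurd h2 hab.ne
  funext σ
  obtain ⟨v, hv⟩ := exists_coef_eq hf σ
  have h3 := hzero (primePower (v, 0))
    (pow_ne_zero _ (FA.Chebotarev.absNorm_prime v).ne_zero)
  rw [logCoeff, primePower_injective.extend_apply] at h3
  simp only [Nat.cast_zero, zero_add, div_one] at h3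
  rw [Pi.zero_apply, ← hv, h3]

/-- **The L-series determines the class function.** -/
theorem eq_of_artinL_eq {f g : (L ≃ₐ[ℚ] L) → ℂ} (hf : ∀ a x, f (a * x * a⁻¹) = f x)
    (hg : ∀ a x, g (a * x * a⁻¹) = g x) (h : ∀ x : ℝ, 1 < x → artinL f x = artinL g x) :
    f = g := by
  refine sub_eq_zero.1 (eq_zero_of_artinL_eq_one (fun a x => by simp [hf, hg]) fun x hx => ?_)
  rw [sub_eq_add_neg, ← neg_one_zsmul g, artinL_add (by simpa using hx), artinL_zsmul, h x hx,
    zpow_neg_one, mul_inv_cancel₀ (artinL_ne_zero g _)]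

section perlis

open scoped Classical in
/-- The function induced from `1` and the classes. -/
theorem induced_one_eq {G : Type*} [Group G] [Fintype G] (H : Subgroup G) (x : G) :
    induced H (fun _ => (1 : ℂ)) x = (Nat.card H : ℂ)⁻¹ *
      (Nat.card {h : H // IsConj x (h : G)} * Nat.card (Subgroup.centralizer ({x} : Set G))) := by
  rw [induced]
  congr 1
  set F := fun y => #(univ.filter fun g : G => g * x * g⁻¹ = y)
  have hF : ∀ y, F y =
      if IsConj x y then Nat.card (Subgroup.centralizer ({x} : Set G)) else 0 := fun y => by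
    split_ifs with hc
    · obtain ⟨c, rfl⟩ := isConj_iff.1 hc
      simp only [F, ← Nat.card_eq_finsetCard]
      refine Nat.card_congr ((Equiv.mulLeft c⁻¹).subtypeEquiv fun g => ?_)
      simp only [mem_filter, mem_univ, true_and, Equiv.coe_mulLeft]
      rw [Subgroup.mem_centralizer_singleton_iff]
      constructor
      · intro h
        calc c⁻¹ * g * x = c⁻¹ * (g * x * g⁻¹) * g := by group
          _ = x * (c⁻¹ * g) := by rw [h]; group
      · intro h
        calc g * x * g⁻¹ = c * (c⁻¹ * g * x) * g⁻¹ := by group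
          _ = c * x * c⁻¹ := by rw [h]; group
    · exact card_eq_zero.2 (filter_eq_empty_iff.2 fun g _ hg => hc (isConj_iff.2 ⟨g, hg⟩))
  calc ∑ g : G, (if h : g * x * g⁻¹ ∈ H then (1 : ℂ) else 0) =
      ∑ g : G, ∑ h : H, if g * x * g⁻¹ = (h : G) then (1 : ℂ) else 0 :=
        sum_congr rfl fun g _ => by
          split_ifs with hm
          · rw [sum_eq_single ⟨_, hm⟩ (fun h _ hne => if_neg fun e => hne (Subtype.ext e.symm))
              (by simp), if_pos rfl]
          · exact (sum_eq_zero fun h _ => if_neg fun e => hm (by rw [e]; exact h.2)).symm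
    _ = ∑ h : H, (F h : ℂ) := by
        rw [sum_comm]
        exact sum_congr rfl fun h _ => sum_boole _ _
    _ = _ := by
        simp only [hF, Nat.cast_ite, Nat.cast_zero]
        rw [← sum_filter, sum_const, nsmul_eq_mul,
          Nat.card_eq_fintype_card (α := {h : H // IsConj x (h : G)}), Fintype.card_subtype]

theorem induced_one_one {G : Type*} [Group G] [Fintype G] (H : Subgroup G) :
    induced H (fun _ => (1 : ℂ)) 1 = (Nat.card H : ℂ)⁻¹ * Nat.card G := by
  classical
  rw [induced]
  congr 1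
  simp [H.one_mem, Nat.card_eq_fintype_card]

/-- A subgroup is cut up by the conjugacy classes. -/
theorem card_eq_sum_conj {G : Type*} [Group G] [Finite G] [Fintype (ConjClasses G)]
    (J : Subgroup G) :
    Nat.card J = ∑ c : ConjClasses G, Nat.card {x : J // IsConj c.out (x : G)} := by
  rw [← Nat.card_sigma]
  exact Nat.card_congr
    { toFun := fun x => ⟨ConjClasses.mk (x : G), x,
        ConjClasses.mk_eq_mk_iff_isConj.1 (Quotient.out_eq _)⟩
      invFun := fun a => a.2.1
      left_inv := fun x => rfl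
      right_inv := fun ⟨c, x, hx⟩ => by
        obtain rfl : ConjClasses.mk (x : G) = c :=
          (ConjClasses.mk_eq_mk_iff_isConj.2 hx.symm).trans (Quotient.out_eq c)
        rfl }

/-- The zeta function of a fixed field. -/
theorem dedekindZeta_fixedField (H : Subgroup (L ≃ₐ[ℚ] L)) {s : ℂ} (hs : 1 < s.re) :
    dedekindZeta (IntermediateField.fixedField H) s = artinL (induced H fun _ => (1 : ℂ)) s := by
  rw [← inducedFn_fixedField H fun _ => (1 : ℂ), artinL_induced hs fun _ _ => rfl, artinL_one hs]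

open scoped Classical in
/-- **Perlis' theorem.** -/
theorem perlis (H H' : Subgroup (L ≃ₐ[ℚ] L)) :
    (∀ s : ℂ, 1 < s.re → dedekindZeta (IntermediateField.fixedField H) s =
        dedekindZeta (IntermediateField.fixedField H') s) ↔
      ∀ g, Nat.card {h : H // IsConj g (h : L ≃ₐ[ℚ] L)} =
        Nat.card {h : H' // IsConj g (h : L ≃ₐ[ℚ] L)} := by
  constructor
  · intro h
    have he : induced H (fun _ => (1 : ℂ)) = induced H' fun _ => (1 : ℂ) := by
      refine eq_of_artinL_eq (fun a x => FA.BrauerInduction.induced_conj H _ a x)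
        (fun a x => FA.BrauerInduction.induced_conj H' _ a x) fun x hx => ?_
      rw [← dedekindZeta_fixedField H (by simpa using hx),
        ← dedekindZeta_fixedField H' (by simpa using hx)]
      exact h x (by simpa using hx)
    have hG : (Nat.card (L ≃ₐ[ℚ] L) : ℂ) ≠ 0 := Nat.cast_ne_zero.2 Nat.card_pos.ne'
    have hcard : (Nat.card H : ℂ)⁻¹ = (Nat.card H' : ℂ)⁻¹ := by
      have h1 := congrFun he 1
      rw [induced_one_one, induced_one_one] at h1
      exact mul_right_cancel₀ hG h1
    intro g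
    have h2 := congrFun he g
    rw [induced_one_eq, induced_one_eq, ← hcard] at h2
    exact_mod_cast mul_right_cancel₀ (Nat.cast_ne_zero.2 Nat.card_pos.ne' :
        (Nat.card (Subgroup.centralizer ({g} : Set (L ≃ₐ[ℚ] L))) : ℂ) ≠ 0)
      (mul_left_cancel₀ (inv_ne_zero (Nat.cast_ne_zero.2 Nat.card_pos.ne')) h2)
  · intro h s hs
    haveI : Fintype (ConjClasses (L ≃ₐ[ℚ] L)) := Fintype.ofFinite _
    have hcard : Nat.card H = Nat.card H' := by
      rw [card_eq_sum_conj H, card_eq_sum_conj H']
      exact sum_congr rfl fun c _ => h _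
    rw [dedekindZeta_fixedField H hs, dedekindZeta_fixedField H' hs]
    congr 1
    funext x
    rw [induced_one_eq, induced_one_eq, h x, hcard]

/-- Equal zeta functions give equal groups if one is normal. -/
theorem eq_of_gassmann_of_normal {G : Type*} [Group G] [Fintype G] {H H' : Subgroup G}
    (hn : H.Normal) (hcard : Nat.card H = Nat.card H')
    (h : ∀ g, Nat.card {x : H // IsConj g (x : G)} = Nat.card {x : H' // IsConj g (x : G)}) :
    H = H' := by
  refine (Subgroup.eq_of_le_of_card_ge (fun y hy => ?_) hcard.le).symm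
  have hpos : 0 < Nat.card {x : H // IsConj y (x : G)} := by
    rw [h y]
    haveI : Nonempty {x : H' // IsConj y (x : G)} := ⟨⟨⟨y, hy⟩, IsConj.refl y⟩⟩
    exact Nat.card_pos
  obtain ⟨⟨⟨x, hx⟩, hyx⟩⟩ := (Nat.card_pos_iff.1 hpos).1
  obtain ⟨c, hc⟩ := isConj_iff.1 hyx.symm
  rw [← hc]
  exact hn.conj_mem _ hx c

end perlis

end FA.ArtinL

end
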