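import Fermat.Agent.ArtinL.Inflation
import Fermat.Agent.ArtinL.Determination
import Fermat.Agent.AbelianZeta.Local
import Mathlib.NumberTheory.EulerProduct.DirichletLSeries

/-!
# The L-series of a character of a cyclotomic group

For `ψ` a character of `Gal(ℚ(ζ_n)/ℚ)` and `χ` the primitive Dirichlet character of the character
that it gives modulo `n`, the coefficient at `p` and `j` is `χ(p) ^ j`, also for `p ∣ n`, so the
Artin L-series is the L-series of `χ`.
-/

set_option autoImplicit false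
set_option linter.style.haveILetI false
set_option linter.unusedSectionVars false

noncomputable section

open NumberField IsDedekindDomain Module Finset DirichletCharacter
open scoped Classical

namespace FA.ArtinL

/-- The prime number below a prime of `ℚ`. -/
def ratPrime (v : HeightOneSpectrum (𝓞 ℚ)) : Nat.Primes :=
  ⟨Ideal.absNorm v.asIdeal, FA.Chebotarev.absNorm_prime v⟩

theorem ratPrime_bijective : Function.Bijective ratPrime := by
  refine ⟨fun v w h => ?_, fun p => ?_⟩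
  · have := primePower_injective (a₁ := (v, 0)) (a₂ := (w, 0)) (by
      simp only [primePower, zero_add, pow_one]
      exact congrArg Subtype.val h)
    exact congrArg Prod.fst this
  · have hnu : ¬ IsUnit ((p : ℕ) : 𝓞 ℚ) := fun h => by
      have h1 := Int.isUnit_iff.1 (by simpa using h.map Rat.ringOfIntegersEquiv)
      have := p.2.two_le
      rcases h1 with h1 | h1 <;> omega
    obtain ⟨I, hI, hle⟩ := Ideal.exists_le_maximal _
      (fun h => hnu (Ideal.span_singleton_eq_top.1 h))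
    set v : HeightOneSpectrum (𝓞 ℚ) :=
      ⟨I, hI.isPrime, Ring.ne_bot_of_isMaximal_of_not_isField hI (RingOfIntegers.not_isField ℚ)⟩
    have hdvd := FA.Chebotarev.absNorm_dvd_of_mem (v := v) (m := p)
      (hle (Ideal.subset_span rfl))
    rw [Module.finrank_self, pow_one] at hdvd
    exact ⟨v, Subtype.ext ((Nat.prime_dvd_prime_iff_eq (ratPrime v).2 p.2).1 hdvd)⟩

variable (n : ℕ) [NeZero n] {C : Type*} [Field C] [NumberField C] [IsCyclotomicExtension {n} ℚ C]
  [IsGalois ℚ C]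

/-- The Dirichlet character of a character of the group. -/
def galChar (ψ : (C ≃ₐ[ℚ] C) →* ℂˣ) : DirichletCharacter ℂ n :=
  MulChar.ofUnitHom (ψ.comp (IsCyclotomicExtension.Rat.galEquivZMod n C).symm.toMonoidHom)

theorem galChar_apply (ψ : (C ≃ₐ[ℚ] C) →* ℂˣ) (σ : C ≃ₐ[ℚ] C) :
    galChar n ψ ((IsCyclotomicExtension.Rat.galEquivZMod n C σ : (ZMod n)ˣ) : ZMod n) = ψ σ := by
  rw [galChar, MulChar.ofUnitHom_coe]
  exact congrArg (fun τ => (ψ τ : ℂ))
    ((IsCyclotomicExtension.Rat.galEquivZMod n C).symm_apply_apply σ)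

/-- **The coefficient.** -/
theorem coef_cyclotomic (ψ : (C ≃ₐ[ℚ] C) →* ℂˣ) (v : HeightOneSpectrum (𝓞 ℚ)) {j : ℕ}
    (hj : j ≠ 0) :
    coef (fun σ => (ψ σ : ℂ)) v j =
      (galChar n ψ).primitiveCharacter ((ratPrime v : ℕ) : ZMod _) ^ j := by
  haveI : IsAbelianGalois ℚ C := IsCyclotomicExtension.isAbelianGalois {n} ℚ C
  obtain ⟨hp', hres⟩ : (ratPrime v : ℕ).Prime ∧
      resCard ℚ (primeOver ℚ C v) = ratPrime v :=
    ⟨(ratPrime v).2, resCard_eq_absNorm (under_primeOver ℚ C v)⟩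
  set p := (ratPrime v : ℕ) with hp
  haveI : Fact p.Prime := ⟨hp'⟩
  set Q := primeOver ℚ C v
  haveI : Q.LiesOver (Ideal.span {(p : ℤ)}) := by
    refine ⟨(FA.AbelianZeta.isMaximal_span (ratPrime v)).eq_of_le
      (Ideal.IsPrime.under ℤ Q).ne_top ((Ideal.span_singleton_le_iff_mem _).2 ?_)⟩
    have h1 : ((p : ℕ) : 𝓞 ℚ) ∈ v.asIdeal := Ideal.absNorm_mem v.asIdeal
    rw [← under_primeOver ℚ C v, Ideal.mem_comap, map_natCast] at h1
    rw [Ideal.mem_comap, map_natCast]
    exact h1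
  obtain ⟨k, m, hm, hn⟩ := Nat.exists_eq_pow_mul_and_not_dvd (NeZero.ne n) p hp'.ne_one
  have hmn : m ∣ n := FA.AbelianZeta.dvd_level n hn
  haveI : NeZero m := FA.AbelianZeta.ne_zero_level n hn
  set π := FA.AbelianZeta.levelMap n C hmn
  set χ := galChar n ψ
  obtain ⟨σ₀, h₀⟩ := exists_isFrobPow ℚ Q j
  have hI : Q.inertia (C ≃ₐ[ℚ] C) = π.ker := FA.AbelianZeta.inertia_eq n C hn hm Q
  have hπ : ((π σ₀ : (ZMod m)ˣ) : ZMod m) = (p : ZMod m) ^ j := by
    obtain ⟨z, hz, x, rfl, hx⟩ := FA.AbelianZeta.exists_residue_root n C hn hm Q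
    have h1 := Ideal.Quotient.eq.2 (h₀ x)
    rw [hres, map_pow, hx σ₀, (hz.isOfFinOrder (NeZero.ne m)).pow_inj_mod, ← hz.eq_orderOf,
      ← ZMod.natCast_eq_natCast_iff', ZMod.natCast_zmod_val, Nat.cast_pow] at h1
    exact h1
  have hfil : univ.filter (fun σ => IsFrobPow ℚ Q j σ) =
      univ.filter fun σ => σ * σ₀⁻¹ ∈ π.ker := by
    refine filter_congr fun σ _ => ?_
    rw [← hI, mul_inv_mem_inertia_iff ℚ h₀]
  have hker : ∀ σ, σ ∈ π.ker ↔
      IsCyclotomicExtension.Rat.galEquivZMod n C σ ∈ (ZMod.unitsMap hmn).ker := fun σ => Iff.rfl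
  have hsum : ∑ σ ∈ univ.filter (fun σ => IsFrobPow ℚ Q j σ), (ψ σ : ℂ) =
      (ψ σ₀ : ℂ) * ∑ τ : π.ker, (ψ τ : ℂ) := by
    rw [hfil, mul_sum, sum_subtype (p := fun σ => σ * σ₀⁻¹ ∈ π.ker) _ (fun σ => by simp)]
    refine Fintype.sum_equiv
      ((Equiv.mulRight σ₀⁻¹).subtypeEquiv fun σ => Iff.rfl) _ _ fun σ => ?_
    change (ψ σ.1 : ℂ) = (ψ σ₀ : ℂ) * (ψ (σ.1 * σ₀⁻¹) : ℂ)
    rw [map_mul, map_inv, Units.val_mul, mul_comm (ψ σ.1 : ℂ), ← mul_assoc, Units.mul_inv,
      one_mul]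
  rw [coef, localMean, hsum, hI]
  by_cases htriv : ∀ τ ∈ π.ker, ψ τ = 1
  · have hfac : FactorsThrough χ m := by
      rw [factorsThrough_iff_ker_unitsMap (χ := χ) hmn]
      intro u hu
      obtain ⟨τ, rfl⟩ := (IsCyclotomicExtension.Rat.galEquivZMod n C).surjective u
      refine MonoidHom.mem_ker.2 (Units.ext ?_)
      rw [MulChar.coe_toUnitHom, galChar_apply, htriv τ ((hker τ).2 hu)]
    have hpm : IsCoprime (p : ℤ) m :=
      Nat.isCoprime_iff_coprime.2 (FA.AbelianZeta.coprime_level hm)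
    have hval : χ.primitiveCharacter ((p : ℕ) : ZMod _) = hfac.χ₀ ((p : ℕ) : ZMod m) := by
      have h1 := primitiveCharacter_changeLevel_apply hfac.dvd hfac.χ₀ (p : ℤ)
      rw [← Int.cast_natCast (R := ZMod m), ← primitiveCharacter_apply_of_isCoprime _ hpm, ← h1]
      have h2 := hfac.eq_changeLevel
      generalize changeLevel hfac.dvd hfac.χ₀ = χ' at h2 ⊢
      subst h2
      rw [Int.cast_natCast]
    rw [hval, ← map_pow, ← hπ, ← galChar_apply n ψ σ₀,
      show galChar n ψ = changeLevel hfac.dvd hfac.χ₀ from hfac.eq_changeLevel,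
      changeLevel_eq_cast_of_dvd, mul_left_comm,
      sum_congr rfl fun (τ : π.ker) _ => by rw [htriv τ.1 τ.2, Units.val_one],
      sum_const, card_univ, nsmul_one, ← Nat.card_eq_fintype_card,
      inv_mul_cancel₀ (Nat.cast_ne_zero.2 Nat.card_pos.ne'), mul_one]
    congr 1
  · push Not at htriv
    obtain ⟨τ₀, hτ₀, hne⟩ := htriv
    have hzero : ∑ τ : π.ker, (ψ τ : ℂ) = 0 := by
      have h1 : (ψ τ₀ : ℂ) * ∑ τ : π.ker, (ψ τ : ℂ) = ∑ τ : π.ker, (ψ τ : ℂ) := by
        rw [mul_sum]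
        exact Fintype.sum_equiv (Equiv.mulLeft (⟨τ₀, hτ₀⟩ : π.ker)) _ _ fun τ => by simp
      by_contra h
      exact hne (Units.ext (mul_right_cancel₀ h (h1.trans (one_mul _).symm)))
    have hdvd : p ∣ χ.conductor := by
      by_contra h
      have hcm : χ.conductor ∣ m := by
        refine (Nat.Coprime.dvd_mul_left (Nat.Coprime.pow_right k
          (hp'.coprime_iff_not_dvd.2 h).symm)).1 ?_
        rw [← hn]
        exact χ.conductor_dvd_level
      have hfac : FactorsThrough χ m := (mem_conductorSet_iff_conductor_dvd χ hmn).2 hcm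
      have h2 := (factorsThrough_iff_ker_unitsMap (χ := χ) hmn).1 hfac ((hker τ₀).1 hτ₀)
      rw [MonoidHom.mem_ker, Units.ext_iff, MulChar.coe_toUnitHom, galChar_apply] at h2
      exact hne (Units.ext h2)
    have hval : χ.primitiveCharacter ((p : ℕ) : ZMod _) = 0 := by
      rw [← Int.cast_natCast]
      refine (apply_eq_zero_iff _ _).2 fun hco => ?_
      exact (Nat.Prime.coprime_iff_not_dvd hp').1 (Nat.isCoprime_iff_coprime.1 hco) hdvd
    rw [hzero, mul_zero, mul_zero, hval, zero_pow hj]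

/-- **The L-series.** -/
theorem artinL_cyclotomic (ψ : (C ≃ₐ[ℚ] C) →* ℂˣ) {s : ℂ} (hs : 1 < s.re) :
    artinL (fun σ => (ψ σ : ℂ)) s = LFunction (galChar n ψ).primitiveCharacter s := by
  haveI : NeZero (galChar n ψ).conductor := ⟨conductor_ne_zero _⟩
  rw [LFunction_eq_LSeries _ hs]
  refine (hasProd_artinL hs _).unique ?_
  convert ((Equiv.ofBijective _ ratPrime_bijective).hasProd_iff).2
    (DirichletCharacter.LSeries_eulerProduct_hasProd (galChar n ψ).primitiveCharacter hs) using 1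
  funext v
  rw [Function.comp_apply, Equiv.ofBijective_apply]
  set z := ((Ideal.absNorm v.asIdeal : ℕ) : ℂ) ^ (-s)
  set c := (galChar n ψ).primitiveCharacter ((ratPrime v : ℕ) : ZMod _)
  have hz : ‖c * z‖ < 1 := by
    obtain ⟨h1, h2⟩ := norm_norm_cpow hs v
    rw [norm_mul, h1]
    calc ‖c‖ * _ ≤ 1 * (1 / 2 : ℝ) := mul_le_mul
          (DirichletCharacter.norm_le_one _ _) h2 (FA.Ext.zN_nonneg _ _) zero_le_one
      _ < 1 := by norm_num
  have h : HasSum (fun j => term (fun σ : C ≃ₐ[ℚ] C => (ψ σ : ℂ)) s (v, j))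
      (-Complex.log (1 - c * z)) := by
    refine (Complex.hasSum_taylorSeries_neg_log' hz).congr_fun fun j => ?_
    simp only [term, coef_cyclotomic n ψ v (Nat.succ_ne_zero j), mul_pow]
    rfl
  rw [h.tsum_eq, Complex.exp_neg, Complex.exp_log]
  · rfl
  intro h0
  rw [sub_eq_zero] at h0
  rw [← h0, norm_one] at hz
  exact lt_irrefl _ hz

end FA.ArtinL

end
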