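import Fermat.Agent.ArtinL.Cyclotomic
import Fermat.Agent.Root.SummaryKroneckerWeber

/-!
# Characters of degree one over `ℚ`

A character of the group of a Galois number field factors through an abelian field, which lies in a
cyclotomic one, so by invariance under inflation its L-series is that of a primitive Dirichlet
character, which is unique.
-/

set_option autoImplicit false
set_option linter.style.haveILetI false
set_option linter.unusedSectionVars false

noncomputable section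

open NumberField Module DirichletCharacter

namespace FA.ArtinL

theorem dedekindZeta_rat {s : ℂ} (hs : 1 < s.re) : dedekindZeta ℚ s = riemannZeta s :=
  (FA.AbelianZeta.hasProd_primes (F := ℚ) hs).unique
    (((Equiv.ofBijective _ ratPrime_bijective).hasProd_iff).2
      (riemannZeta_eulerProduct_hasProd hs))

theorem exists_dirichlet_abelian (M : Type*) [Field M] [NumberField M] [IsAbelianGalois ℚ M]
    (ψ : (M ≃ₐ[ℚ] M) →* ℂˣ) :
    ∃ (N : ℕ) (_ : NeZero N) (χ : DirichletCharacter ℂ N), χ.IsPrimitive ∧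
      ∀ s : ℂ, 1 < s.re → artinL (fun σ => (ψ σ : ℂ)) s = LFunction χ s := by
  obtain ⟨n, hn, ⟨f⟩⟩ := FA.Summary.kroneckerWeber_cyclotomicField M
  haveI : NeZero n := ⟨hn.ne'⟩
  haveI : NeZero (n : ℚ) := ⟨Nat.cast_ne_zero.mpr hn.ne'⟩
  haveI : IsCyclotomicExtension {n} ℚ (CyclotomicField n ℚ) :=
    CyclotomicField.isCyclotomicExtension n ℚ
  haveI : IsGalois ℚ (CyclotomicField n ℚ) :=
    IsCyclotomicExtension.isGalois {n} ℚ (CyclotomicField n ℚ)
  letI : Algebra M (CyclotomicField n ℚ) := f.toRingHom.toAlgebra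
  haveI : IsScalarTower ℚ M (CyclotomicField n ℚ) :=
    IsScalarTower.of_algebraMap_eq fun r => (f.commutes r).symm
  set ψC : (CyclotomicField n ℚ ≃ₐ[ℚ] CyclotomicField n ℚ) →* ℂˣ :=
    ψ.comp (AlgEquiv.restrictNormalHom M)
  haveI : NeZero (galChar n ψC).conductor := ⟨conductor_ne_zero _⟩
  refine ⟨(galChar n ψC).conductor, inferInstance, (galChar n ψC).primitiveCharacter,
    primitiveCharacter_isPrimitive _, fun s hs => ?_⟩
  rw [← artinL_cyclotomic n ψC hs]
  exact (artinL_inflation (K := ℚ) (M := M) (L := CyclotomicField n ℚ)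
    (f := fun σ => (ψ σ : ℂ)) (fun g x => by simp) s).symm

variable {L : Type*} [Field L] [NumberField L] [IsGalois ℚ L]

/-- **Degree one over `ℚ` is Dirichlet.** -/
theorem exists_dirichlet (ψ : (L ≃ₐ[ℚ] L) →* ℂˣ) :
    ∃ (N : ℕ) (_ : NeZero N) (χ : DirichletCharacter ℂ N), χ.IsPrimitive ∧
      ∀ s : ℂ, 1 < s.re → artinL (fun σ => (ψ σ : ℂ)) s = LFunction χ s := by
  let M := IntermediateField.fixedField ψ.ker
  haveI : IsGalois ℚ M := IsGalois.of_fixedField_normal_subgroup ψ.ker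
  set res : (L ≃ₐ[ℚ] L) →* (M ≃ₐ[ℚ] M) := AlgEquiv.restrictNormalHom M
  have hsurj : Function.Surjective res := AlgEquiv.restrictNormalHom_surjective L
  have hker : res.ker = ψ.ker :=
    (IntermediateField.restrictNormalHom_ker M).trans
      (IntermediateField.fixingSubgroup_fixedField ψ.ker)
  set ψM : (M ≃ₐ[ℚ] M) →* ℂˣ := res.liftOfSurjective hsurj ⟨ψ, hker.le⟩
  have hψM : ∀ σ, ψM (res σ) = ψ σ := fun σ =>
    DFunLike.congr_fun (MonoidHom.liftOfRightInverse_comp res _
      (Function.rightInverse_surjInv hsurj) ⟨ψ, hker.le⟩) σ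
  haveI : IsMulCommutative (M ≃ₐ[ℚ] M) := ⟨⟨fun a b => by
    obtain ⟨a, rfl⟩ := hsurj a
    obtain ⟨b, rfl⟩ := hsurj b
    rw [← map_mul, ← map_mul, ← mul_inv_eq_one, ← map_inv, ← map_mul, ← MonoidHom.mem_ker, hker,
      MonoidHom.mem_ker, map_mul, map_mul, map_inv, map_mul, mul_comm (ψ a), mul_inv_cancel]⟩⟩
  haveI : IsAbelianGalois ℚ M := ⟨⟩
  obtain ⟨N, hN, χ, hχ, h⟩ := exists_dirichlet_abelian M ψM
  refine ⟨N, hN, χ, hχ, fun s hs => ?_⟩
  rw [← h s hs, ← artinL_inflation (K := ℚ) (M := M) (L := L) (f := fun σ => (ψM σ : ℂ))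
    (fun g x => by simp) s]
  exact congrArg (fun f => artinL f s) (funext fun σ => congrArg Units.val (hψM σ).symm)

/-- A primitive character is determined by its L-series. -/
theorem eq_of_LFunction_eq {N₁ N₂ : ℕ} [NeZero N₁] [NeZero N₂] {χ₁ : DirichletCharacter ℂ N₁}
    {χ₂ : DirichletCharacter ℂ N₂} (h₁ : χ₁.IsPrimitive) (h₂ : χ₂.IsPrimitive)
    (h : ∀ x : ℝ, 1 < x → LFunction χ₁ x = LFunction χ₂ x) :
    ∃ e : N₁ = N₂, e ▸ χ₁ = χ₂ := by
  have hab : ∀ {N : ℕ} [NeZero N] (χ : DirichletCharacter ℂ N),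
      LSeries.abscissaOfAbsConv (fun k : ℕ => χ (k : ZMod N)) < ⊤ := fun {N} _ χ =>
    lt_of_le_of_lt (ZMod.LSeriesSummable_of_one_lt_re χ
      (s := 2) (by norm_num)).abscissaOfAbsConv_le (EReal.coe_lt_top _)
  have hev : (fun x : ℝ => LSeries (fun k : ℕ => χ₁ (k : ZMod N₁)) x) =ᶠ[Filter.atTop]
      fun x => LSeries (fun k : ℕ => χ₂ (k : ZMod N₂)) x := by
    filter_upwards [Filter.eventually_gt_atTop (1 : ℝ)] with x hx
    rw [← LFunction_eq_LSeries χ₁ (by simpa using hx),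
      ← LFunction_eq_LSeries χ₂ (by simpa using hx)]
    exact h x hx
  have hcoef : ∀ k : ℕ, k ≠ 0 → χ₁ (k : ZMod N₁) = χ₂ (k : ZMod N₂) := fun k hk =>
    LSeries.eq_of_LSeries_eventually_eq (hab χ₁) (hab χ₂) hev hk
  haveI : NeZero (N₁ * N₂) := ⟨mul_ne_zero (NeZero.ne _) (NeZero.ne _)⟩
  have heq : changeLevel (dvd_mul_right N₁ N₂) χ₁ = changeLevel (dvd_mul_left N₂ N₁) χ₂ := by
    refine MulChar.ext fun u => ?_
    rw [changeLevel_eq_cast_of_dvd, changeLevel_eq_cast_of_dvd,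
      ← ZMod.natCast_zmod_val (u : ZMod (N₁ * N₂)),
      ZMod.cast_natCast (dvd_mul_right N₁ N₂), ZMod.cast_natCast (dvd_mul_left N₂ N₁)]
    set k := (u : ZMod (N₁ * N₂)).val
    rcases eq_or_ne k 0 with hk | hk
    · have h1 : N₁ * N₂ = 1 := by
        have := u.isUnit
        rw [(ZMod.val_eq_zero _).1 hk, isUnit_zero_iff] at this
        exact ZMod.subsingleton_iff.1 (subsingleton_of_zero_eq_one this)
      obtain ⟨e₁, e₂⟩ := mul_eq_one.1 h1
      subst e₁ e₂
      simp [level_one χ₁, level_one χ₂, hk]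
    · exact hcoef k hk
  have hN : N₁ = N₂ := by
    have := congrArg conductor heq
    rwa [conductor_changeLevel, conductor_changeLevel, (isPrimitive_def _).1 h₁,
      (isPrimitive_def _).1 h₂] at this
  subst hN
  exact ⟨rfl, changeLevel_injective (dvd_mul_right N₁ N₁)
    (heq.trans (congrArg (fun e => changeLevel e χ₂) (Subsingleton.elim _ _)))⟩

end FA.ArtinL

end
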