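import Fermat.Agent.ArtinL.Invariants
import Mathlib.RingTheory.RootsOfUnity.Minpoly

/-!
# The eighth roots of three and of forty-eight

In a Galois extension of `ℚ` with a primitive eighth root of unity `ζ` and `a ^ 8 = 3` put
`r = ζ + ζ ^ 7`, so `(r a) ^ 8 = 48`. The groups of `ℚ(a)` and `ℚ(r a)` are Gassmann equivalent,
while `ℚ(a)` has no eighth root of `48`.
-/

set_option autoImplicit false
set_option linter.style.haveILetI false
set_option linter.unusedSectionVars false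

noncomputable section

open NumberField Module Polynomial IntermediateField

namespace FA.ArtinL.EightRoots

variable {L : Type*} [Field L] [NumberField L] [IsGalois ℚ L] {ζ a : L}
  (hζ : IsPrimitiveRoot ζ 8) (ha : a ^ 8 = 3)

include hζ in
theorem zeta_pow_four : ζ ^ 4 = -1 :=
  (IsPrimitiveRoot.pow (by norm_num) hζ (by norm_num : 8 = 4 * 2)).eq_neg_one_of_two_right

/-- The square root of two. -/
def sqrtTwo (ζ : L) : L := ζ + ζ ^ 7

include hζ in
theorem sqrtTwo_sq : sqrtTwo ζ ^ 2 = 2 := by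
  have h := zeta_pow_four hζ
  rw [sqrtTwo]
  linear_combination (ζ ^ 10 - ζ ^ 6 + 2 * ζ ^ 4 + ζ ^ 2 - 2) * h

include hζ in
theorem sqrtTwo_pow_eight : sqrtTwo ζ ^ 8 = 16 := by
  rw [show (8 : ℕ) = 2 * 4 from rfl, pow_mul, sqrtTwo_sq hζ]
  norm_num

include hζ in
theorem map_zeta (σ : L ≃ₐ[ℚ] L) : σ ζ = ζ ∨ σ ζ = ζ ^ 3 ∨ σ ζ = ζ ^ 5 ∨ σ ζ = ζ ^ 7 := by
  obtain ⟨i, hi, hco, he⟩ :=
    (hζ.isPrimitiveRoot_iff).1 (hζ.map_of_injective σ.injective)
  interval_cases i <;>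
    first
      | exact absurd hco (by decide)
      | (rw [← he]; simp)

include ha in
theorem a_ne_zero : a ≠ 0 := fun h => by simp [h] at ha

include hζ in
/-- `√3` is not in `ℚ(ζ)`. -/
theorem notMem_of_sq_eq_three {x : L} (hx : x ^ 2 = 3) : x ∉ ℚ⟮ζ⟯ := fun hmem => by
  have hint : IsIntegral ℚ ζ := IsIntegral.of_finite ℚ ζ
  rw [← IntermediateField.mem_toSubalgebra,
    IntermediateField.adjoin_simple_toSubalgebra_of_isAlgebraic hint.isAlgebraic,
    Algebra.adjoin_singleton_eq_range_aeval] at hmem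
  obtain ⟨p, hp⟩ := hmem
  have hmin : minpoly ℚ ζ = X ^ 4 + 1 := by
    rw [← cyclotomic_eq_minpoly_rat hζ (by norm_num),
      show (8 : ℕ) = 2 ^ (2 + 1) from rfl, cyclotomic_prime_pow_eq_geom_sum Nat.prime_two]
    simp [Finset.sum_range_succ]
    ring
  set q := p %ₘ (X ^ 4 + 1 : ℚ[X]) with hq
  have hmon : (X ^ 4 + 1 : ℚ[X]).Monic := by monicity!
  have hdeg : q.natDegree < 4 := by
    refine (natDegree_modByMonic_lt p hmon fun h => ?_).trans_le (by compute_degree!)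
    have := congrArg natDegree h
    rw [natDegree_one, show (X ^ 4 + 1 : ℚ[X]).natDegree = 4 by compute_degree!] at this
    omega
  have hqx : aeval ζ q = x := by
    rw [hq, aeval_modByMonic_eq_self_of_root (by rw [← hmin, minpoly.aeval])]
    exact hp
  set c := q.coeff
  have hqe : x = (c 0 : L) + (c 1 : L) * ζ + (c 2 : L) * ζ ^ 2 + (c 3 : L) * ζ ^ 3 := by
    rw [← hqx, aeval_eq_sum_range' hdeg]
    simp [Finset.sum_range_succ, Algebra.smul_def, c]
  set d : ℕ → ℚ := fun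
    | 0 => c 0 * c 0 - c 2 * c 2 - 2 * c 1 * c 3 - 3
    | 1 => 2 * c 0 * c 1 - 2 * c 2 * c 3
    | 2 => c 1 * c 1 - c 3 * c 3 + 2 * c 0 * c 2
    | _ => 2 * c 0 * c 3 + 2 * c 1 * c 2 with hd
  have hzero : aeval ζ (C (d 0) + C (d 1) * X + C (d 2) * X ^ 2 + C (d 3) * X ^ 3) = 0 := by
    have h4 := zeta_pow_four hζ
    rw [hqe] at hx
    simp only [map_add, map_mul, aeval_C, aeval_X, map_pow, hd, map_sub, eq_ratCast,
      Rat.cast_ofNat]
    linear_combination hx - ((c 2 : L) ^ 2 + 2 * (c 1 : L) * (c 3 : L) +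
      2 * (c 2 : L) * (c 3 : L) * ζ + (c 3 : L) ^ 2 * ζ ^ 2) * h4
  have hpoly : (C (d 0) + C (d 1) * X + C (d 2) * X ^ 2 + C (d 3) * X ^ 3 : ℚ[X]) = 0 := by
    refine eq_zero_of_dvd_of_natDegree_lt (minpoly.dvd ℚ ζ hzero) ?_
    rw [hmin, show (X ^ 4 + 1 : ℚ[X]).natDegree = 4 by compute_degree!]
    exact lt_of_le_of_lt (b := 3) (by compute_degree) (by norm_num)
  have hd' : ∀ k, k < 4 → d k = 0 := fun k hk => by
    have := congrArg (fun f : ℚ[X] => f.coeff k) hpoly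
    interval_cases k <;> simpa [coeff_X, coeff_X_pow, coeff_C] using this
  have e0 : c 0 * c 0 - c 2 * c 2 - 2 * c 1 * c 3 - 3 = 0 := hd' 0 (by norm_num)
  have e1 : 2 * c 0 * c 1 - 2 * c 2 * c 3 = 0 := hd' 1 (by norm_num)
  have e2 : c 1 * c 1 - c 3 * c 3 + 2 * c 0 * c 2 = 0 := hd' 2 (by norm_num)
  have e3 : 2 * c 0 * c 3 + 2 * c 1 * c 2 = 0 := hd' 3 (by norm_num)
  have hno : ∀ u : ℚ, ∀ m : ℕ, u * u = m → IsSquare m := fun u m h => by
    exact (Rat.isSquare_natCast_iff).1 ⟨u, h.symm⟩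
  rcases mul_eq_zero.1 (show c 0 * (c 1 ^ 2 + c 3 ^ 2) = 0 by
    linear_combination (c 1 / 2) * e1 + (c 3 / 2) * e3) with h0 | h13
  · rcases mul_eq_zero.1 (show c 2 * c 3 = 0 by
      linear_combination (-1 / 2 : ℚ) * e1 + c 1 * h0) with h2 | h3
    · rcases mul_eq_zero.1 (show (c 1 - c 3) * (c 1 + c 3) = 0 by
        linear_combination e2 - 2 * c 2 * h0) with h | h
      · rw [h0, h2, ← sub_eq_zero.1 h] at e0
        nlinarith [sq_nonneg (c 1)]
      · have h6 : (2 * c 1) * (2 * c 1) = (6 : ℕ) := by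
          push_cast
          linear_combination 2 * e0 - 2 * c 0 * h0 + 2 * c 2 * h2 + 4 * c 1 * h
        exact absurd (hno _ _ h6) (by
          rintro ⟨t, ht⟩
          have : t ≤ 2 := by nlinarith
          interval_cases t <;> omega)
    · rw [h0, h3] at e0
      nlinarith [sq_nonneg (c 2)]
  · have h1 : c 1 = 0 := by nlinarith [sq_nonneg (c 1), sq_nonneg (c 3)]
    have h3 : c 3 = 0 := by nlinarith [sq_nonneg (c 1), sq_nonneg (c 3)]
    rcases mul_eq_zero.1 (show c 0 * c 2 = 0 by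
      linear_combination (1 / 2 : ℚ) * e2 - (c 1 / 2) * h1 + (c 3 / 2) * h3) with h0 | h2
    · rw [h0, h1] at e0
      nlinarith [sq_nonneg (c 2)]
    · exact absurd (hno (c 0) 3 (by
        push_cast; linear_combination e0 + c 2 * h2 + 2 * c 1 * h3)) (by
        rintro ⟨t, ht⟩
        have : t ≤ 2 := by nlinarith
        interval_cases t <;> omega)

include hζ ha in
/-- The rotation of the roots. -/
theorem exists_rotation : ∃ τ : L ≃ₐ[ℚ] L, τ ζ = ζ ∧ τ a = ζ * a := by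
  have hnot := notMem_of_sq_eq_three hζ (x := a ^ 4) (by rw [← pow_mul]; exact ha)
  rw [← IsGalois.fixedField_fixingSubgroup ℚ⟮ζ⟯, IntermediateField.mem_fixedField_iff] at hnot
  push Not at hnot
  obtain ⟨σ, hσ, hne⟩ := hnot
  have hσζ : σ ζ = ζ :=
    (IntermediateField.mem_fixingSubgroup_iff _ _).1 hσ ζ (mem_adjoin_simple_self ℚ ζ)
  have h0 := a_ne_zero ha
  obtain ⟨k, hk, hke⟩ := hζ.eq_pow_of_pow_eq_one (ξ := σ a / a) (by
    rw [div_pow, ← map_pow, ha, map_ofNat, div_self]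
    exact fun h => h0 (by simpa using ha.trans h))
  rw [eq_div_iff h0] at hke
  have hodd : k % 2 = 1 := by
    by_contra h
    refine hne ?_
    obtain ⟨j, rfl⟩ : 2 ∣ k := by omega
    rw [map_pow, ← hke, mul_pow, ← pow_mul, show 2 * j * 4 = 8 * j by ring, pow_mul,
      hζ.pow_eq_one, one_pow, one_mul]
  have hpow : ∀ j : ℕ, (σ ^ j) ζ = ζ ∧ (σ ^ j) a = ζ ^ (k * j) * a := fun j => by
    induction j with
    | zero => simp
    | succ j ih =>
      refine ⟨?_, ?_⟩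
      · rw [pow_succ, AlgEquiv.mul_apply, hσζ, ih.1]
      · rw [pow_succ, AlgEquiv.mul_apply, ← hke, map_mul, map_pow, ih.1, ih.2, ← mul_assoc,
          ← pow_add, Nat.mul_succ, add_comm]
  refine ⟨σ ^ k, (hpow k).1, ?_⟩
  rw [(hpow k).2, ← pow_mod_orderOf ζ, ← hζ.eq_orderOf,
    show k * k % 8 = 1 by interval_cases k <;> omega, pow_one]

omit [IsGalois ℚ L] in
theorem rotation_pow {τ : L ≃ₐ[ℚ] L} (hτζ : τ ζ = ζ) {c : L} (hτc : τ c = ζ * c) (j : ℕ) :
    (τ ^ j) ζ = ζ ∧ (τ ^ j) c = ζ ^ j * c := by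
  induction j with
  | zero => simp
  | succ j ih =>
    refine ⟨?_, ?_⟩
    · rw [pow_succ, AlgEquiv.mul_apply, hτζ, ih.1]
    · rw [pow_succ, AlgEquiv.mul_apply, hτc, map_mul, ih.1, ih.2]
      ring

include hζ in
theorem rotation_sqrtTwo {τ : L ≃ₐ[ℚ] L} (hτζ : τ ζ = ζ) : τ (sqrtTwo ζ) = sqrtTwo ζ := by
  rw [sqrtTwo, map_add, map_pow, hτζ]

include hζ in
theorem injOn_roots {c : L} (hc : c ≠ 0) :
    Set.InjOn (fun i => ζ ^ i * c) (Finset.range 8 : Set ℕ) := fun _ hi _ hj h =>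
  hζ.pow_inj (Finset.mem_range.1 hi) (Finset.mem_range.1 hj) (mul_right_cancel₀ hc h)

include hζ in
/-- An element with rational eighth power that the rotation turns has degree `8`. -/
theorem natDegree_minpoly {τ : L ≃ₐ[ℚ] L} (hτζ : τ ζ = ζ) {c : L} (hτc : τ c = ζ * c) (hc : c ≠ 0)
    {q : ℚ} (hq : c ^ 8 = q) : minpoly ℚ c = X ^ 8 - C q := by
  classical
  have hint : IsIntegral ℚ c := IsIntegral.of_finite ℚ c
  refine eq_of_monic_of_dvd_of_natDegree_le (minpoly.monic hint)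
    (monic_X_pow_sub_C q (by norm_num)) (minpoly.dvd ℚ c (by simp [hq])) ?_ |>.symm
  rw [natDegree_X_pow_sub_C]
  by_contra hlt
  push Not at hlt
  have h0 : (minpoly ℚ c).map (algebraMap ℚ L) = 0 := by
    refine eq_zero_of_natDegree_lt_card_of_eval_eq_zero' _
      ((Finset.range 8).image fun i => ζ ^ i * c) (fun z hz => ?_) ?_
    · obtain ⟨i, -, rfl⟩ := Finset.mem_image.1 hz
      rw [← (rotation_pow hτζ hτc i).2, eval_map_algebraMap, aeval_algHom_apply, minpoly.aeval,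
        map_zero]
    · rw [Finset.card_image_of_injOn (injOn_roots hζ hc), Finset.card_range]
      exact natDegree_map_le.trans_lt hlt
  exact minpoly.ne_zero hint (Polynomial.map_eq_zero_iff (algebraMap ℚ L).injective |>.1 h0)

include hζ in
/-- An eigenvector of the rotation inside `ℚ(c)`. -/
theorem exists_rat_of_mem {τ : L ≃ₐ[ℚ] L} (hτζ : τ ζ = ζ) {c : L} (hτc : τ c = ζ * c) (hc : c ≠ 0)
    {q : ℚ} (hq : c ^ 8 = q) {y : L} (hy : y ∈ ℚ⟮c⟯) (hτy : τ y = ζ * y) :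
    ∃ t : ℚ, y = t * c := by
  classical
  rw [← IntermediateField.mem_toSubalgebra,
    IntermediateField.adjoin_simple_toSubalgebra_of_isAlgebraic
      (IsIntegral.of_finite ℚ c).isAlgebraic,
    Algebra.adjoin_singleton_eq_range_aeval] at hy
  obtain ⟨p, hp⟩ := hy
  set f := p %ₘ (X ^ 8 - C q : ℚ[X]) with hf
  have hdeg : f.natDegree < 8 := by
    refine (natDegree_modByMonic_lt p (monic_X_pow_sub_C q (by norm_num)) fun h => ?_).trans_eq
      (natDegree_X_pow_sub_C (n := 8) (r := q))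
    have := congrArg natDegree h
    rw [natDegree_X_pow_sub_C, natDegree_one] at this
    omega
  have hfy : aeval c f = y := by
    rw [hf, aeval_modByMonic_eq_self_of_root (by simp [hq])]
    exact hp
  have h0 : f.map (algebraMap ℚ L) - C (y / c) * X = 0 := by
    refine eq_zero_of_natDegree_lt_card_of_eval_eq_zero' _
      ((Finset.range 8).image fun i => ζ ^ i * c) (fun z hz => ?_) ?_
    · obtain ⟨i, -, rfl⟩ := Finset.mem_image.1 hz
      rw [eval_sub, eval_mul, eval_C, eval_X, eval_map_algebraMap, ← (rotation_pow hτζ hτc i).2,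
        aeval_algHom_apply, hfy, (rotation_pow hτζ hτy i).2, (rotation_pow hτζ hτc i).2]
      field_simp
      ring
    · rw [Finset.card_image_of_injOn (injOn_roots hζ hc), Finset.card_range]
      refine (natDegree_sub_le _ _).trans_lt (max_lt (natDegree_map_le.trans_lt hdeg) ?_)
      exact ((natDegree_C_mul_le _ _).trans natDegree_X_le).trans_lt (by norm_num)
  refine ⟨f.coeff 1, ?_⟩
  have h1 := congrArg (fun g : L[X] => g.coeff 1) h0
  simp only [coeff_sub, coeff_map, coeff_C_mul, coeff_X_one, mul_one, coeff_zero, eq_ratCast,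
    sub_eq_zero] at h1
  rw [h1, div_mul_cancel₀ _ hc]

include hζ ha in
theorem exists_eq_pow_mul {y : L} (hy : y ^ 8 = 48) : ∃ j, y = ζ ^ j * (sqrtTwo ζ * a) := by
  have hb : (sqrtTwo ζ * a) ^ 8 = 48 := by
    rw [mul_pow, sqrtTwo_pow_eight hζ, ha]
    norm_num
  have hb0 : sqrtTwo ζ * a ≠ 0 := fun h => by simp [h] at hb
  obtain ⟨j, -, hj⟩ := hζ.eq_pow_of_pow_eq_one (ξ := y / (sqrtTwo ζ * a)) (by
    rw [div_pow, hy, hb, div_self]
    norm_num)
  exact ⟨j, by rw [hj, div_mul_cancel₀ _ hb0]⟩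

include hζ ha in
/-- Every eighth root of `48` is turned by the rotation. -/
theorem rotation_root {τ : L ≃ₐ[ℚ] L} (hτζ : τ ζ = ζ) (hτa : τ a = ζ * a) {y : L}
    (hy : y ^ 8 = 48) : τ y = ζ * y := by
  obtain ⟨j, rfl⟩ := exists_eq_pow_mul hζ ha hy
  rw [map_mul, map_mul, map_pow, hτζ, rotation_sqrtTwo hζ hτζ, hτa]
  ring

include hζ ha in
/-- **`ℚ(a)` has no eighth root of `48`.** -/
theorem pow_eight_ne {y : L} (hy : y ∈ ℚ⟮a⟯) : y ^ 8 ≠ 48 := fun h => by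
  obtain ⟨τ, hτζ, hτa⟩ := exists_rotation hζ ha
  obtain ⟨t, rfl⟩ := exists_rat_of_mem hζ hτζ hτa (a_ne_zero ha) (q := 3) (by simp [ha]) hy
    (rotation_root hζ ha hτζ hτa h)
  rw [mul_pow, ha] at h
  have ht : t ^ 8 = 16 := by
    have h' : ((t ^ 8 * 3 : ℚ) : L) = ((48 : ℚ) : L) := by push_cast; exact h
    linarith [Rat.cast_injective h']
  have h4 : t ^ 4 = 4 := by
    nlinarith [sq_nonneg (t ^ 2), sq_nonneg (t ^ 4 - 4), mul_self_nonneg (t ^ 4 + 4)]
  have h2 : t ^ 2 = 2 := by nlinarith [sq_nonneg t, sq_nonneg (t ^ 2 - 2)]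
  have : IsSquare (2 : ℕ) := (Rat.isSquare_natCast_iff).1 ⟨t, by push_cast; linarith [sq t]⟩
  obtain ⟨m, hm⟩ := this
  have : m ≤ 1 := by nlinarith
  interval_cases m <;> omega

omit [IsGalois ℚ L] in
theorem mem_fixingSubgroup_simple (c : L) (σ : L ≃ₐ[ℚ] L) :
    σ ∈ (ℚ⟮c⟯).fixingSubgroup ↔ σ c = c := by
  rw [← Subgroup.zpowers_le, ← IntermediateField.le_iff_le, adjoin_simple_le_iff,
    IntermediateField.mem_fixedField_iff]
  refine ⟨fun h => h σ (Subgroup.mem_zpowers σ), fun h f hf => ?_⟩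
  have hle : Subgroup.zpowers σ ≤ MulAction.stabilizer (L ≃ₐ[ℚ] L) c :=
    Subgroup.zpowers_le.2 h
  exact hle hf

open scoped Classical in
/-- The exponent of the conjugating rotation. -/
def twist (ζ : L) (σ : L ≃ₐ[ℚ] L) : ℕ :=
  if σ ζ = ζ ^ 3 then 2 else if σ ζ = ζ ^ 5 then 1 else 0

include hζ ha in
/-- **Gassmann equivalence.** -/
theorem gassmann (g : L ≃ₐ[ℚ] L) :
    Nat.card {h : (ℚ⟮a⟯).fixingSubgroup // IsConj g (h : L ≃ₐ[ℚ] L)} =
      Nat.card {h : (ℚ⟮sqrtTwo ζ * a⟯).fixingSubgroup // IsConj g (h : L ≃ₐ[ℚ] L)} := by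
  classical
  obtain ⟨τ, hτζ, hτa⟩ := exists_rotation hζ ha
  set φ : (L ≃ₐ[ℚ] L) → (L ≃ₐ[ℚ] L) := fun σ => τ ^ twist ζ σ * σ * (τ ^ twist ζ σ)⁻¹ with hφ
  have hz : ∀ (m : ℕ) (σ : L ≃ₐ[ℚ] L), (τ ^ m)⁻¹ ζ = ζ ∧
      (τ ^ m * σ * (τ ^ m)⁻¹) ζ = σ ζ ∧ ((τ ^ m)⁻¹ * σ * τ ^ m) ζ = σ ζ := fun m σ => by
    have h1 := (rotation_pow hτζ hτa m).1
    have h2 : (τ ^ m)⁻¹ ζ = ζ := (τ ^ m).symm_apply_eq.2 h1.symm
    obtain ⟨i, hi⟩ : ∃ i, σ ζ = ζ ^ i := by
      obtain h | h | h | h := map_zeta hζ σ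
      exacts [⟨1, by rw [h, pow_one]⟩, ⟨3, h⟩, ⟨5, h⟩, ⟨7, h⟩]
    exact ⟨h2, by rw [AlgEquiv.mul_apply, AlgEquiv.mul_apply, h2, hi, map_pow, h1],
      by rw [AlgEquiv.mul_apply, AlgEquiv.mul_apply, h1, hi, map_pow, h2]⟩
  have hkey : ∀ σ, φ σ (sqrtTwo ζ * a) = sqrtTwo ζ * a ↔ σ a = a := fun σ => by
    set m := twist ζ σ with hm
    set ρ := φ σ with hρ
    have hρζ : ρ ζ = σ ζ := (hz m σ).2.1
    have hca : (τ ^ m) a = ζ ^ m * a := (rotation_pow hτζ hτa m).2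
    have h1 : ρ (ζ ^ m * a) = ζ ^ m * a ↔ σ a = a := by
      rw [← hca, hρ, hφ]
      dsimp only
      rw [← hm, AlgEquiv.mul_apply, AlgEquiv.mul_apply,
        show (τ ^ m)⁻¹ ((τ ^ m) a) = a from (τ ^ m).symm_apply_apply a,
        (τ ^ m).injective.eq_iff]
    have hw : ρ (sqrtTwo ζ * ζ ^ (8 - m)) = sqrtTwo ζ * ζ ^ (8 - m) := by
      have h8 := hζ.pow_eq_one
      rw [sqrtTwo, map_mul, map_add, map_pow, map_pow, hρζ]
      obtain h | h | h | h := map_zeta hζ σ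
      · rw [h]
      · have : m = 2 := by simp [hm, twist, h]
        rw [h, this]
        linear_combination (ζ ^ 31 + ζ ^ 23 + ζ ^ 15 + ζ ^ 13 + ζ ^ 7) * h8
      · have hne : ζ ^ 5 ≠ ζ ^ 3 := fun e => by
          have := hζ.pow_inj (by norm_num) (by norm_num) e
          omega
        have : m = 1 := by simp [hm, twist, h, hne]
        rw [h, this]
        linear_combination (ζ ^ 62 + ζ ^ 54 + ζ ^ 46 + ζ ^ 38 + ζ ^ 30 + ζ ^ 22 + ζ ^ 14 +
          ζ ^ 32 + ζ ^ 24 + ζ ^ 16 + ζ ^ 8) * h8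
      · have hne3 : ζ ^ 7 ≠ ζ ^ 3 := fun e => by
          have := hζ.pow_inj (by norm_num) (by norm_num) e
          omega
        have hne5 : ζ ^ 7 ≠ ζ ^ 5 := fun e => by
          have := hζ.pow_inj (by norm_num) (by norm_num) e
          omega
        have : m = 0 := by simp [hm, twist, h, hne3, hne5]
        rw [h, this]
        linear_combination (ζ ^ 97 + ζ ^ 89 + ζ ^ 81 + ζ ^ 73 + ζ ^ 65 + ζ ^ 57 + ζ ^ 55 + ζ ^ 49 +
          ζ ^ 47 + ζ ^ 41 + ζ ^ 39 + ζ ^ 33 + ζ ^ 31 + ζ ^ 25 + ζ ^ 23 + ζ ^ 17 + ζ ^ 15 +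
          ζ ^ 9) * h8
    have hb : sqrtTwo ζ * a = sqrtTwo ζ * ζ ^ (8 - m) * (ζ ^ m * a) := by
      have hm8 : 8 - m + m = 8 := by
        rw [hm, twist]
        split_ifs <;> omega
      rw [show sqrtTwo ζ * ζ ^ (8 - m) * (ζ ^ m * a) = sqrtTwo ζ * ζ ^ (8 - m + m) * a by ring,
        hm8, hζ.pow_eq_one, mul_one]
    have hw0 : sqrtTwo ζ * ζ ^ (8 - m) ≠ 0 := mul_ne_zero
      (fun h => by simpa [h] using sqrtTwo_sq hζ) (pow_ne_zero _ (hζ.ne_zero (by norm_num)))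
    rw [hb, map_mul, hw, mul_right_inj' hw0, h1]
  have htw : ∀ σ m, twist ζ (τ ^ m * σ * (τ ^ m)⁻¹) = twist ζ σ ∧
      twist ζ ((τ ^ m)⁻¹ * σ * τ ^ m) = twist ζ σ := fun σ m => by
    simp only [twist, (hz m σ).2.1, (hz m σ).2.2, and_self]
  set ψ : (L ≃ₐ[ℚ] L) → (L ≃ₐ[ℚ] L) := fun σ => (τ ^ twist ζ σ)⁻¹ * σ * τ ^ twist ζ σ with hψ
  let e : (L ≃ₐ[ℚ] L) ≃ (L ≃ₐ[ℚ] L) :=
    { toFun := φ
      invFun := ψ
      left_inv := fun σ => by
        simp only [hφ, hψ, (htw σ _).1]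
        group
      right_inv := fun σ => by
        simp only [hφ, hψ, (htw σ _).2]
        group }
  have hconj : ∀ σ, IsConj σ (φ σ) := fun σ => isConj_iff.2 ⟨_, rfl⟩
  refine Nat.card_congr ((e.subtypeEquiv fun σ => ?_).subtypeEquiv fun h => ?_)
  · rw [mem_fixingSubgroup_simple, mem_fixingSubgroup_simple]
    exact (hkey σ).symm
  · exact ⟨fun hh => hh.trans (hconj _), fun hh => hh.trans (hconj _).symm⟩

include hζ ha in
/-- **The two fields have the same zeta function.** -/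
theorem dedekindZeta_eq {s : ℂ} (hs : 1 < s.re) :
    dedekindZeta ℚ⟮a⟯ s = dedekindZeta ℚ⟮sqrtTwo ζ * a⟯ s :=
  (FA.Summary.perlis_theorem L _ _).2 (gassmann hζ ha) s hs

end FA.ArtinL.EightRoots

end
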