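import Fermat.Agent.ArtinL.Defs
import Fermat.Agent.BrauerSplitting.Basic
import Mathlib.RepresentationTheory.Character
import Mathlib.LinearAlgebra.PID
import Mathlib.LinearAlgebra.Determinant
import Mathlib.Analysis.Complex.Norm

/-!
# The Euler factors

For a representation the exponential of the sum over the exponents at a prime `v` is
`det(1 - N(v) ^ (-s) ρ(φ) | V ^ I)⁻¹` for a Frobenius element `φ` at any prime over `v`, `I` its
inertia group, so the L-series is Artin's Euler product over all primes.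
-/

set_option autoImplicit false
set_option linter.style.haveILetI false
set_option linter.unusedSectionVars false

noncomputable section

open Module Finset NumberField IsDedekindDomain
open scoped Pointwise nonZeroDivisors

namespace FA.ArtinL

/-- The logarithm of `det(1 - x σ(g))` for a representation of a finite abelian group. -/
theorem exists_log_det {C : Type*} [CommGroup C] [Finite C] {W : Type*} [AddCommGroup W]
    [Module ℂ W] [FiniteDimensional ℂ W] (σ : Representation ℂ C W) (g : C) {x : ℂ}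
    (hx : ‖x‖ < 1) :
    ∃ ℓ : ℂ, HasSum (fun j : ℕ => σ.character (g ^ (j + 1)) * x ^ (j + 1) / (j + 1)) ℓ ∧
      Complex.exp ℓ = (LinearMap.det (1 - x • σ g))⁻¹ := by
  induction hn : finrank ℂ W using Nat.strong_induction_on generalizing W with
  | _ n ih =>
    subst hn
    by_cases h0 : finrank ℂ W = 0
    · haveI := (Module.finrank_zero_iff (R := ℂ)).1 h0
      refine ⟨0, ?_, ?_⟩
      · simp [Representation.character, Subsingleton.elim (σ _) 0, hasSum_zero]
      · rw [Complex.exp_zero, LinearMap.det_eq_one_of_finrank_eq_zero h0, inv_one]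
    by_cases hirr : Representation.IsIrreducible σ
    · haveI : IsMulCommutative C := ⟨⟨fun a b => mul_comm a b⟩⟩
      have h1 : finrank ℂ W = 1 :=
        Representation.IsIrreducible.finrank_eq_one_of_isMulCommutative σ
      obtain ⟨b⟩ : Nonempty (Basis Unit ℂ W) := ⟨Module.basisUnique Unit h1⟩
      set c : C → ℂ := fun a => b.repr (σ a (b ())) ()
      have hσ : ∀ a, σ a = c a • (1 : Module.End ℂ W) := fun a => b.ext fun i => by
        obtain ⟨⟩ := i
        conv_lhs => rw [← b.sum_repr (σ a (b ()))]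
        simp [c]
      have hchar : ∀ a, σ.character a = c a := fun a => by
        rw [Representation.character, hσ, map_smul, LinearMap.trace_one, h1]
        simp
      have hmul : ∀ a a', c (a * a') = c a * c a' := fun a a' => by
        have h := congrArg (LinearMap.trace ℂ W) (map_mul σ a a')
        rw [hσ, hσ a, hσ a'] at h
        simpa [LinearMap.trace_one, h1, smul_smul, mul_comm] using h
      have hone : c 1 = 1 := by rw [← hchar, Representation.char_one, h1, Nat.cast_one]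
      have hpow : ∀ k : ℕ, c (g ^ k) = c g ^ k := fun k => by
        induction k with
        | zero => rw [pow_zero, pow_zero, hone]
        | succ k ihk => rw [pow_succ, pow_succ, hmul, ihk]
      have hnorm : ‖c g‖ = 1 := Complex.norm_eq_one_of_pow_eq_one
        (by rw [← hpow, pow_orderOf_eq_one, hone]) (orderOf_pos g).ne'
      have hz : ‖c g * x‖ < 1 := by rwa [norm_mul, hnorm, one_mul]
      refine ⟨-Complex.log (1 - c g * x), ?_, ?_⟩
      · simp only [hchar, hpow, ← mul_pow]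
        exact Complex.hasSum_taylorSeries_neg_log' hz
      · rw [Complex.exp_neg, Complex.exp_log (fun h => by
          rw [sub_eq_zero] at h; rw [← h, norm_one] at hz; exact lt_irrefl _ hz), hσ]
        congr 1
        rw [show (1 : Module.End ℂ W) - x • c g • 1 = (1 - c g * x) • 1 by
          rw [sub_smul, one_smul, smul_smul, mul_comm], LinearMap.det_smul, h1, pow_one, map_one,
          mul_one]
    haveI : Fintype C := Fintype.ofFinite C
    haveI : NeZero (Nat.card C : ℂ) := ⟨Nat.cast_ne_zero.2 Nat.card_pos.ne'⟩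
    obtain ⟨U₁, U₂, hc, hU₁, hU₂⟩ := FA.BrauerSplitting.exists_split σ h0 hirr
    obtain ⟨ℓ₁, hs₁, he₁⟩ := ih _ hU₁ U₁.toRepresentation rfl
    obtain ⟨ℓ₂, hs₂, he₂⟩ := ih _ hU₂ U₂.toRepresentation rfl
    refine ⟨ℓ₁ + ℓ₂, ?_, ?_⟩
    · simp only [FA.BrauerSplitting.character_add_of_isCompl σ hc, add_mul, add_div]
      exact hs₁.add hs₂
    · rw [Complex.exp_add, he₁, he₂, ← mul_inv, ← LinearMap.det_prodMap]
      congr 1
      set e := Submodule.prodEquivOfIsCompl _ _ hc
      rw [← LinearMap.det_conj _ e]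
      congr 1
      refine LinearMap.ext fun y => ?_
      obtain ⟨z, rfl⟩ := e.surjective y
      simp only [LinearMap.coe_comp, Function.comp_apply, LinearEquiv.coe_coe,
        LinearEquiv.symm_apply_apply, LinearMap.prodMap_apply]
      simp [e, map_add]
      rw [show (U₁.toRepresentation g z.1 : W) = σ g z.1 from rfl,
        show (U₂.toRepresentation g z.2 : W) = σ g z.2 from rfl]

variable {K L : Type*} [Field K] [NumberField K] [Field L] [NumberField L] [Algebra K L]
  [IsGalois K L] {V : Type*} [AddCommGroup V] [Module ℂ V] [FiniteDimensional ℂ V]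
  (ρ : Representation ℂ (L ≃ₐ[K] L) V)

/-- The invariants of inertia. -/
def inertiaInvariants (Q : Ideal (𝓞 L)) : Submodule ℂ V :=
  Representation.invariants (ρ.comp (Q.inertia (L ≃ₐ[K] L)).subtype)

theorem conj_mem_inertia {Q : Ideal (𝓞 L)} {g τ : L ≃ₐ[K] L}
    (hg : g ∈ MulAction.stabilizer (L ≃ₐ[K] L) Q) (hτ : τ ∈ Q.inertia (L ≃ₐ[K] L)) :
    g⁻¹ * τ * g ∈ Q.inertia (L ≃ₐ[K] L) := fun x => by
  have h : τ • g • x - g • x ∈ Q := hτ (g • x)
  rw [← Ideal.smul_mem_pointwise_smul_iff (a := g⁻¹), smul_sub, inv_smul_smul,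
    MulAction.mem_stabilizer_iff.1 (inv_mem hg)] at h
  show (g⁻¹ * τ * g) • x - x ∈ Q
  rwa [mul_smul, mul_smul]

theorem mem_inertiaInvariants_of_stabilizer {Q : Ideal (𝓞 L)} {g : L ≃ₐ[K] L}
    (hg : g ∈ MulAction.stabilizer (L ≃ₐ[K] L) Q) {v : V} (hv : v ∈ inertiaInvariants ρ Q) :
    ρ g v ∈ inertiaInvariants ρ Q := by
  rintro ⟨τ, hτ⟩
  show ρ τ (ρ g v) = ρ g v
  rw [← Module.End.mul_apply, ← map_mul, show τ * g = g * (g⁻¹ * τ * g) by group, map_mul,
    Module.End.mul_apply]
  exact congrArg _ (hv ⟨_, conj_mem_inertia hg hτ⟩)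

variable {Q : Ideal (𝓞 L)} [Q.IsMaximal] {φ : L ≃ₐ[K] L}

/-- Frobenius on the invariants of inertia. -/
def frobOn (hφ : IsArithFrobAt (𝓞 K) φ Q) : Module.End ℂ (inertiaInvariants ρ Q) :=
  (ρ φ).restrict fun _ hv => mem_inertiaInvariants_of_stabilizer ρ
    (IsArithFrobAt.mem_stabilizer hφ) hv

theorem isFrobPow_pow (hφ : IsArithFrobAt (𝓞 K) φ Q) (j : ℕ) : IsFrobPow K Q j (φ ^ j) := by
  induction j with
  | zero => exact fun x => by simp
  | succ j ih =>
    intro x
    have h1 : φ • φ ^ j • x - (φ ^ j • x) ^ resCard K Q ∈ Q := hφ (φ ^ j • x)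
    have h2 : (φ ^ j • x) ^ resCard K Q - (x ^ resCard K Q ^ j) ^ resCard K Q ∈ Q :=
      Q.mem_of_dvd (sub_dvd_pow_sub_pow _ _ _) (ih x)
    rw [pow_succ' φ, mul_smul, pow_succ, pow_mul]
    simpa only [sub_add_sub_cancel] using Q.add_mem h1 h2

variable {v : HeightOneSpectrum (𝓞 K)}

open scoped Classical in
/-- The coefficients of a character are traces on the invariants of inertia. -/
theorem coef_character (hQ : Q.under (𝓞 K) = v.asIdeal) (hφ : IsArithFrobAt (𝓞 K) φ Q) (j : ℕ) :
    coef ρ.character v j = LinearMap.trace ℂ _ (frobOn ρ hφ ^ j) := by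
  rw [coef_eq (fun g x => ρ.char_conj x g) hQ, localMean]
  set I := Q.inertia (L ≃ₐ[K] L)
  set N : ℂ := (Nat.card I : ℂ)
  have hN : N ≠ 0 := Nat.cast_ne_zero.2 Nat.card_pos.ne'
  set f : Module.End ℂ V := (N⁻¹ • ∑ τ : I, ρ τ) * ρ (φ ^ j)
  have hsum : N⁻¹ * ∑ σ ∈ univ.filter (fun σ => IsFrobPow K Q j σ), ρ.character σ =
      LinearMap.trace ℂ V f := by
    simp only [f, smul_mul_assoc, sum_mul, map_smul, map_sum, smul_eq_mul, ← map_mul]
    congr 1
    refine sum_bij' (fun σ hσ => ⟨σ * (φ ^ j)⁻¹,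
      (mul_inv_mem_inertia_iff K (isFrobPow_pow hφ j)).2 (mem_filter.1 hσ).2⟩)
      (fun τ _ => (τ : L ≃ₐ[K] L) * φ ^ j) (fun σ _ => mem_univ _) (fun τ _ => ?_)
      (fun σ _ => inv_mul_cancel_right _ _) (fun τ _ => Subtype.ext (mul_inv_cancel_right _ _))
      fun σ _ => ?_
    · refine mem_filter.2 ⟨mem_univ _,
        (mul_inv_mem_inertia_iff K (isFrobPow_pow hφ j)).1 ?_⟩
      rw [mul_inv_cancel_right]
      exact τ.2
    · show ρ.character σ = LinearMap.trace ℂ V (ρ (σ * (φ ^ j)⁻¹ * φ ^ j))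
      rw [inv_mul_cancel_right]
      rfl
  rw [hsum]
  have hf : ∀ x, f x ∈ inertiaInvariants ρ Q := fun x a => by
    show ρ a (N⁻¹ • (∑ τ : I, ρ τ) (ρ (φ ^ j) x)) = N⁻¹ • (∑ τ : I, ρ τ) (ρ (φ ^ j) x)
    rw [map_smul, LinearMap.sum_apply, map_sum]
    congr 1
    refine Fintype.sum_equiv (Equiv.mulLeft a) _ _ fun τ => ?_
    rw [← Module.End.mul_apply, ← map_mul]
    rfl
  rw [← LinearMap.trace_restrict_eq_of_forall_mem _ f hf]
  congr 1
  refine LinearMap.ext fun x => Subtype.ext ?_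
  have hpow : ∀ k : ℕ, ((frobOn ρ hφ ^ k) x : V) = ρ (φ ^ k) x := fun k => by
    induction k with
    | zero => simp
    | succ k ihk =>
      rw [pow_succ', Module.End.mul_apply, pow_succ', map_mul, Module.End.mul_apply, ← ihk]
      rfl
  rw [hpow]
  show N⁻¹ • (∑ τ : I, ρ τ) (ρ (φ ^ j) x) = _
  have hfix : ∀ τ : I, ρ (τ : L ≃ₐ[K] L) (ρ (φ ^ j) (x : V)) = ρ (φ ^ j) x := fun τ =>
    (mem_inertiaInvariants_of_stabilizer ρ
      (pow_mem (IsArithFrobAt.mem_stabilizer hφ) j) x.2) τ
  simp only [LinearMap.sum_apply, hfix]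
  rw [sum_const, card_univ,
    ← Nat.card_eq_fintype_card, ← Nat.cast_smul_eq_nsmul ℂ, smul_smul,
    inv_mul_cancel₀ hN, one_smul]

variable {s : ℂ} (hs : 1 < s.re)

include hs in
/-- **The Euler factor.** -/
theorem exp_tsum_term (hQ : Q.under (𝓞 K) = v.asIdeal) (hφ : IsArithFrobAt (𝓞 K) φ Q) :
    Complex.exp (∑' j, term ρ.character s (v, j)) =
      (LinearMap.det (1 - ((Ideal.absNorm v.asIdeal : ℕ) : ℂ) ^ (-s) • frobOn ρ hφ))⁻¹ := by
  classical
  set Z := Subgroup.zpowers φ
  have hZ : Z ≤ MulAction.stabilizer (L ≃ₐ[K] L) Q :=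
    Subgroup.zpowers_le.2 (IsArithFrobAt.mem_stabilizer hφ)
  letI : CommGroup Z := { (inferInstance : Group Z) with mul_comm := fun a b => mul_comm' a b }
  set W : Subrepresentation (ρ.comp Z.subtype) :=
    ⟨inertiaInvariants ρ Q, fun g v hv => mem_inertiaInvariants_of_stabilizer ρ (hZ g.2) hv⟩
  set z := ((Ideal.absNorm v.asIdeal : ℕ) : ℂ) ^ (-s)
  have hz : ‖z‖ < 1 := by
    obtain ⟨h1, h2⟩ := norm_norm_cpow hs v
    rw [h1]; linarith
  obtain ⟨ℓ, hsum, hexp⟩ := exists_log_det W.toRepresentation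
    (⟨φ, Subgroup.mem_zpowers φ⟩ : Z) hz
  have hfr : W.toRepresentation ⟨φ, Subgroup.mem_zpowers φ⟩ = frobOn ρ hφ :=
    LinearMap.ext fun x => Subtype.ext rfl
  rw [hfr] at hexp
  rw [← hexp]
  congr 1
  refine Eq.trans (tsum_congr fun j => ?_) hsum.tsum_eq
  simp only [term, coef_character ρ hQ hφ, Representation.character, map_pow, hfr]
  rfl

end FA.ArtinL

end
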