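import Fermat.Agent.Root.SummaryPerlis
import Mathlib.NumberTheory.NumberField.DedekindZeta

/-!
# Invariants of Gassmann equivalent subfields

In a finite Galois extension `L` of `ℚ` the number of `σ` with `σ g σ⁻¹` in the group of a subfield
depends only on the Gassmann class, and it gives the real places, the normal closure and the roots
of unity of the subfield.
-/

set_option autoImplicit false
set_option linter.style.haveILetI false
set_option linter.unusedSectionVars false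

noncomputable section

open NumberField IsDedekindDomain Module Filter Topology
open scoped Classical

namespace FA.ArtinL

/-- Gassmann equivalent subgroups have the same counts of conjugates. -/
theorem card_conj_mem_eq {G : Type*} [Group G] [Fintype G] {H H' : Subgroup G}
    (hcard : Nat.card H = Nat.card H')
    (h : ∀ g, Nat.card {x : H // IsConj g (x : G)} = Nat.card {x : H' // IsConj g (x : G)})
    (g : G) : Nat.card {σ : G // σ * g * σ⁻¹ ∈ H} = Nat.card {σ : G // σ * g * σ⁻¹ ∈ H'} := by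
  have hne : (Nat.card H' : ℂ)⁻¹ ≠ 0 := inv_ne_zero (Nat.cast_ne_zero.2 Nat.card_pos.ne')
  have he : FA.CharacterTheory.induced H (fun _ => (1 : ℂ)) g =
      FA.CharacterTheory.induced H' (fun _ => (1 : ℂ)) g := by
    rw [induced_one_eq, induced_one_eq, h g, hcard]
  rw [FA.CharacterTheory.induced, FA.CharacterTheory.induced, hcard] at he
  have := mul_left_cancel₀ hne he
  simp only [dite_eq_ite, Finset.sum_boole] at this
  rw [Nat.card_eq_fintype_card, Nat.card_eq_fintype_card, Fintype.card_subtype,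
    Fintype.card_subtype]
  exact_mod_cast this

variable {L : Type*} [Field L] [NumberField L] [IsGalois ℚ L]
variable {F : Type*} [Field F] [NumberField F]

theorem mem_fixingSubgroup_range (ι : F →ₐ[ℚ] L) (σ : L ≃ₐ[ℚ] L) :
    σ ∈ ι.fieldRange.fixingSubgroup ↔ ∀ x, σ (ι x) = ι x := by
  rw [IntermediateField.mem_fixingSubgroup_iff]
  exact ⟨fun h x => h _ ⟨x, rfl⟩, fun h y hy => by obtain ⟨x, rfl⟩ := hy; exact h x⟩

theorem index_fixingSubgroup_range (ι : F →ₐ[ℚ] L) :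
    ι.fieldRange.fixingSubgroup.index = finrank ℚ F := by
  have h1 := ι.fieldRange.fixingSubgroup.card_mul_index
  rw [IsGalois.card_fixingSubgroup_eq_finrank, IsGalois.card_aut_eq_finrank,
    ← Module.finrank_mul_finrank ℚ ι.fieldRange L, mul_comm] at h1
  exact (Nat.eq_of_mul_eq_mul_right Module.finrank_pos h1).trans
    (AlgEquiv.ofInjectiveField ι).toLinearEquiv.finrank_eq.symm

section embeddings

variable {Ω : Type*} [Field Ω] [IsAlgClosed Ω] [Algebra ℚ Ω]

theorem comp_eq_iff (j : L →ₐ[ℚ] Ω) (ι : F →ₐ[ℚ] L) (σ σ' : L ≃ₐ[ℚ] L) :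
    j.comp ((σ : L →ₐ[ℚ] L).comp ι) = j.comp ((σ' : L →ₐ[ℚ] L).comp ι) ↔
      σ⁻¹ * σ' ∈ ι.fieldRange.fixingSubgroup := by
  rw [mem_fixingSubgroup_range, AlgHom.ext_iff]
  refine forall_congr' fun x => ⟨fun h => ?_, fun h => ?_⟩
  · rw [AlgEquiv.mul_apply, ← show σ (ι x) = σ' (ι x) from j.injective h]
    exact σ.symm_apply_apply _
  · change j (σ (ι x)) = j (σ' (ι x))
    conv_lhs => rw [← h, AlgEquiv.mul_apply]
    exact congrArg j (σ.apply_symm_apply _)

/-- The embeddings as cosets. -/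
def cosetEmb (j : L →ₐ[ℚ] Ω) (ι : F →ₐ[ℚ] L) :
    (L ≃ₐ[ℚ] L) ⧸ ι.fieldRange.fixingSubgroup → (F →ₐ[ℚ] Ω) :=
  Quotient.lift (fun σ : L ≃ₐ[ℚ] L => j.comp ((σ : L →ₐ[ℚ] L).comp ι)) fun σ σ' h =>
    (comp_eq_iff j ι σ σ').2 (QuotientGroup.leftRel_apply.1 h)

theorem cosetEmb_mk (j : L →ₐ[ℚ] Ω) (ι : F →ₐ[ℚ] L) (σ : L ≃ₐ[ℚ] L) :
    cosetEmb j ι (QuotientGroup.mk σ) = j.comp ((σ : L →ₐ[ℚ] L).comp ι) := rfl

theorem cosetEmb_bijective (j : L →ₐ[ℚ] Ω) (ι : F →ₐ[ℚ] L) :
    Function.Bijective (cosetEmb j ι) := by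
  rw [Fintype.bijective_iff_injective_and_card]
  refine ⟨?_, ?_⟩
  · rintro a b
    induction a using QuotientGroup.induction_on with | _ σ => ?_
    induction b using QuotientGroup.induction_on with | _ σ' => ?_
    intro h
    exact QuotientGroup.eq.2 ((comp_eq_iff j ι σ σ').1 h)
  · rw [AlgHom.card, ← Nat.card_eq_fintype_card, ← Subgroup.index,
      index_fixingSubgroup_range]

/-- Every embedding extends. -/
theorem exists_comp (j : L →ₐ[ℚ] Ω) (ι : F →ₐ[ℚ] L) (φ : F →ₐ[ℚ] Ω) :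
    ∃ σ : L ≃ₐ[ℚ] L, j.comp ((σ : L →ₐ[ℚ] L).comp ι) = φ := by
  obtain ⟨a, rfl⟩ := (cosetEmb_bijective j ι).surjective φ
  induction a using QuotientGroup.induction_on with | _ σ => ?_
  exact ⟨σ, rfl⟩

end embeddings

variable {F' : Type*} [Field F'] [NumberField F']

/-- The hypothesis in the form used below. -/
theorem card_conj_mem_eq_of_zeta (ι : F →ₐ[ℚ] L) (ι' : F' →ₐ[ℚ] L)
    (h : ∀ s : ℂ, 1 < s.re → dedekindZeta F s = dedekindZeta F' s) (g : L ≃ₐ[ℚ] L) :
    Nat.card {σ : L ≃ₐ[ℚ] L // σ * g * σ⁻¹ ∈ ι.fieldRange.fixingSubgroup} =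
      Nat.card {σ : L ≃ₐ[ℚ] L // σ * g * σ⁻¹ ∈ ι'.fieldRange.fixingSubgroup} :=
  card_conj_mem_eq (FA.Summary.card_fixingSubgroup_eq_of_zeta_eq F F' h L ι ι')
    (FA.Summary.gassmann_of_zeta_eq F F' h L ι ι') g

/-- The conjugation of `ℂ` is an automorphism of `L`. -/
theorem exists_complexConj (j : L →ₐ[ℚ] ℂ) :
    ∃ c : L ≃ₐ[ℚ] L, ∀ x, j (c x) = (starRingEnd ℂ) (j x) := by
  obtain ⟨c, hc⟩ := exists_comp j (AlgHom.id ℚ L)
    (((starRingEnd ℂ).toRatAlgHom).comp j)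
  exact ⟨c, fun x => DFunLike.congr_fun hc x⟩

/-- **The real places** are counted by the conjugates of complex conjugation in the group. -/
theorem nrRealPlaces_mul_card (j : L →ₐ[ℚ] ℂ) {c : L ≃ₐ[ℚ] L}
    (hc : ∀ x, j (c x) = (starRingEnd ℂ) (j x)) (ι : F →ₐ[ℚ] L) :
    InfinitePlace.nrRealPlaces F * Nat.card ι.fieldRange.fixingSubgroup =
      Nat.card {σ : L ≃ₐ[ℚ] L // σ * c * σ⁻¹ ∈ ι.fieldRange.fixingSubgroup} := by
  have hreal : ∀ σ : L ≃ₐ[ℚ] L, ComplexEmbedding.IsReal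
      (cosetEmb j ι (QuotientGroup.mk σ)).toRingHom ↔
        σ⁻¹ * c * σ ∈ ι.fieldRange.fixingSubgroup := fun σ => by
    rw [ComplexEmbedding.isReal_iff, mem_fixingSubgroup_range, RingHom.ext_iff]
    refine forall_congr' fun x => ?_
    rw [cosetEmb_mk, ComplexEmbedding.conjugate_coe_eq]
    change (starRingEnd ℂ) (j (σ (ι x))) = j (σ (ι x)) ↔ σ.symm (c (σ (ι x))) = ι x
    rw [← hc, (show Function.Injective j from j.injective).eq_iff, AlgEquiv.symm_apply_eq]
  set P : Set ((L ≃ₐ[ℚ] L) ⧸ ι.fieldRange.fixingSubgroup) :=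
    {a | ComplexEmbedding.IsReal (cosetEmb j ι a).toRingHom}
  have hP : Nat.card P = InfinitePlace.nrRealPlaces F := by
    rw [← InfinitePlace.card_real_embeddings, ← Nat.card_eq_fintype_card]
    exact Nat.card_congr (((Equiv.ofBijective _ (cosetEmb_bijective j ι)).trans
      (RingHom.equivRatAlgHom F ℂ).symm).subtypeEquiv fun _ => Iff.rfl)
  rw [← hP, mul_comm, ← Nat.card_prod, ← Nat.card_congr
    (QuotientGroup.preimageMkEquivSubgroupProdSet ι.fieldRange.fixingSubgroup P)]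
  exact Nat.card_congr ((Equiv.inv (L ≃ₐ[ℚ] L)).subtypeEquiv fun σ => by
    rw [Set.mem_preimage, Set.mem_ofPred_eq, hreal, Equiv.inv_apply, inv_inv])

/-- **Equal zeta functions, equal signature.** -/
theorem nrRealPlaces_eq (ι : F →ₐ[ℚ] L) (ι' : F' →ₐ[ℚ] L)
    (h : ∀ s : ℂ, 1 < s.re → dedekindZeta F s = dedekindZeta F' s) :
    InfinitePlace.nrRealPlaces F = InfinitePlace.nrRealPlaces F' := by
  let j : L →ₐ[ℚ] ℂ := IsAlgClosed.lift
  obtain ⟨c, hc⟩ := exists_complexConj j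
  have h1 := nrRealPlaces_mul_card j hc ι
  rw [card_conj_mem_eq_of_zeta ι ι' h c, ← nrRealPlaces_mul_card j hc ι',
    ← FA.Summary.card_fixingSubgroup_eq_of_zeta_eq F F' h L ι ι'] at h1
  exact Nat.eq_of_mul_eq_mul_right Nat.card_pos h1

/-- The automorphisms that fix the normal closure. -/
theorem mem_fixingSubgroup_normalClosure (ι : F →ₐ[ℚ] L) (g : L ≃ₐ[ℚ] L) :
    g ∈ (IntermediateField.normalClosure ℚ F L).fixingSubgroup ↔
      Nat.card {σ : L ≃ₐ[ℚ] L // σ * g * σ⁻¹ ∈ ι.fieldRange.fixingSubgroup} =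
        Nat.card (L ≃ₐ[ℚ] L) := by
  trans ∀ σ : L ≃ₐ[ℚ] L, σ * g * σ⁻¹ ∈ ι.fieldRange.fixingSubgroup
  · rw [← Subgroup.zpowers_le, ← IntermediateField.le_iff_le,
      normalClosure_le_iff]
    have hfix : ∀ f : F →ₐ[ℚ] L,
        f.fieldRange ≤ IntermediateField.fixedField (Subgroup.zpowers g) ↔
          ∀ x, g (f x) = f x := fun f => by
      rw [IntermediateField.le_iff_le, Subgroup.zpowers_le, mem_fixingSubgroup_range]
    simp only [hfix, mem_fixingSubgroup_range]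
    constructor
    · intro h σ x
      have := h (((σ⁻¹ : L ≃ₐ[ℚ] L) : L →ₐ[ℚ] L).comp ι) x
      rw [AlgEquiv.mul_apply, AlgEquiv.mul_apply]
      change σ (g ((σ⁻¹ : L ≃ₐ[ℚ] L) (ι x))) = _
      exact (congrArg σ this).trans (σ.apply_symm_apply _)
    · intro h f x
      let j : L →ₐ[ℚ] ℂ := IsAlgClosed.lift
      obtain ⟨σ, hσ⟩ := exists_comp j ι (j.comp f)
      have hf : f x = σ (ι x) := j.injective (DFunLike.congr_fun hσ x).symm
      have := h σ⁻¹ x
      rw [inv_inv, AlgEquiv.mul_apply, AlgEquiv.mul_apply] at this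
      rw [hf]
      exact σ.symm_apply_eq.1 this
  · rw [Nat.card_eq_fintype_card, Nat.card_eq_fintype_card, Fintype.card_subtype,
      ← Finset.card_univ, Finset.card_filter_eq_iff]
    simp

/-- **Equal zeta functions, equal normal closure.** -/
theorem normalClosure_eq (ι : F →ₐ[ℚ] L) (ι' : F' →ₐ[ℚ] L)
    (h : ∀ s : ℂ, 1 < s.re → dedekindZeta F s = dedekindZeta F' s) :
    IntermediateField.normalClosure ℚ F L = IntermediateField.normalClosure ℚ F' L := by
  rw [← IsGalois.fixedField_fixingSubgroup (IntermediateField.normalClosure ℚ F L),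
    ← IsGalois.fixedField_fixingSubgroup (IntermediateField.normalClosure ℚ F' L)]
  congr 1
  ext g
  rw [mem_fixingSubgroup_normalClosure ι, mem_fixingSubgroup_normalClosure ι',
    card_conj_mem_eq_of_zeta ι ι' h g]

/-- **Equal zeta functions, the same roots of unity.** -/
theorem mem_range_of_isOfFinOrder (ι : F →ₐ[ℚ] L) (ι' : F' →ₐ[ℚ] L)
    (h : ∀ s : ℂ, 1 < s.re → dedekindZeta F s = dedekindZeta F' s) {ξ : L}
    (hξ : IsOfFinOrder ξ) (hmem : ξ ∈ ι.fieldRange) : ξ ∈ ι'.fieldRange := by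
  rw [← IsGalois.fixedField_fixingSubgroup ι'.fieldRange, IntermediateField.mem_fixedField_iff]
  intro g hg
  have hpos : 0 < Nat.card {σ : L ≃ₐ[ℚ] L // σ * g * σ⁻¹ ∈ ι'.fieldRange.fixingSubgroup} := by
    haveI : Nonempty {σ : L ≃ₐ[ℚ] L // σ * g * σ⁻¹ ∈ ι'.fieldRange.fixingSubgroup} :=
      ⟨⟨1, by simpa using hg⟩⟩
    exact Nat.card_pos
  rw [← card_conj_mem_eq_of_zeta ι ι' h g] at hpos
  obtain ⟨⟨σ, hσ⟩⟩ := (Nat.card_pos_iff.1 hpos).1
  have hroot : IsPrimitiveRoot ξ (orderOf ξ) := IsPrimitiveRoot.orderOf ξ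
  haveI : NeZero (orderOf ξ) := ⟨(orderOf_pos_iff.2 hξ).ne'⟩
  obtain ⟨l, -, hl⟩ := hroot.eq_pow_of_pow_eq_one
    (show (σ ξ) ^ orderOf ξ = 1 by rw [← map_pow, pow_orderOf_eq_one, map_one])
  obtain ⟨k, -, hk⟩ := hroot.eq_pow_of_pow_eq_one
    (show (σ.symm ξ) ^ orderOf ξ = 1 by rw [← map_pow, pow_orderOf_eq_one, map_one])
  have h1 : g (σ.symm ξ) = σ.symm ξ := by
    have := (IntermediateField.mem_fixingSubgroup_iff _ _).1 hσ ξ hmem
    rw [AlgEquiv.mul_apply, AlgEquiv.mul_apply] at this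
    exact σ.eq_symm_apply.2 this
  have h2 : ξ = (σ.symm ξ) ^ l := by
    conv_lhs => rw [← σ.symm_apply_apply ξ, ← hl, map_pow]
  rw [h2, map_pow, h1]

/-- The order of the torsion as a count of elements. -/
theorem torsionOrder_eq_card (K : Type*) [Field K] [NumberField K] :
    Units.torsionOrder K = Nat.card {x : K // IsOfFinOrder x} := by
  refine Nat.card_eq_of_bijective
    (fun u => ⟨((u.1 : 𝓞 K) : K), ((algebraMap (𝓞 K) K).toMonoidHom.comp
      (_root_.Units.coeHom (𝓞 K))).isOfFinOrder ((CommGroup.mem_torsion _).1 u.2)⟩)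
    ⟨fun a b h => by
      have h' := congrArg Subtype.val h
      exact Subtype.ext (_root_.Units.ext (RingOfIntegers.ext h')), fun x => ?_⟩
  obtain ⟨n, hn, hxn⟩ := isOfFinOrder_iff_pow_eq_one.1 x.2
  have hint : IsIntegral ℤ (x : K) :=
    IsIntegral.of_pow hn (by rw [hxn]; exact isIntegral_one)
  have hpow : (⟨(x : K), hint⟩ : 𝓞 K) ^ n = 1 := RingOfIntegers.ext hxn
  refine ⟨⟨(IsUnit.of_pow_eq_one hpow hn.ne').unit, (CommGroup.mem_torsion _).2
    (isOfFinOrder_iff_pow_eq_one.2 ⟨n, hn, _root_.Units.ext hpow⟩)⟩, Subtype.ext rfl⟩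

theorem card_isOfFinOrder_range (ι : F →ₐ[ℚ] L) :
    Nat.card {x : F // IsOfFinOrder x} =
      Nat.card {ξ : L // IsOfFinOrder ξ ∧ ξ ∈ ι.fieldRange} := by
  refine Nat.card_eq_of_bijective
    (fun x => ⟨ι x.1, ι.toMonoidHom.isOfFinOrder x.2, x.1, rfl⟩)
    ⟨fun a b h => Subtype.ext (ι.injective (congrArg Subtype.val h)), ?_⟩
  rintro ⟨ξ, hξ, x, rfl⟩
  exact ⟨⟨x, (Function.Injective.isOfFinOrder_iff (f := ι.toMonoidHom) ι.injective).1 hξ⟩, rfl⟩

/-- **Equal zeta functions, as many roots of unity.** -/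
theorem torsionOrder_eq (ι : F →ₐ[ℚ] L) (ι' : F' →ₐ[ℚ] L)
    (h : ∀ s : ℂ, 1 < s.re → dedekindZeta F s = dedekindZeta F' s) :
    Units.torsionOrder F = Units.torsionOrder F' := by
  rw [torsionOrder_eq_card, torsionOrder_eq_card, card_isOfFinOrder_range ι,
    card_isOfFinOrder_range ι']
  exact Nat.card_congr (Equiv.subtypeEquivRight fun ξ => and_congr_right fun hξ =>
    ⟨mem_range_of_isOfFinOrder ι ι' h hξ,
      mem_range_of_isOfFinOrder ι' ι (fun s hs => (h s hs).symm) hξ⟩)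

end FA.ArtinL

end
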