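import Mathlib.NumberTheory.NumberField.Ideal.Basic
import Mathlib.FieldTheory.Galois.IsGaloisGroup
import Mathlib.NumberTheory.RamificationInertia.Galois
import Mathlib.RingTheory.Frobenius
import Mathlib.FieldTheory.Finite.GaloisField
import Mathlib.FieldTheory.IntermediateField.Basic

/-!
# Powers of Frobenius at a prime of a Galois extension of number fields

`IsFrobPow K Q j σ` says that `σ` induces `x ↦ x ^ (q ^ j)` modulo `Q`, `q` the norm of the prime
below. These elements form a coset of the inertia group, ramified or not; in an intermediate field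
whose prime below `Q` has norm `q ^ f` they are those of exponent a multiple of `f`.
-/

set_option autoImplicit false
set_option linter.style.haveILetI false
set_option linter.unusedSectionVars false

noncomputable section

open NumberField Module
open scoped Pointwise

namespace FA.ArtinL

/-- The norm of the prime of `K` below `Q`. -/
def resCard (K : Type*) [Field K] {L : Type*} [Field L] [Algebra K L] (Q : Ideal (𝓞 L)) : ℕ :=
  Nat.card (𝓞 K ⧸ Q.under (𝓞 K))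

variable (K : Type*) [Field K] {L : Type*} [Field L] [Algebra K L]

/-- `σ` is the `j`-th power of Frobenius modulo `Q`. -/
def IsFrobPow (Q : Ideal (𝓞 L)) (j : ℕ) (σ : L ≃ₐ[K] L) : Prop :=
  ∀ x : 𝓞 L, σ • x - x ^ (resCard K Q ^ j) ∈ Q

theorem mul_inv_mem_inertia_iff {Q : Ideal (𝓞 L)} {j : ℕ} {σ₀ σ : L ≃ₐ[K] L}
    (h₀ : IsFrobPow K Q j σ₀) : σ * σ₀⁻¹ ∈ Q.inertia (L ≃ₐ[K] L) ↔ IsFrobPow K Q j σ := by
  refine ⟨fun h x => ?_, fun h y => ?_⟩
  · have h1 : (σ * σ₀⁻¹) • σ₀ • x - σ₀ • x ∈ Q := h (σ₀ • x)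
    rw [mul_smul, inv_smul_smul] at h1
    simpa only [sub_add_sub_cancel] using Q.add_mem h1 (h₀ x)
  · have h1 := Q.sub_mem (h (σ₀⁻¹ • y)) (h₀ (σ₀⁻¹ • y))
    rw [sub_sub_sub_cancel_right, smul_inv_smul] at h1
    show (σ * σ₀⁻¹) • y - y ∈ Q
    rwa [mul_smul]

theorem smul_algebraMap_eq (g : L ≃ₐ[K] L) (y : 𝓞 K) :
    g • algebraMap (𝓞 K) (𝓞 L) y = algebraMap (𝓞 K) (𝓞 L) y :=
  RingOfIntegers.ext (g.commutes (y : K))

theorem under_smul (g : L ≃ₐ[K] L) (Q : Ideal (𝓞 L)) : (g • Q).under (𝓞 K) = Q.under (𝓞 K) := by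
  ext y
  rw [Ideal.mem_comap, Ideal.mem_comap, Ideal.mem_pointwise_smul_iff_inv_smul_mem,
    smul_algebraMap_eq]

theorem resCard_smul (g : L ≃ₐ[K] L) (Q : Ideal (𝓞 L)) : resCard K (g • Q) = resCard K Q := by
  rw [resCard, resCard, under_smul]

theorem isFrobPow_conj {Q : Ideal (𝓞 L)} {j : ℕ} (g σ : L ≃ₐ[K] L) :
    IsFrobPow K (g • Q) j (g * σ * g⁻¹) ↔ IsFrobPow K Q j σ := by
  constructor <;> intro h x
  · have h1 := h (g • x)
    rw [resCard_smul, mul_smul, mul_smul, inv_smul_smul, ← smul_pow', ← smul_sub,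
      Ideal.smul_mem_pointwise_smul_iff] at h1
    exact h1
  · rw [resCard_smul, Ideal.mem_pointwise_smul_iff_inv_smul_mem, smul_sub, smul_pow', mul_smul,
      mul_smul, inv_smul_smul]
    exact h (g⁻¹ • x)

variable [NumberField K] [NumberField L] (Q : Ideal (𝓞 L)) [Q.IsMaximal]

theorem isMaximal_under : (Q.under (𝓞 K)).IsMaximal :=
  Ideal.IsMaximal.under (𝓞 K) Q

theorem one_lt_resCard : 1 < resCard K Q := by
  haveI := isMaximal_under K Q
  exact Finite.one_lt_card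

/-- The norm of a prime is a power of that of the prime below. -/
theorem exists_card_eq_pow {M : Type*} [Field M] [NumberField M] [Algebra K M] (P : Ideal (𝓞 M))
    [P.IsMaximal] :
    ∃ f : ℕ, f ≠ 0 ∧ Nat.card (𝓞 M ⧸ P) = Nat.card (𝓞 K ⧸ P.under (𝓞 K)) ^ f := by
  haveI : (P.under (𝓞 K)).IsMaximal := Ideal.IsMaximal.under (𝓞 K) P
  letI := Ideal.Quotient.field (P.under (𝓞 K))
  haveI : Module.Finite (𝓞 K ⧸ P.under (𝓞 K)) (𝓞 M ⧸ P) := Module.Finite.of_finite
  refine ⟨finrank (𝓞 K ⧸ P.under (𝓞 K)) (𝓞 M ⧸ P), fun h => ?_,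
    Module.natCard_eq_pow_finrank (K := 𝓞 K ⧸ P.under (𝓞 K)) (V := 𝓞 M ⧸ P)⟩
  have h1 := Module.natCard_eq_pow_finrank (K := 𝓞 K ⧸ P.under (𝓞 K)) (V := 𝓞 M ⧸ P)
  rw [h, pow_zero] at h1
  exact (Finite.one_lt_card (α := 𝓞 M ⧸ P)).ne' h1

variable [IsGalois K L]

/-- There is an element of every exponent. -/
theorem exists_isFrobPow (j : ℕ) : ∃ σ : L ≃ₐ[K] L, IsFrobPow K Q j σ := by
  induction j with
  | zero => exact ⟨1, fun x => by simp⟩
  | succ j ih =>
    obtain ⟨σ, hσ⟩ := ih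
    obtain ⟨φ, hφ⟩ := IsArithFrobAt.exists_of_isInvariant (𝓞 K) (L ≃ₐ[K] L) Q
    refine ⟨φ * σ, fun x => ?_⟩
    have h1 : φ • σ • x - (σ • x) ^ resCard K Q ∈ Q := hφ (σ • x)
    have h2 : (σ • x) ^ resCard K Q - (x ^ resCard K Q ^ j) ^ resCard K Q ∈ Q :=
      Q.mem_of_dvd (sub_dvd_pow_sub_pow _ _ _) (hσ x)
    rw [mul_smul, pow_succ, pow_mul]
    simpa only [sub_add_sub_cancel] using Q.add_mem h1 h2

open scoped Classical in
/-- They are as many as the inertia group. -/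
theorem card_isFrobPow (j : ℕ) :
    (Finset.univ.filter fun σ => IsFrobPow K Q j σ).card =
      Nat.card (Q.inertia (L ≃ₐ[K] L)) := by
  obtain ⟨σ₀, h₀⟩ := exists_isFrobPow K Q j
  rw [← Nat.card_eq_finsetCard]
  refine Nat.card_congr
    { toFun := fun σ => ⟨σ.1 * σ₀⁻¹,
        (mul_inv_mem_inertia_iff K h₀).2 (Finset.mem_filter.1 σ.2).2⟩
      invFun := fun τ => ⟨τ.1 * σ₀, Finset.mem_filter.2 ⟨Finset.mem_univ _,
        (mul_inv_mem_inertia_iff K h₀).1 (by rw [mul_inv_cancel_right]; exact τ.2)⟩⟩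
      left_inv := fun σ => by simp
      right_inv := fun τ => by simp }

/-- **The decomposition group**: `|D| = |I| F` for `|𝓞 L ⧸ Q| = q ^ F`. -/
theorem card_stabilizer_eq {F : ℕ} (hF : Nat.card (𝓞 L ⧸ Q) = resCard K Q ^ F) :
    Nat.card (MulAction.stabilizer (L ≃ₐ[K] L) Q) =
      Nat.card (Q.inertia (L ≃ₐ[K] L)) * F := by
  haveI := isMaximal_under K Q
  letI := Ideal.Quotient.field (Q.under (𝓞 K))
  letI := Ideal.Quotient.field Q
  haveI : Module.Finite (𝓞 K ⧸ Q.under (𝓞 K)) (𝓞 L ⧸ Q) := Module.Finite.of_finite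
  have h1 : F = finrank (𝓞 K ⧸ Q.under (𝓞 K)) (𝓞 L ⧸ Q) := by
    refine Nat.pow_right_injective (one_lt_resCard K Q) ?_
    show resCard K Q ^ F = resCard K Q ^ finrank (𝓞 K ⧸ Q.under (𝓞 K)) (𝓞 L ⧸ Q)
    rw [← hF, Module.natCard_eq_pow_finrank (K := 𝓞 K ⧸ Q.under (𝓞 K)) (V := 𝓞 L ⧸ Q)]
    rfl
  rw [h1, ← IsGalois.card_aut_eq_finrank, ← Nat.card_congr
    (Ideal.Quotient.stabilizerQuotientInertiaEquiv (L ≃ₐ[K] L) (Q.under (𝓞 K)) Q).toEquiv,
    ← Subgroup.index, show Q.inertia (MulAction.stabilizer (L ≃ₐ[K] L) Q) =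
      (Q.inertia (L ≃ₐ[K] L)).subgroupOf _ from rfl,
    ← Nat.card_congr (Subgroup.subgroupOfEquivOfLe
      (Ideal.inertia_le_stabilizer (M := L ≃ₐ[K] L) Q)).toEquiv, Subgroup.card_mul_index]

variable {M : Type*} [Field M] [NumberField M] [Algebra K M] [Algebra M L] [IsScalarTower K M L]

omit [IsGalois K L] [NumberField K] [NumberField L] [Q.IsMaximal] [NumberField M] in
/-- Powers of Frobenius over an intermediate field. -/
theorem isFrobPow_restrictScalars {f : ℕ} (hf : resCard M Q = resCard K Q ^ f) (i : ℕ)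
    (σ : L ≃ₐ[M] L) : IsFrobPow M Q i σ ↔ IsFrobPow K Q (f * i) (σ.restrictScalars K) := by
  have hs : ∀ x : 𝓞 L, σ.restrictScalars K • x = σ • x := fun x => rfl
  simp only [IsFrobPow, hs, hf, ← pow_mul]

omit [IsGalois K L] in
/-- An exponent of an element of the intermediate group is a multiple of `f`. -/
theorem dvd_of_isFrobPow {f : ℕ} (hf0 : f ≠ 0) (hf : resCard M Q = resCard K Q ^ f) {m : ℕ}
    {σ : L ≃ₐ[M] L} (h : IsFrobPow K Q m (σ.restrictScalars K)) : f ∣ m := by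
  classical
  set P := Q.under (𝓞 M)
  haveI : P.IsMaximal := isMaximal_under M Q
  letI := Ideal.Quotient.field P
  letI := Fintype.ofFinite (𝓞 M ⧸ P)
  set q := resCard K Q
  have hq : 1 < q := one_lt_resCard K Q
  have hcard : Fintype.card (𝓞 M ⧸ P) = q ^ f := by
    rw [← Nat.card_eq_fintype_card]; exact hf
  have hm : ∀ a : 𝓞 M ⧸ P, a ^ q ^ m = a := fun a => by
    obtain ⟨y, rfl⟩ := Ideal.Quotient.mk_surjective a
    rw [← map_pow, eq_comm, Ideal.Quotient.eq, Ideal.mem_comap, map_sub, map_pow]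
    have h1 := h (algebraMap (𝓞 M) (𝓞 L) y)
    rw [show σ.restrictScalars K • algebraMap (𝓞 M) (𝓞 L) y = algebraMap (𝓞 M) (𝓞 L) y from
      smul_algebraMap_eq M σ y] at h1
    exact h1
  refine Nat.dvd_of_mod_eq_zero (by_contra fun hr => ?_)
  have hper : ∀ (a : 𝓞 M ⧸ P) (c r : ℕ), a ^ q ^ (f * c + r) = a ^ q ^ r := fun a c r => by
    rw [pow_add, pow_mul a, pow_mul q, ← hcard, FiniteField.pow_card_pow]
  have hroot : ∀ a : 𝓞 M ⧸ P, a ^ q ^ (m % f) = a := fun a => by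
    rw [← hper a (m / f), Nat.div_add_mod]; exact hm a
  have hdeg : 1 < q ^ (m % f) := Nat.one_lt_pow hr hq
  have hsub : (Finset.univ : Finset (𝓞 M ⧸ P)) ⊆
      (Polynomial.X ^ q ^ (m % f) - Polynomial.X : Polynomial (𝓞 M ⧸ P)).roots.toFinset := by
    intro a _
    rw [Multiset.mem_toFinset, Polynomial.mem_roots (FiniteField.X_pow_card_sub_X_ne_zero _ hdeg)]
    simp [hroot a]
  have h1 : q ^ f ≤ q ^ (m % f) := by
    rw [← hcard, ← Finset.card_univ, ← FiniteField.X_pow_card_sub_X_natDegree_eq (𝓞 M ⧸ P) hdeg]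
    exact ((Finset.card_le_card hsub).trans (Multiset.toFinset_card_le _)).trans
      (Polynomial.card_roots' _)
  exact absurd h1 (not_le.2 (Nat.pow_lt_pow_right hq (Nat.mod_lt _ (Nat.pos_of_ne_zero hf0))))

end FA.ArtinL

end
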