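import Fermat.Agent.ArtinL.Determination

/-!
# Artin L-series as `s` tends to `1` from above

The logarithm of the L-series of a class function `χ` is `⟨χ, 1⟩ log (1 / (s - 1))` up to a smaller
amount: the terms of higher degree are bounded and the first degree sum is given by Chebotarev.
Nothing is claimed beyond this asymptotic on the real axis.
-/

set_option autoImplicit false
set_option linter.style.haveILetI false
set_option linter.unusedSectionVars false

noncomputable section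

open NumberField IsDedekindDomain Module Finset Filter Topology
open FA.Ext (zN zN_nonneg primeIdeal zN_primeIdeal zN_primeIdeal_le_half)
open scoped Classical

namespace FA.ArtinL

variable {K L : Type*} [Field K] [NumberField K] [Field L] [NumberField L] [Algebra K L]
  [IsGalois K L]

/-- The primes of `K` under a conjugate Frobenius. -/
def classSet (σ : L ≃ₐ[K] L) : Set (HeightOneSpectrum (𝓞 K)) :=
  {v | ∃ Q : Ideal (𝓞 L), Q.IsMaximal ∧ Q.under (𝓞 K) = v.asIdeal ∧
    ∃ τ ∈ {τ : L ≃ₐ[K] L | IsConj σ τ}, IsArithFrobAt (𝓞 K) τ Q}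

theorem hasDirichletDensity_classSet (σ : L ≃ₐ[K] L) :
    (classSet σ).HasDirichletDensity
      ((Nat.card {τ : L ≃ₐ[K] L | IsConj σ τ} : ℝ) / Nat.card (L ≃ₐ[K] L)) :=
  FA.Chebotarev.hasDirichletDensity_frobenius _ fun _ hg x =>
    IsConj.trans hg (isConj_iff.mpr ⟨x, rfl⟩)

/-- The weight of an element. -/
def weight (f : (L ≃ₐ[K] L) → ℂ) (σ : L ≃ₐ[K] L) : ℂ :=
  f σ / (Nat.card {τ : L ≃ₐ[K] L | IsConj σ τ} : ℂ)

theorem conjClass_ne_zero (σ : L ≃ₐ[K] L) :
    (Nat.card {τ : L ≃ₐ[K] L | IsConj σ τ} : ℂ) ≠ 0 := by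
  haveI : Nonempty {τ : L ≃ₐ[K] L | IsConj σ τ} := ⟨⟨σ, IsConj.refl σ⟩⟩
  exact Nat.cast_ne_zero.2 Nat.card_pos.ne'

/-- Outside a finite set the coefficient is the combination of the Frobenius sets. -/
theorem exists_finite_exceptions {f : (L ≃ₐ[K] L) → ℂ}
    (hf : ∀ g x, f (g * x * g⁻¹) = f x) :
    ∃ R : Finset (HeightOneSpectrum (𝓞 K)), ∀ v, v ∉ R →
      coef f v 1 = ∑ σ, if v ∈ classSet σ then weight f σ else 0 := by
  obtain ⟨m, hm0, hm⟩ := FA.Density.exists_unramified L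
  refine ⟨(FA.Chebotarev.finite_dvd (K := K) hm0).toFinset, fun v hv => ?_⟩
  rw [Set.Finite.mem_toFinset, Set.mem_ofPred_eq] at hv
  obtain ⟨q, hq, hqv⟩ := FA.Ext.exists_rat_prime_mem v
  have hqm : ¬ q ∣ m := fun hd => hv (FA.Chebotarev.absNorm_dvd_of_mem (by
    obtain ⟨c, rfl⟩ := hd
    rw [Nat.cast_mul]
    exact v.asIdeal.mul_mem_right _ hqv))
  have hinert : ∀ Q : Ideal (𝓞 L), Q.IsMaximal → Q.under (𝓞 K) = v.asIdeal →
      Q.inertia (L ≃ₐ[K] L) = ⊥ := fun Q hQ hQv => by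
    refine (Subgroup.eq_bot_iff_forall _).mpr fun ρ hρ => ?_
    have hqQ : (q : 𝓞 L) ∈ Q := by
      have h' := hqv
      rw [← hQv, Ideal.mem_comap, map_natCast] at h'
      exact h'
    exact AlgEquiv.restrictScalars_injective ℚ
      ((hm q _ hq hQ hqQ hqm (ρ.restrictScalars ℚ) hρ).trans rfl)
  obtain ⟨Q, hQ, hQv, τ, hτ⟩ := FA.Chebotarev.exists_isArithFrobAt (L := L) v
  haveI := hQ
  rw [coef_one_eq hf hQv (hinert Q hQ hQv) hτ]
  have hiff : ∀ σ, v ∈ classSet σ ↔ IsConj τ σ := fun σ => by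
    constructor
    · rintro ⟨Q', hQ', hQ'v, τ', hστ', hτ'⟩
      obtain ⟨h, hh⟩ := Algebra.IsInvariant.exists_smul_of_under_eq (𝓞 K) (𝓞 L) (L ≃ₐ[K] L)
        Q Q' (hQv.trans hQ'v.symm)
      have h1 := IsArithFrobAt.mul_inv_mem_inertia (R := 𝓞 K) (hh ▸ hτ.conj h) hτ'
      rw [hinert Q' hQ' hQ'v, Subgroup.mem_bot, mul_inv_eq_one] at h1
      exact (isConj_iff.2 ⟨h, h1⟩).trans (IsConj.symm hστ')
    · exact fun h => ⟨Q, hQ, hQv, τ, h.symm, hτ⟩
  simp only [hiff]
  rw [← sum_filter]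
  have hconst : ∀ σ ∈ univ.filter (fun σ => IsConj τ σ), weight f σ = weight f τ :=
    fun σ hσ => by
    obtain ⟨c, hc⟩ := isConj_iff.1 (mem_filter.1 hσ).2
    have hset : {t : L ≃ₐ[K] L | IsConj σ t} = {t | IsConj τ t} :=
      Set.ext fun t => ⟨fun h => (mem_filter.1 hσ).2.trans h,
        fun h => (mem_filter.1 hσ).2.symm.trans h⟩
    rw [weight, weight, hset, ← hc, hf]
  rw [sum_congr rfl hconst, sum_const, nsmul_eq_mul, weight,
    show #(univ.filter fun σ => IsConj τ σ) = Nat.card {t : L ≃ₐ[K] L | IsConj τ t} by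
      rw [Nat.card_eq_fintype_card, ← Set.toFinset_card, Set.toFinset_ofPred],
    mul_div_cancel₀ _ (conjClass_ne_zero τ)]

/-- The first degree term. -/
theorem term_zero_eq (f : (L ≃ₐ[K] L) → ℂ) (s : ℝ) (v : HeightOneSpectrum (𝓞 K)) :
    term f s (v, 0) = coef f v 1 * (zN s (primeIdeal v) : ℂ) := by
  rw [term, zN_primeIdeal, Complex.ofReal_cpow (Nat.cast_nonneg _)]
  simp

/-- The terms of higher degree are bounded. -/
theorem exists_higher_bound (f : (L ≃ₐ[K] L) → ℂ) : ∃ B : ℝ, ∀ s : ℝ, 1 < s →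
    ‖artinLog f s - ∑' v, term f s (v, 0)‖ ≤ B := by
  set C := ∑ σ, ‖f σ‖
  have hC : 0 ≤ C := sum_nonneg fun _ _ => norm_nonneg _
  have h1 : Summable fun v : HeightOneSpectrum (𝓞 K) => 2 * C * zN 2 (primeIdeal v) :=
    (FA.Chebotarev.summable_zN_primeIdeal one_lt_two).mul_left _
  have hb := h1.mul_of_nonneg summable_geometric_two
    (fun v => mul_nonneg (mul_nonneg zero_le_two hC) (zN_nonneg _ _))
    fun j => pow_nonneg (by norm_num) j
  refine ⟨∑' p : HeightOneSpectrum (𝓞 K) × ℕ,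
    2 * C * zN 2 (primeIdeal p.1) * (1 / 2 : ℝ) ^ p.2, fun s hs => ?_⟩
  have hs' : 1 < (s : ℂ).re := by simpa using hs
  set r : HeightOneSpectrum (𝓞 K) × ℕ → ℂ := fun p => if p.2 = 0 then 0 else term f s p with hr
  have hle : ∀ p, ‖r p‖ ≤ 2 * C * zN 2 (primeIdeal p.1) * (1 / 2 : ℝ) ^ p.2 := by
    rintro ⟨v, _ | j⟩
    · simp only [hr, if_pos, norm_zero]
      exact mul_nonneg (mul_nonneg (mul_nonneg zero_le_two hC) (zN_nonneg _ _)) (by norm_num)
    simp only [hr, Nat.succ_ne_zero, if_false]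
    obtain ⟨hz, hz2⟩ := norm_norm_cpow hs' v
    rw [Complex.ofReal_re] at hz hz2
    rw [term, norm_div, norm_mul, norm_pow, hz]
    refine (div_le_self (mul_nonneg (norm_nonneg _) (pow_nonneg (zN_nonneg _ _) _)) ?_).trans ?_
    · exact_mod_cast (Complex.norm_natCast (j + 1 + 1)).symm ▸ (by
        exact_mod_cast Nat.succ_pos (j + 1) : (1 : ℝ) ≤ ((j + 1 + 1 : ℕ) : ℝ))
    have h2 : zN s (primeIdeal v) ^ 2 ≤ zN 2 (primeIdeal v) := by
      rw [zN_primeIdeal, zN_primeIdeal, ← Real.rpow_natCast, ← Real.rpow_mul (Nat.cast_nonneg _)]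
      exact Real.rpow_le_rpow_of_exponent_le
        (by exact_mod_cast (FA.Ext.two_le_absNorm v).trans' one_le_two) (by push_cast; linarith)
    calc ‖coef f v (j + 1 + 1)‖ * zN s (primeIdeal v) ^ (j + 1 + 1)
        = ‖coef f v (j + 1 + 1)‖ * (zN s (primeIdeal v) ^ 2 * zN s (primeIdeal v) ^ j) := by ring
      _ ≤ C * (zN 2 (primeIdeal v) * (1 / 2 : ℝ) ^ j) :=
          mul_le_mul (norm_coef_le f v _) (mul_le_mul h2
            (pow_le_pow_left₀ (zN_nonneg _ _) hz2 _) (pow_nonneg (zN_nonneg _ _) _) (zN_nonneg _ _))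
            (mul_nonneg (pow_nonneg (zN_nonneg _ _) _) (pow_nonneg (zN_nonneg _ _) _)) hC
      _ = 2 * C * zN 2 (primeIdeal v) * (1 / 2 : ℝ) ^ (j + 1) := by ring
  have hrs : Summable r := Summable.of_norm_bounded hb hle
  have hsplit : artinLog f s - ∑' v, term f s (v, 0) = ∑' p, r p := by
    have h0 : ∑' v, term f s (v, 0) =
        ∑' p : HeightOneSpectrum (𝓞 K) × ℕ, if p.2 = 0 then term f s p else 0 := by
      rw [← Function.Injective.tsum_eq (g := fun v : HeightOneSpectrum (𝓞 K) => (v, 0))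
        (f := fun p : HeightOneSpectrum (𝓞 K) × ℕ => if p.2 = 0 then term f s p else 0)
        (fun a b h => (Prod.mk.inj h).1) fun p hp => by
          rw [Function.mem_support, ite_ne_right_iff] at hp
          exact ⟨p.1, Prod.ext rfl hp.1.symm⟩]
      simp
    have h0s : Summable fun p : HeightOneSpectrum (𝓞 K) × ℕ =>
        if p.2 = 0 then term f s p else 0 :=
      ((summable_term hs' f).sub hrs).congr fun p => by
        rw [hr]
        dsimp only
        split_ifs <;> simp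
    rw [h0, sub_eq_iff_eq_add, artinLog, ← hrs.tsum_add h0s]
    exact tsum_congr fun p => by rw [hr]; dsimp only; split_ifs <;> simp
  rw [hsplit]
  exact tsum_of_norm_bounded hb.hasSum hle

/-- The sum over all primes is asymptotic to the logarithm. -/
theorem tendsto_univ_div_log : Tendsto
    (fun s : ℝ => (Set.univ : Set (HeightOneSpectrum (𝓞 K))).primeIdealZetaSum s /
      Real.log (1 / (s - 1))) (𝓝[>] 1) (𝓝 1) := by
  obtain ⟨M, hM⟩ := FA.Chebotarev.exists_univ_bounds (K := K)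
  rw [tendsto_iff_norm_sub_tendsto_zero]
  refine squeeze_zero' (Eventually.of_forall fun _ => norm_nonneg _) ?_
    (FA.Chebotarev.tendsto_log_atTop.const_div_atTop M)
  filter_upwards [FA.Chebotarev.Ioc_one_two_mem,
    FA.Chebotarev.tendsto_log_atTop.eventually_gt_atTop 0] with s hs hpos
  rw [Real.norm_eq_abs, div_sub_one hpos.ne', abs_div, abs_of_pos hpos]
  exact div_le_div_of_nonneg_right (hM s hs) hpos.le

theorem tendsto_classSet_div_log (σ : L ≃ₐ[K] L) : Tendsto
    (fun s : ℝ => (classSet σ).primeIdealZetaSum s / Real.log (1 / (s - 1))) (𝓝[>] 1)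
      (𝓝 ((Nat.card {τ : L ≃ₐ[K] L | IsConj σ τ} : ℝ) / Nat.card (L ≃ₐ[K] L))) := by
  have h := Tendsto.mul (hasDirichletDensity_classSet σ) (tendsto_univ_div_log (K := K))
  rw [mul_one] at h
  refine h.congr' ?_
  filter_upwards [(tendsto_univ_div_log (K := K)).eventually_ne one_ne_zero] with s hs
  exact div_mul_div_cancel₀ fun h0 => hs (by simp [h0])

/-- **The behaviour at `1` from above.** -/
theorem tendsto_artinLog_div_log {f : (L ≃ₐ[K] L) → ℂ} (hf : ∀ g x, f (g * x * g⁻¹) = f x) :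
    Tendsto (fun s : ℝ => artinLog f s / (Real.log (1 / (s - 1)) : ℂ)) (𝓝[>] 1)
      (𝓝 ((Nat.card (L ≃ₐ[K] L) : ℂ)⁻¹ * ∑ σ, f σ)) := by
  obtain ⟨R, hR⟩ := exists_finite_exceptions hf
  obtain ⟨B, hB⟩ := exists_higher_bound f
  set g := fun v => coef f v 1 - ∑ σ, if v ∈ classSet σ then weight f σ else 0 with hg
  have hfirst : ∀ s : ℝ, 1 < s → ∑' v, term f s (v, 0) =
      (∑ v ∈ R, g v * (zN s (primeIdeal v) : ℂ)) +
        ∑ σ, weight f σ * ((classSet σ).primeIdealZetaSum s : ℂ) := fun s hs => by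
    have hz : Summable fun v : HeightOneSpectrum (𝓞 K) => (zN s (primeIdeal v) : ℂ) :=
      Complex.summable_ofReal.2 (FA.Chebotarev.summable_zN_primeIdeal hs)
    have hσ : ∀ σ : L ≃ₐ[K] L, HasSum (fun v : HeightOneSpectrum (𝓞 K) =>
        weight f σ * (classSet σ).indicator (fun v => (zN s (primeIdeal v) : ℂ)) v)
        (weight f σ * ((classSet σ).primeIdealZetaSum s : ℂ)) := fun σ => by
      refine HasSum.mul_left _ ?_
      rw [FA.Chebotarev.primeIdealZetaSum_eq_zN, Complex.ofReal_tsum,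
        ← hasSum_subtype_iff_indicator]
      exact (hz.subtype _).hasSum
    have h1 : HasSum (fun v => g v * (zN s (primeIdeal v) : ℂ))
        (∑ v ∈ R, g v * (zN s (primeIdeal v) : ℂ)) :=
      hasSum_sum_of_ne_finset_zero fun v hv => by rw [hg]; simp [hR v hv]
    refine (h1.add (hasSum_sum fun σ _ => hσ σ)).tsum_eq ▸ tsum_congr fun v => ?_
    rw [term_zero_eq, hg]
    simp only [Set.indicator_apply, mul_ite, mul_zero, sub_mul, sum_mul, ite_mul, zero_mul]
    ring
  set rest := fun s : ℝ => artinLog f s - ∑ σ, weight f σ * ((classSet σ).primeIdealZetaSum s : ℂ)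
  have hrest : Tendsto (fun s : ℝ => rest s / (Real.log (1 / (s - 1)) : ℂ)) (𝓝[>] 1) (𝓝 0) := by
    refine squeeze_zero_norm' ?_
      (FA.Chebotarev.tendsto_log_atTop.const_div_atTop (B + ∑ v ∈ R, ‖g v‖))
    filter_upwards [self_mem_nhdsWithin,
      FA.Chebotarev.tendsto_log_atTop.eventually_gt_atTop 0] with s hs hpos
    rw [norm_div, Complex.norm_real, Real.norm_eq_abs, abs_of_pos hpos]
    refine div_le_div_of_nonneg_right ?_ hpos.le
    have h2 : rest s = (artinLog f s - ∑' v, term f s (v, 0)) +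
        ∑ v ∈ R, g v * (zN s (primeIdeal v) : ℂ) := by
      simp only [rest, hfirst s hs]
      ring
    rw [h2]
    refine (norm_add_le _ _).trans (add_le_add (hB s hs) ((norm_sum_le _ _).trans
      (sum_le_sum fun v _ => ?_)))
    rw [norm_mul, Complex.norm_real, Real.norm_eq_abs, abs_of_nonneg (zN_nonneg _ _)]
    exact mul_le_of_le_one_right (norm_nonneg _)
      ((zN_primeIdeal_le_half hs.le v).trans (by norm_num))
  have hmain := hrest.add (tendsto_finsetSum univ fun σ _ =>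
    ((Complex.continuous_ofReal.tendsto _).comp (tendsto_classSet_div_log σ)).const_mul
      (weight f σ))
  have hval : (0 : ℂ) + ∑ σ : L ≃ₐ[K] L, weight f σ *
      (((Nat.card {τ : L ≃ₐ[K] L | IsConj σ τ} : ℝ) / Nat.card (L ≃ₐ[K] L) : ℝ) : ℂ) =
      (Nat.card (L ≃ₐ[K] L) : ℂ)⁻¹ * ∑ σ, f σ := by
    rw [zero_add, mul_sum]
    refine sum_congr rfl fun σ _ => ?_
    push_cast
    rw [weight, div_mul_div_comm, mul_comm (f σ), mul_div_mul_left _ _ (conjClass_ne_zero σ),
      div_eq_inv_mul]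
  rw [← hval]
  refine hmain.congr fun s => ?_
  simp only [rest, Function.comp_apply, Complex.ofReal_div, mul_div_assoc', ← sum_div]
  rw [← add_div, sub_add_cancel]

/-- The absolute value at `1` from above. -/
theorem tendsto_log_norm_artinL_div_log {f : (L ≃ₐ[K] L) → ℂ}
    (hf : ∀ g x, f (g * x * g⁻¹) = f x) :
    Tendsto (fun s : ℝ => Real.log ‖artinL f s‖ / Real.log (1 / (s - 1))) (𝓝[>] 1)
      (𝓝 ((Nat.card (L ≃ₐ[K] L) : ℂ)⁻¹ * ∑ σ, f σ).re) :=
  ((Complex.continuous_re.tendsto _).comp (tendsto_artinLog_div_log hf)).congr fun s => by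
    rw [Function.comp_apply, Complex.div_ofReal_re, artinL, Complex.norm_exp, Real.log_exp]

end FA.ArtinL

end
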